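import Fermat.Agent.S43.Fin.Pow
import Fermat.Agent.S43.Fin.Pow2
import Fermat.Agent.S43.Fin.Data
import Fermat.Agent.S43.Tame.Rel

/-!
# S43 / T / XFacts : the level `X₀(M q)` inputs of the tower block, from the interface `(LOC) + (GA)` only

For `C : Fin.Ctx M q p`, `k ≤ C.e + 1`, `y ∈ C.J k`, `G = galKum (M q) (p ^ k)`, `N = G Sg - 1`:

* `i2b`  : `G Sg y = y → G Ph y = (ε q) • y`;
* `nn`, `N_mem` : `G Sg (N y) = N y`, `N y ∈ J k`;
* `rel`  : `G Ph (N y) = q • N (G Ph y)`;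
* `i2a`  : `N (G Ph y) = ε • N y`;
* `tPh`  : `G Ph y + q • G Ph⁻¹ y = (ε (q + 1)) • y`;
* `x1`   : `G Ph (G Sg y) + q • G Sg⁻¹ (G Ph⁻¹ y) = G Ph y + q • G Ph⁻¹ y`.
-/

set_option autoImplicit false

open AlgebraicCurve ModularCurve

namespace Fermat.Agent.S43.TX

open Fermat.Agent.ES Fermat.Agent.SS Fermat.Agent.S43.Fin

/-- abstract: a subgroup `I'` of `I` (killed by `p ^ (e + 1)`) with `I[p] ⊆ p ^ e I'` is everything. -/
theorem mem_of_div {X : Type*} [AddCommGroup X] (p e : ℕ) (I I' : AddSubgroup X) (hI' : I' ≤ I)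
    (hkill : ∀ y ∈ I, p ^ (e + 1) • y = 0)
    (h : ∀ P ∈ I, p • P = 0 → ∃ P' ∈ I', p ^ e • P' = P) : ∀ y ∈ I, y ∈ I' := by
  have key : ∀ j, j ≤ e + 1 → ∀ y ∈ I, p ^ j • y = 0 → y ∈ I' := by
    intro j
    induction j with
    | zero =>
      intro _ y _ hy
      rw [pow_zero, one_smul] at hy
      rw [hy]
      exact I'.zero_mem
    | succ j ih =>
      intro hj y hy h0
      obtain ⟨P', hP', hP⟩ := h (p ^ j • y) (I.nsmul_mem hy _)
        (by rw [smul_smul, ← pow_succ']; exact h0)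
      have h1 : y - p ^ (e - j) • P' ∈ I' :=
        ih (by omega) _ (I.sub_mem hy (I.nsmul_mem (hI' hP') _)) (by
          rw [smul_sub, smul_smul, ← pow_add, show j + (e - j) = e by omega, hP, sub_self])
      have h2 := I'.add_mem h1 (I'.nsmul_mem hP' (p ^ (e - j)))
      rwa [sub_add_cancel] at h2
  exact fun y hy => key (e + 1) le_rfl y hy (hkill y hy)

/-- abstract: a multiplier prime to the exponent is injective. -/
theorem eq_zero_of_coprime_nsmul {X : Type*} [AddCommGroup X] {a n : ℕ} (h : Nat.Coprime a n)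
    {z : X} (hn : n • z = 0) (ha : a • z = 0) : z = 0 := by
  have h1 : (Nat.gcd a n : ℤ) = a * Nat.gcdA a n + n * Nat.gcdB a n := Nat.gcd_eq_gcd_ab a n
  rw [h, Nat.cast_one] at h1
  have h2 : (1 : ℤ) • z = 0 := by
    rw [h1, add_smul, mul_comm, mul_smul, natCast_zsmul, ha, smul_zero, mul_comm, mul_smul,
      natCast_zsmul, hn, smul_zero, add_zero]
  rwa [one_smul] at h2

variable {M q p : ℕ} [NeZero M] [NeZero q] (C : Ctx M q p)

/-- (I2b) at exponent `p ^ K`. -/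
def I2b (K : ℕ) : Prop :=
  ∀ y ∈ C.J K, galKum (M * q) (p ^ K) C.Sg y = y →
    galKum (M * q) (p ^ K) C.Ph y = (C.ε * (q : ℤ)) • y

/-- (LOC) at exponent `p ^ K`. -/
def LOCk (K : ℕ) : Prop :=
  ∀ y ∈ C.J K, galKum (M * q) (p ^ K) C.Ph (galKum (M * q) (p ^ K) C.Ph y)
    - (C.ε * ((q : ℤ) + 1)) • galKum (M * q) (p ^ K) C.Ph y + (q : ℤ) • y = 0

theorem i2b_top (hGA : C.GA) : I2b C (C.e + 1) := by
  intro y hy hSy
  let I : AddSubgroup (Kum (M * q) (p ^ (C.e + 1))) :=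
    C.Jc ⊓ (C.g C.Sg - AddMonoidHom.id _).ker
  let I' : AddSubgroup (Kum (M * q) (p ^ (C.e + 1))) :=
    I ⊓ (C.g C.Ph - (C.ε * (q : ℤ)) • AddMonoidHom.id _).ker
  have hI : ∀ z, z ∈ I ↔ z ∈ C.Jc ∧ C.g C.Sg z = z := by
    intro z
    show z ∈ C.Jc ∧ (C.g C.Sg z - z = 0) ↔ _
    rw [sub_eq_zero]
  have hI'm : ∀ z, z ∈ I' ↔ z ∈ I ∧ C.g C.Ph z = (C.ε * (q : ℤ)) • z := by
    intro z
    show z ∈ I ∧ (C.g C.Ph z - (C.ε * (q : ℤ)) • z = 0) ↔ _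
    rw [sub_eq_zero]
  have := mem_of_div p C.e I I' inf_le_left (fun z _ => Kum.nsmul_eq_zero z) (by
    intro P hP hpP
    obtain ⟨hPJ, hPS⟩ := (hI P).1 hP
    obtain ⟨P', hP'J, h1, h2, h3⟩ := hGA P hPJ hpP hPS
    exact ⟨P', (hI'm P').2 ⟨(hI P').2 ⟨hP'J, h2⟩, h3⟩, h1⟩) y ((hI y).2 ⟨hy, hSy⟩)
  exact ((hI'm y).1 this).2

theorem I2b.down {k j : ℕ} (h : I2b C (k + j)) : I2b C k := by
  intro y hy hSy
  apply C.pw_injective k j
  rw [C.pw_gal, map_zsmul]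
  exact h _ ((C.pw_mem_J_iff k j y).2 hy) (by rw [← C.pw_gal, hSy])

theorem LOCk.down {k j : ℕ} (h : LOCk C (k + j)) : LOCk C k := by
  intro y hy
  apply C.pw_injective k j
  rw [map_add, map_sub, map_zsmul, map_zsmul, C.pw_gal, C.pw_gal, map_zero]
  exact h _ ((C.pw_mem_J_iff k j y).2 hy)

theorem i2b (hGA : C.GA) {k : ℕ} (hk : k ≤ C.e + 1) : I2b C k := by
  obtain ⟨j, hj⟩ := Nat.exists_eq_add_of_le hk
  have h := i2b_top C hGA
  rw [hj] at h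
  exact h.down

theorem lock (hLOC : C.LOC) {k : ℕ} (hk : k ≤ C.e + 1) : LOCk C k := by
  obtain ⟨j, hj⟩ := Nat.exists_eq_add_of_le hk
  have h : LOCk C (C.e + 1) := hLOC
  rw [hj] at h
  exact h.down

section Level

variable (k : ℕ)

include C in
theorem hqm : ¬ q ∣ p ^ k := fun h =>
  C.hqp ((Nat.prime_dvd_prime_iff_eq C.hq C.hp).1 (C.hq.dvd_of_dvd_pow h))

include C in
theorem coprime_q : Nat.Coprime q (p ^ k) :=
  Nat.Coprime.pow_right k ((Nat.coprime_primes C.hq C.hp).2 C.hqp)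

theorem eps_sq : C.ε * C.ε = 1 := by
  rcases C.hε with h | h <;> rw [h] <;> norm_num

omit [NeZero M] [NeZero q] in
theorem gal_inv (s : GQ) (x : Kum (M * q) (p ^ k)) :
    galKum (M * q) (p ^ k) s (galKum (M * q) (p ^ k) s⁻¹ x) = x := by
  rw [← galKum_mul, mul_inv_cancel, galKum_one]

omit [NeZero M] [NeZero q] in
theorem inv_gal (s : GQ) (x : Kum (M * q) (p ^ k)) :
    galKum (M * q) (p ^ k) s⁻¹ (galKum (M * q) (p ^ k) s x) = x := by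
  rw [← galKum_mul, inv_mul_cancel, galKum_one]

/-- `Σ (N y) = N y`. -/
theorem nn (y : Kum (M * q) (p ^ k)) :
    galKum (M * q) (p ^ k) C.Sg (galKum (M * q) (p ^ k) C.Sg y - y)
      = galKum (M * q) (p ^ k) C.Sg y - y :=
  core34 C.hq C.hqM (hqm C k) (GM2.crux2 M q (p ^ k) C.hq C.hqM (hqm C k)) C.A C.hA C.Sg C.Sg
    C.hSg.1 C.hSg.1 y

theorem N_mem {y : Kum (M * q) (p ^ k)} (hy : y ∈ C.J k) :
    galKum (M * q) (p ^ k) C.Sg y - y ∈ C.J k :=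
  (C.J k).sub_mem (C.galKum_mem_J C.Sg hy) hy

/-- `Φ N = q N Φ`. -/
theorem rel (y : Kum (M * q) (p ^ k)) :
    galKum (M * q) (p ^ k) C.Ph (galKum (M * q) (p ^ k) C.Sg y - y)
      = q • (galKum (M * q) (p ^ k) C.Sg (galKum (M * q) (p ^ k) C.Ph y)
          - galKum (M * q) (p ^ k) C.Ph y) :=
  Tame.frob_N C.hq C.hqM C.hp C.hqp C.A C.hA C.hPh C.hSg k C.hSg.1 y

variable {k}

/-- (I2a) `N Φ = ε N`. -/
theorem i2a (h : I2b C k) {y : Kum (M * q) (p ^ k)} (hy : y ∈ C.J k) :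
    galKum (M * q) (p ^ k) C.Sg (galKum (M * q) (p ^ k) C.Ph y) - galKum (M * q) (p ^ k) C.Ph y
      = C.ε • (galKum (M * q) (p ^ k) C.Sg y - y) := by
  have h1 := h _ (N_mem C k hy) (nn C k y)
  rw [rel C k y] at h1
  rw [← sub_eq_zero]
  apply eq_zero_of_coprime_nsmul (coprime_q C k) (Kum.nsmul_eq_zero _)
  rw [smul_sub, h1, mul_comm C.ε (q : ℤ), mul_smul, natCast_zsmul, sub_self]

/-- `t(Φ) = ε (q + 1)`. -/
theorem tPh (h : LOCk C k) {y : Kum (M * q) (p ^ k)} (hy : y ∈ C.J k) :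
    galKum (M * q) (p ^ k) C.Ph y + (q : ℤ) • galKum (M * q) (p ^ k) C.Ph⁻¹ y
      = (C.ε * ((q : ℤ) + 1)) • y := by
  have h1 := h (galKum (M * q) (p ^ k) C.Ph⁻¹ y) (C.galKum_mem_J _ hy)
  rw [gal_inv] at h1
  have h6 : galKum (M * q) (p ^ k) C.Ph y + (q : ℤ) • galKum (M * q) (p ^ k) C.Ph⁻¹ y
      = (galKum (M * q) (p ^ k) C.Ph y - (C.ε * ((q : ℤ) + 1)) • y
          + (q : ℤ) • galKum (M * q) (p ^ k) C.Ph⁻¹ y) + (C.ε * ((q : ℤ) + 1)) • y := by abel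
  rw [h6, h1, zero_add]

/-- `Σ⁻¹ z - z = - N z`. -/
theorem sg_inv (z : Kum (M * q) (p ^ k)) :
    galKum (M * q) (p ^ k) C.Sg⁻¹ z = z - (galKum (M * q) (p ^ k) C.Sg z - z) := by
  have h := sig_add_inv C.hq C.hqM (hqm C k) C.A C.hA C.hSg.1 z
  rw [two_smul] at h
  rw [eq_sub_iff_add_eq, ← add_sub_assoc, add_comm, h, add_sub_cancel_right]

/-- (X1) `t(Φ Σ) = t(Φ)`. -/
theorem x1 (h : I2b C k) {y : Kum (M * q) (p ^ k)} (hy : y ∈ C.J k) :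
    galKum (M * q) (p ^ k) C.Ph (galKum (M * q) (p ^ k) C.Sg y)
        + (q : ℤ) • galKum (M * q) (p ^ k) C.Sg⁻¹ (galKum (M * q) (p ^ k) C.Ph⁻¹ y)
      = galKum (M * q) (p ^ k) C.Ph y + (q : ℤ) • galKum (M * q) (p ^ k) C.Ph⁻¹ y := by
  have h1 := h _ (N_mem C k hy) (nn C k y)
  rw [map_sub] at h1
  have h2 := i2a C h (C.galKum_mem_J C.Ph⁻¹ hy)
  rw [gal_inv] at h2
  have h3 : galKum (M * q) (p ^ k) C.Sg (galKum (M * q) (p ^ k) C.Ph⁻¹ y)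
      - galKum (M * q) (p ^ k) C.Ph⁻¹ y = C.ε • (galKum (M * q) (p ^ k) C.Sg y - y) := by
    rw [h2, smul_smul, eps_sq, one_smul]
  rw [sg_inv, h3, eq_add_of_sub_eq h1]
  generalize galKum (M * q) (p ^ k) C.Sg y - y = n
  rw [smul_sub (q : ℤ), smul_smul, mul_comm (q : ℤ) C.ε]
  abel

end Level

end Fermat.Agent.S43.TX
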