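import Fermat.Agent.S43.Fin.SignAll
import Fermat.Agent.S43.T.XFacts

/-!
# S43 / T / L10x : leaf (L10) of the tower block

`Φ Σ v + q Σ⁻¹ Φ⁻¹ v = Φ v + q Φ⁻¹ v` on the WHOLE `θ`-part `Vth (M q) (p ^ k)`, `k ≤ e + 1` (both signs), from `TX.x1` for `C` and for
the flipped context, and (SIGN).
-/

set_option autoImplicit false

open AlgebraicCurve ModularCurve

namespace Fermat.Agent.S43.T.L10x

open Fermat.Agent.ES Fermat.Agent.SS Fermat.Agent.S43.Fin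

variable {M q p : ℕ} [NeZero M] [NeZero q]

/-- **(L10)**, integer scalars, every exponent `p ^ k`, `k ≤ e + 1`. -/
theorem l10k (hX : XBlock M q p) (C : Ctx M q p) (he : 1 ≤ C.e) {k : ℕ} (hk : k ≤ C.e + 1)
    (v : Kum (M * q) (p ^ k)) (hv : v ∈ Vth (M * q) (p ^ k) C.S C.a) :
    galKum (M * q) (p ^ k) C.Ph (galKum (M * q) (p ^ k) C.Sg v)
        + (q : ℤ) • galKum (M * q) (p ^ k) C.Sg⁻¹ (galKum (M * q) (p ^ k) C.Ph⁻¹ v)
      = galKum (M * q) (p ^ k) C.Ph v + (q : ℤ) • galKum (M * q) (p ^ k) C.Ph⁻¹ v := by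
  rcases sign hX C he with h | h
  · have hJ : v ∈ C.J k := (C.mem_J).2 ⟨hv, h _ v hv⟩
    exact TX.x1 C (TX.i2b C (hX C).2 hk) hJ
  · have hJ : v ∈ C.Sign_flip.J k := by
      refine (C.Sign_flip.mem_J).2 ⟨hv, ?_⟩
      change wKum C.hw C.hq (p ^ k) v = -((-C.ε) • v)
      rw [neg_smul, neg_neg]
      exact h _ v hv
    exact TX.x1 C.Sign_flip (TX.i2b C.Sign_flip (hX C.Sign_flip).2 hk) hJ

/-- **(L10)**, integer scalars. -/
theorem l10 (hX : XBlock M q p) (C : Ctx M q p) (he : 1 ≤ C.e)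
    (v : Kum (M * q) (p ^ (C.e + 1))) (hv : v ∈ Vth (M * q) (p ^ (C.e + 1)) C.S C.a) :
    galKum (M * q) (p ^ (C.e + 1)) C.Ph (galKum (M * q) (p ^ (C.e + 1)) C.Sg v)
        + (q : ℤ) • galKum (M * q) (p ^ (C.e + 1)) C.Sg⁻¹ (galKum (M * q) (p ^ (C.e + 1)) C.Ph⁻¹ v)
      = galKum (M * q) (p ^ (C.e + 1)) C.Ph v
        + (q : ℤ) • galKum (M * q) (p ^ (C.e + 1)) C.Ph⁻¹ v :=
  l10k hX C he le_rfl v hv

/-- **(L10)**, natural scalars. -/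
theorem l10' (hX : XBlock M q p) (C : Ctx M q p) (he : 1 ≤ C.e)
    (v : Kum (M * q) (p ^ (C.e + 1))) (hv : v ∈ Vth (M * q) (p ^ (C.e + 1)) C.S C.a) :
    galKum (M * q) (p ^ (C.e + 1)) C.Ph (galKum (M * q) (p ^ (C.e + 1)) C.Sg v)
        + q • galKum (M * q) (p ^ (C.e + 1)) C.Sg⁻¹ (galKum (M * q) (p ^ (C.e + 1)) C.Ph⁻¹ v)
      = galKum (M * q) (p ^ (C.e + 1)) C.Ph v + q • galKum (M * q) (p ^ (C.e + 1)) C.Ph⁻¹ v := by
  have h := l10 hX C he v hv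
  rwa [natCast_zsmul, natCast_zsmul] at h

end Fermat.Agent.S43.T.L10x
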