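import Fermat.Agent.S43.Fin.Defs
import Fermat.Agent.S43.Fin.Cyc
import Fermat.Agent.S43.CH.F1
import Fermat.Agent.S43.Free.Grp
import Fermat.Agent.S43.Tame.Cyc
import Fermat.Agent.S43.R0.Pull

/-!
# S43 / T / Dia : the diamond operators and Cayley-Hamilton on `KK = B1.Kum Qb (F1Q (M q)).F (p ^ K)` for a `Fin.Ctx`

`C : Fin.Ctx M q p`, `N = M q`, `c1 = cyc N Σ`, `GH = {d : (d mod q) ^ k' = 1}`, `k' = (q - 1) / p ^ e`.

* `unitsMap_cyc`                 : compatibility of the cyclotomic characters `CH.cyc`;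
* `cyc_Ph_mem_GH`, `unitsMap_c1`, `orderOf_chi_c1`, `c1_pow_mem_GH`, `exists_pow_mul` (every diamond is `c1 ^ i * h`, `h ∈ GH`);
* `FixGH`                        : the classes fixed by the diamonds of `GH`; stability under Galois, diamonds, Hecke;
* `dia_all_of_c1`                : fixed by `GH` and by `⟨c1⟩` implies fixed by all diamonds;
* `tOp_Sg`, `tOp_Ph`, `tOp_SgPh` : the three trace operators on `FixGH`;
* `tS_comm`, `tF_comm`, `tSF_comm` : (CH) in the shape of the fields `tS`, `tF`, `tSF` of `GS.Tower` (elementwise).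
-/

set_option autoImplicit false
set_option linter.unusedSectionVars false
set_option linter.style.haveILetI false

namespace Fermat.Agent.S43.TD

open Fermat.Agent.ES (Qb GQ)
open Fermat.Agent.S43.CH (cyc cyc_spec cyc_eq_of tOp)
open Fermat.Agent.S48 Fermat.Agent.S48.B1

/-- compatibility of the cyclotomic characters. -/
theorem unitsMap_cyc {d N : ℕ} [NeZero d] [NeZero N] (h : d ∣ N) (g : GQ) :
    ZMod.unitsMap h (cyc N g) = cyc d g := by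
  apply Units.ext
  rw [ZMod.unitsMap_val]
  symm
  rw [cyc_eq_of d g (((cyc N g : (ZMod N)ˣ) : ZMod N)).val (fun z hz => ?_), ZMod.natCast_val]
  obtain ⟨k, rfl⟩ := h
  exact cyc_spec _ g z (by rw [pow_mul, hz, one_pow])

section gen

variable {Q : QField} {N : ℕ} [NeZero N] (H : HeckeData Q N) (m : ℕ)

theorem diaKum_mul' (c d : (ZMod N)ˣ) (x : Kum Qb Q.F m) :
    diaKum H m (c * d) x = diaKum H m c (diaKum H m d x) :=
  congrArg (fun e => e x) (map_mul (diaRepZ H m) c d)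

theorem diaKum_one' (x : Kum Qb Q.F m) : diaKum H m 1 x = x :=
  congrArg (fun e => e x) (map_one (diaRepZ H m))

theorem diaKum_pow_of_fix {c : (ZMod N)ˣ} {x : Kum Qb Q.F m} (h : diaKum H m c x = x) (i : ℕ) :
    diaKum H m (c ^ i) x = x := by
  induction i with
  | zero => rw [pow_zero, diaKum_one']
  | succ i ih => rw [pow_succ, diaKum_mul', h, ih]

theorem diaKum_inv_apply (c : (ZMod N)ˣ) (x : Kum Qb Q.F m) :
    diaKum H m c⁻¹ (diaKum H m c x) = x := by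
  rw [← diaKum_mul', inv_mul_cancel, diaKum_one']

theorem diaKum_apply_inv (c : (ZMod N)ˣ) (x : Kum Qb Q.F m) :
    diaKum H m c (diaKum H m c⁻¹ x) = x := by
  rw [← diaKum_mul', mul_inv_cancel, diaKum_one']

end gen

variable {M q p : ℕ} [NeZero M] [NeZero q] (C : Fin.Ctx M q p)

/-- `k' = (q - 1) / p ^ e`. -/
def kk : ℕ := (q - 1) / p ^ C.e

theorem pow_mul_kk : p ^ C.e * kk C = q - 1 := Nat.mul_div_cancel' C.he

theorem coprime_kk : Nat.Coprime (p ^ C.e) (kk C) := by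
  apply Nat.Coprime.pow_left
  rw [Nat.Prime.coprime_iff_not_dvd C.hp]
  rintro ⟨c, hc⟩
  apply C.he'
  rw [← pow_mul_kk C, hc, pow_succ]
  exact ⟨c, by ring⟩

/-- `c1 = cyc N Σ`. -/
noncomputable def c1 : (ZMod (M * q))ˣ := cyc (M * q) C.Sg

/-- the diamonds whose `q`-component has order prime to `p`. -/
def GH : Subgroup (ZMod (M * q))ˣ := Free.GH M q (kk C)

theorem cyc_Ph_mem_GH : cyc (M * q) C.Ph ∈ GH C :=
  Free.mem_GH_of_unitsMap_eq_one (by rw [unitsMap_cyc, C.hPh1])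

theorem unitsMap_c1 : ZMod.unitsMap (dvd_mul_right M q) (c1 C) = 1 := by
  rw [c1, unitsMap_cyc, Fin.cyc_inertia M C.hq C.hqM C.A C.hA C.Sg C.hSg.1]

theorem chi_c1 : Free.chi M q (kk C) (c1 C) = cyc q C.Sg ^ kk C := by
  rw [Free.chi_apply, c1, unitsMap_cyc]

theorem orderOf_chi_c1 : orderOf (Free.chi M q (kk C) (c1 C)) = p ^ C.e := by
  rw [chi_c1]
  exact Tame.IsGenOn.orderOf_cyc_pow C.hp C.hq C.A C.hA (pow_mul_kk C).symm C.hSg

theorem c1_pow_mem_GH : c1 C ^ p ^ C.e ∈ GH C := by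
  show Free.chi M q (kk C) (c1 C ^ p ^ C.e) = 1
  rw [map_pow, ← orderOf_chi_c1 C, pow_orderOf_eq_one]

include C in
theorem coprime_Mq : Nat.Coprime M q :=
  ((Nat.Prime.coprime_iff_not_dvd C.hq).2 C.hqM).symm

/-- every diamond is `c1 ^ i * h`, `h ∈ GH`. -/
theorem exists_pow_mul (he : 1 ≤ C.e) (d : (ZMod (M * q))ˣ) :
    ∃ i : ℕ, ∃ h ∈ GH C, d = c1 C ^ i * h := by
  haveI : Fact q.Prime := ⟨C.hq⟩
  have hn : 1 < p ^ C.e := Nat.one_lt_pow (by omega) C.hp.one_lt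
  obtain ⟨d0, -, -, -, ⟨e, rfl⟩, hb⟩ := Free.grp_main hn (pow_mul_kk C) (coprime_kk C) (c1 C)
    (by rw [pow_mul_kk C]; exact Free.pow_eq_one_of_unitsMap (coprime_Mq C) _ (unitsMap_c1 C))
    (orderOf_chi_c1 C)
  obtain ⟨⟨i, h⟩, hih⟩ := hb.2 d
  exact ⟨e * i, h, h.2, by rw [pow_mul]; exact hih.symm⟩

theorem five_le (he : 1 ≤ C.e) : 5 ≤ M * q := by
  have h1 : p ∣ q - 1 := (dvd_pow_self p (by omega)).trans C.he
  have h2 : 0 < q - 1 := by have := C.hq.two_le; omega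
  have h3 := Nat.le_of_dvd h2 h1
  have h4 := C.hp5
  have h5 : 0 < M := Nat.pos_of_ne_zero (NeZero.ne M)
  calc 5 ≤ q := by omega
    _ ≤ M * q := Nat.le_mul_of_pos_left _ h5

noncomputable section

variable (hN : 5 ≤ M * q) (m : ℕ)

/-- the Kummer module of `X₁(M q)`. -/
abbrev KK (M q m : ℕ) [NeZero M] [NeZero q] : Type := Kum Qb (X1.F1Q (M * q)).F m

/-- Galois. -/
abbrev gl (M q m : ℕ) [NeZero M] [NeZero q] (s : GQ) : KK M q m →+ KK M q m :=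
  galKum (X1.F1Q (M * q)) m s

/-- diamonds. -/
abbrev di (c : (ZMod (M * q))ˣ) : KK M q m →+ KK M q m := diaKum (R0.HD hN) m c

/-- the classes fixed by the diamonds of `GH`. -/
def FixGH : AddSubgroup (KK M q m) where
  carrier := {x | ∀ c ∈ GH C, di hN m c x = x}
  add_mem' := fun {x y} hx hy c hc => by rw [map_add, hx c hc, hy c hc]
  zero_mem' := fun c _ => map_zero _
  neg_mem' := fun {x} hx c hc => by rw [map_neg, hx c hc]

variable {m}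

theorem mem_FixGH {x : KK M q m} : x ∈ FixGH C hN m ↔ ∀ c ∈ GH C, di hN m c x = x := Iff.rfl

theorem gl_mem_FixGH (s : GQ) {x : KK M q m} (hx : x ∈ FixGH C hN m) :
    gl M q m s x ∈ FixGH C hN m := fun c hc => by
  rw [diaKum_galKum, hx c hc]

theorem di_mem_FixGH (d : (ZMod (M * q))ˣ) {x : KK M q m} (hx : x ∈ FixGH C hN m) :
    di hN m d x ∈ FixGH C hN m := fun c hc => by
  rw [diaKum_comm, hx c hc]

theorem hecke_mem_FixGH (hD : (R0.HD hN).PreservesDm m) (P : Fermat.Agent.ES.D.GoodPrime (M * q))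
    {x : KK M q m} (hx : x ∈ FixGH C hN m) : heckeKum (R0.HD hN) hD P x ∈ FixGH C hN m :=
  fun c hc => by rw [diaKum_heckeKum, hx c hc]

theorem pull_mem_FixGH (x : Fermat.Agent.ES.Kum (M * q) m) : R0.pull hN m x ∈ FixGH C hN m :=
  fun c _ => R0.dia_pull hN c x

/-- fixed by `GH` and by `⟨c1⟩` implies fixed by all the diamonds. -/
theorem dia_all_of_c1 (he : 1 ≤ C.e) {x : KK M q m} (hx : x ∈ FixGH C hN m)
    (h1 : di hN m (c1 C) x = x) (d : (ZMod (M * q))ˣ) : di hN m d x = x := by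
  obtain ⟨i, h, hh, rfl⟩ := exists_pow_mul C he d
  rw [diaKum_mul', hx h hh, diaKum_pow_of_fix _ _ h1]

/-- `⟨c1⟩ ^ (p ^ e) = 1` on `FixGH`. -/
theorem dia_c1_pow {x : KK M q m} (hx : x ∈ FixGH C hN m) : di hN m (c1 C ^ p ^ C.e) x = x :=
  hx _ (c1_pow_mem_GH C)

/-- two diamonds which agree modulo `GH` agree on `FixGH`. -/
theorem dia_eq_of_mem_GH {c d : (ZMod (M * q))ˣ} (h : c * d⁻¹ ∈ GH C) {x : KK M q m}
    (hx : x ∈ FixGH C hN m) : di hN m c x = di hN m d x := by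
  have : c = d * (c * d⁻¹) := by rw [mul_comm c, mul_inv_cancel_left]
  rw [this, diaKum_mul', hx _ h]

/-! ### the three trace operators -/

variable {K : ℕ} [NeZero (p ^ K)]

theorem HH_eq : CH.HH (M * q) hN = R0.HD hN := rfl

include C in
theorem not_dvd_pow : ¬ q ∣ p ^ K := fun h =>
  C.hqp ((Nat.prime_dvd_prime_iff_eq C.hq C.hp).1 (C.hq.dvd_of_dvd_pow h))

theorem tOp_Sg (x : KK M q (p ^ K)) :
    tOp (R0.HD hN) (p ^ K) C.Sg x
      = gl M q (p ^ K) C.Sg x + di hN (p ^ K) (c1 C) (gl M q (p ^ K) C.Sg⁻¹ x) := by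
  have h1 : ((cyc (p ^ K) C.Sg : (ZMod (p ^ K))ˣ) : ZMod (p ^ K)) = ((1 : ℕ) : ZMod (p ^ K)) := by
    rw [Fin.cyc_inertia_val (p ^ K) C.hq (not_dvd_pow C) C.A C.hA C.Sg C.hSg.1, Nat.cast_one]
  rw [tOp, CH.val_nsmul_eq _ h1, one_smul]
  rfl

theorem tOp_Ph {x : KK M q (p ^ K)} (hx : x ∈ FixGH C hN (p ^ K)) :
    tOp (R0.HD hN) (p ^ K) C.Ph x
      = gl M q (p ^ K) C.Ph x + q • gl M q (p ^ K) C.Ph⁻¹ x := by
  have h1 := Fin.cyc_frobenius (p ^ K) C.hq (not_dvd_pow C) C.A C.hA C.Ph C.hPh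
  rw [tOp, CH.val_nsmul_eq _ h1, gl_mem_FixGH C hN C.Ph⁻¹ hx _ (cyc_Ph_mem_GH C)]

theorem tOp_SgPh {x : KK M q (p ^ K)} (hx : x ∈ FixGH C hN (p ^ K)) :
    tOp (R0.HD hN) (p ^ K) (C.Sg * C.Ph) x
      = gl M q (p ^ K) C.Sg (gl M q (p ^ K) C.Ph x)
        + q • di hN (p ^ K) (c1 C) (gl M q (p ^ K) C.Ph⁻¹ (gl M q (p ^ K) C.Sg⁻¹ x)) := by
  have h1 : ((cyc (p ^ K) (C.Sg * C.Ph) : (ZMod (p ^ K))ˣ) : ZMod (p ^ K)) = (q : ZMod (p ^ K)) := by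
    rw [map_mul, Units.val_mul,
      Fin.cyc_inertia_val (p ^ K) C.hq (not_dvd_pow C) C.A C.hA C.Sg C.hSg.1, one_mul,
      Fin.cyc_frobenius (p ^ K) C.hq (not_dvd_pow C) C.A C.hA C.Ph C.hPh]
  rw [tOp, CH.val_nsmul_eq _ h1, map_mul, diaKum_mul', mul_inv_rev, galKum_mul, galKum_mul,
    gl_mem_FixGH C hN C.Ph⁻¹ (gl_mem_FixGH C hN C.Sg⁻¹ hx) _ (cyc_Ph_mem_GH C)]
  rfl

/-- (CH) for `Σ`. -/
theorem tS_comm (hK : K ≠ 0) (g : GQ) (x : KK M q (p ^ K)) :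
    gl M q (p ^ K) g (gl M q (p ^ K) C.Sg x + di hN (p ^ K) (c1 C) (gl M q (p ^ K) C.Sg⁻¹ x))
      = gl M q (p ^ K) C.Sg (gl M q (p ^ K) g x)
        + di hN (p ^ K) (c1 C) (gl M q (p ^ K) C.Sg⁻¹ (gl M q (p ^ K) g x)) := by
  rw [← tOp_Sg, ← tOp_Sg]
  exact CH.ch_F1 (M * q) hN C.hp hK C.Sg g x

/-- (CH) for `Φ`. -/
theorem tF_comm (hK : K ≠ 0) (g : GQ) {x : KK M q (p ^ K)} (hx : x ∈ FixGH C hN (p ^ K)) :
    gl M q (p ^ K) g (gl M q (p ^ K) C.Ph x + q • gl M q (p ^ K) C.Ph⁻¹ x)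
      = gl M q (p ^ K) C.Ph (gl M q (p ^ K) g x) + q • gl M q (p ^ K) C.Ph⁻¹ (gl M q (p ^ K) g x) := by
  rw [← tOp_Ph C hN hx, ← tOp_Ph C hN (gl_mem_FixGH C hN g hx)]
  exact CH.ch_F1 (M * q) hN C.hp hK C.Ph g x

/-- (CH) for `Σ Φ`. -/
theorem tSF_comm (hK : K ≠ 0) (g : GQ) {x : KK M q (p ^ K)} (hx : x ∈ FixGH C hN (p ^ K)) :
    gl M q (p ^ K) g (gl M q (p ^ K) C.Sg (gl M q (p ^ K) C.Ph x)
        + q • di hN (p ^ K) (c1 C) (gl M q (p ^ K) C.Ph⁻¹ (gl M q (p ^ K) C.Sg⁻¹ x)))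
      = gl M q (p ^ K) C.Sg (gl M q (p ^ K) C.Ph (gl M q (p ^ K) g x))
        + q • di hN (p ^ K) (c1 C)
            (gl M q (p ^ K) C.Ph⁻¹ (gl M q (p ^ K) C.Sg⁻¹ (gl M q (p ^ K) g x))) := by
  rw [← tOp_SgPh C hN hx, ← tOp_SgPh C hN (gl_mem_FixGH C hN g hx)]
  exact CH.ch_F1 (M * q) hN C.hp hK (C.Sg * C.Ph) g x

theorem tOp_PhSg {x : KK M q (p ^ K)} (hx : x ∈ FixGH C hN (p ^ K)) :
    tOp (R0.HD hN) (p ^ K) (C.Ph * C.Sg) x
      = gl M q (p ^ K) C.Ph (gl M q (p ^ K) C.Sg x)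
        + q • di hN (p ^ K) (c1 C) (gl M q (p ^ K) C.Sg⁻¹ (gl M q (p ^ K) C.Ph⁻¹ x)) := by
  have h1 : ((cyc (p ^ K) (C.Ph * C.Sg) : (ZMod (p ^ K))ˣ) : ZMod (p ^ K)) = (q : ZMod (p ^ K)) := by
    rw [map_mul, Units.val_mul,
      Fin.cyc_inertia_val (p ^ K) C.hq (not_dvd_pow C) C.A C.hA C.Sg C.hSg.1, mul_one,
      Fin.cyc_frobenius (p ^ K) C.hq (not_dvd_pow C) C.A C.hA C.Ph C.hPh]
  rw [tOp, CH.val_nsmul_eq _ h1, map_mul, mul_comm (cyc (M * q) C.Ph), diaKum_mul', mul_inv_rev,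
    galKum_mul, galKum_mul,
    gl_mem_FixGH C hN C.Sg⁻¹ (gl_mem_FixGH C hN C.Ph⁻¹ hx) _ (cyc_Ph_mem_GH C)]
  rfl

/-- (CH) for `Φ Σ`  (= (L3) of the board post #3711). -/
theorem tFS_comm (hK : K ≠ 0) (g : GQ) {x : KK M q (p ^ K)} (hx : x ∈ FixGH C hN (p ^ K)) :
    gl M q (p ^ K) C.Ph (gl M q (p ^ K) C.Sg (gl M q (p ^ K) g x))
        + q • di hN (p ^ K) (c1 C)
            (gl M q (p ^ K) C.Sg⁻¹ (gl M q (p ^ K) C.Ph⁻¹ (gl M q (p ^ K) g x)))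
      = gl M q (p ^ K) g (gl M q (p ^ K) C.Ph (gl M q (p ^ K) C.Sg x)
        + q • di hN (p ^ K) (c1 C) (gl M q (p ^ K) C.Sg⁻¹ (gl M q (p ^ K) C.Ph⁻¹ x))) := by
  rw [← tOp_PhSg C hN hx, ← tOp_PhSg C hN (gl_mem_FixGH C hN g hx)]
  exact (CH.ch_F1 (M * q) hN C.hp hK (C.Ph * C.Sg) g x).symm

/-- (CH) for `Φ`  (= (L2) of the board post #3711). -/
theorem tF_comm' (hK : K ≠ 0) (g : GQ) {x : KK M q (p ^ K)} (hx : x ∈ FixGH C hN (p ^ K)) :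
    gl M q (p ^ K) C.Ph (gl M q (p ^ K) g x) + q • gl M q (p ^ K) C.Ph⁻¹ (gl M q (p ^ K) g x)
      = gl M q (p ^ K) g (gl M q (p ^ K) C.Ph x + q • gl M q (p ^ K) C.Ph⁻¹ x) :=
  (tF_comm C hN hK g hx).symm

end

end Fermat.Agent.S43.TD
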