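import Fermat.Agent.S43.R2W.Out
import Fermat.Agent.S43.Th.KK
import Fermat.Agent.S43.Ctl.Abs
import Fermat.Agent.S43.Free.Grp

/-!
# S43 / T / IoStab : `ι = w_q` preserves the `θ`-part `K0` of `KK` and `HH = Nm_{G_H} K0`

`w` does NOT commute with `T_ℓ` (`T_ℓ w = w ⟨ℓ_q⟩⁻¹ T_ℓ`); it preserves `K0` because the diamonds are unipotent on `K0`.

* `twist_pow`, `conj_pow` : abstract lemmas;
* `wK_mem_K0`  : `y ∈ Th.K0 → R2O.wK y ∈ Th.K0`;
* `sw_sw`, `sw_mem_GH` : `sw` is an involution preserving `Free.GH M q k'`;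
* `wK_NH`, `wK_mem_HH` : `w Nm_{G_H} = Nm_{G_H} w`, `y ∈ Ctl.HH GH ρ K0 → w y ∈ Ctl.HH GH ρ K0`.
-/

set_option autoImplicit false

namespace Fermat.Agent.S43.R2S

section abs

variable {X : Type*} [AddCommGroup X]

/-- **twisted generalized eigenvectors.**  `T w = w D T`, `D` commutes with `T`, `(T-a)^n₁ y = 0`, `(D-1)^n₂ y = 0`:
then `(T-a)^(n₁+n₂) (w y) = 0`. -/
theorem twist_pow (T D w : Module.End ℤ X) (a : ℤ) (hTD : Commute T D) (hTw : T * w = w * (D * T))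
    (y : X) (n₁ n₂ : ℕ) (h₁ : ((T - algebraMap ℤ (Module.End ℤ X) a) ^ n₁) y = 0)
    (h₂ : ((D - 1) ^ n₂) y = 0) :
    ((T - algebraMap ℤ (Module.End ℤ X) a) ^ (n₁ + n₂)) (w y) = 0 := by
  set ac : Module.End ℤ X := algebraMap ℤ (Module.End ℤ X) a with hac
  set A : Module.End ℤ X := T - ac with hA
  set Bo : Module.End ℤ X := D - 1 with hB
  have ha : ∀ Z : Module.End ℤ X, Commute ac Z := fun Z => Algebra.commutes a Z
  have hAD : Commute A D := hTD.sub_left (ha D)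
  have hAB : Commute A Bo := hAD.sub_right (Commute.one_right A)
  have hDB : Commute D Bo := (Commute.refl D).sub_right (Commute.one_right D)
  have e1 : A * w = w * (D * A + ac * Bo) := by
    have : D * A + ac * Bo = D * T - ac := by
      rw [hA, hB, mul_sub, mul_sub, mul_one, (ha D).eq]; abel
    rw [this, hA, sub_mul, mul_sub, hTw, (ha w).eq]
  have e2 : ∀ n : ℕ, A ^ n * w = w * (D * A + ac * Bo) ^ n := by
    intro n
    induction n with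
    | zero => simp
    | succ n ih => rw [pow_succ, mul_assoc, e1, ← mul_assoc, ih, mul_assoc, ← pow_succ]
  have hc : Commute (D * A) (ac * Bo) := (ha (D * A)).symm.mul_right (hDB.mul_left hAB)
  have e3 : (A ^ (n₁ + n₂)) (w y) = w (((D * A + ac * Bo) ^ (n₁ + n₂)) y) := by
    have := congrArg (fun f : Module.End ℤ X => f y) (e2 (n₁ + n₂))
    exact this
  rw [e3, hc.add_pow]
  have key : ∀ i ∈ Finset.range (n₁ + n₂ + 1),
      ((D * A) ^ i * (ac * Bo) ^ (n₁ + n₂ - i) * ((n₁ + n₂).choose i : Module.End ℤ X)) y = 0 := by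
    intro i _
    have hch : Commute (((n₁ + n₂).choose i : ℕ) : Module.End ℤ X)
        ((D * A) ^ i * (ac * Bo) ^ (n₁ + n₂ - i)) := Nat.cast_commute _ _
    rw [← hch.eq]
    have h0 : ((D * A) ^ i * (ac * Bo) ^ (n₁ + n₂ - i)) y = 0 := by
      rw [(hAD.symm).mul_pow, (ha Bo).mul_pow]
      by_cases hi : n₁ ≤ i
      · have h3 : (A ^ i) y = 0 := by
          obtain ⟨j, rfl⟩ := Nat.exists_eq_add_of_le hi
          rw [add_comm, pow_add]
          show (A ^ j) ((A ^ n₁) y) = 0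
          rw [h₁, map_zero]
        have hcomm : Commute (A ^ i) (ac ^ (n₁ + n₂ - i) * Bo ^ (n₁ + n₂ - i)) :=
          (((ha A).symm.pow_right _).mul_right (hAB.pow_right _)).pow_left _
        rw [mul_assoc, hcomm.eq]
        show (D ^ i) ((ac ^ (n₁ + n₂ - i) * Bo ^ (n₁ + n₂ - i)) ((A ^ i) y)) = 0
        rw [h3, map_zero, map_zero]
      · have hi' : n₂ ≤ n₁ + n₂ - i := by omega
        obtain ⟨j, hj⟩ := Nat.exists_eq_add_of_le hi'
        show (D ^ i) ((A ^ i) ((ac ^ (n₁ + n₂ - i)) ((Bo ^ (n₁ + n₂ - i)) y))) = 0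
        have h4 : (Bo ^ (n₁ + n₂ - i)) y = 0 := by
          rw [hj, add_comm n₂ j, pow_add]
          show (Bo ^ j) ((Bo ^ n₂) y) = 0
          rw [h₂, map_zero]
        rw [h4, map_zero, map_zero, map_zero]
    show (((n₁ + n₂).choose i : ℕ) : Module.End ℤ X)
      (((D * A) ^ i * (ac * Bo) ^ (n₁ + n₂ - i)) y) = 0
    rw [h0, map_zero]
  rw [LinearMap.sum_apply, Finset.sum_eq_zero key, map_zero]

/-- conjugation of `(D - 1)^n`. -/
theorem conj_pow (D D' w : Module.End ℤ X) (c : Module.End ℤ X) (hc : Commute c w)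
    (h : D * w = w * D') (n : ℕ) :
    (D - c) ^ n * w = w * (D' - c) ^ n := by
  induction n with
  | zero => simp
  | succ n ih =>
    rw [pow_succ, mul_assoc, sub_mul, h, hc.eq, ← mul_sub, ← mul_assoc, ih, mul_assoc, ← pow_succ]

end abs

open Fermat.Agent.S48 Fermat.Agent.S43.R0
open Fermat.Agent.ES (Qb GQ)
open Fermat.Agent.SS (GP)

noncomputable section

variable {M q : ℕ} [NeZero M] [Fact q.Prime] (hqM : ¬ q ∣ M) (hN : 5 ≤ M * q)
  {p : ℕ} (hp : p.Prime) (k : ℕ) {S : Finset ℕ}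
  (hNS : ∀ r : ℕ, r.Prime → r ∣ M * q → r ∈ S) (hpS : p ∈ S) (a : ℕ → ℤ)

/-- `w` as a `ℤ`-linear map. -/
def wL : Module.End ℤ (B1.Kum Qb (X1.F1Q (M * q)).F (p ^ k)) :=
  ((R2O.wK hqM hN (p ^ k)).toAddMonoidHom).toIntLinearMap

theorem wL_apply (x : B1.Kum Qb (X1.F1Q (M * q)).F (p ^ k)) :
    wL (p := p) hqM hN k x = R2O.wK hqM hN (p ^ k) x := rfl

theorem DrK_wL (d : (ZMod (M * q))ˣ) :
    Th.DrK (p := p) hN k d * wL hqM hN k = wL hqM hN k * Th.DrK hN k (R2O.sw hqM d) :=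
  LinearMap.ext fun x => R2O.dia_wK hqM hN d x

include hpS in
theorem TlK_wL (ℓ : GP S) :
    Th.TlK hN hp k hNS ℓ * wL hqM hN k
      = wL hqM hN k * (Th.DrK hN k (R2O.prq hqM (Th.gK hNS ℓ))⁻¹ * Th.TlK hN hp k hNS ℓ) := by
  refine LinearMap.ext fun x => ?_
  have h := R2O.wK_hecke hqM hN hp k (ℓ.good hNS) (fun h => ℓ.2.2 (h ▸ hpS))
    (B1.diaKum (HD hN) (p ^ k) (R2O.prq hqM (B1.gpUnit (ℓ.good hNS)))⁻¹ x)
  rw [R2K.diaKum_diaKum_inv] at h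
  show B1.heckeKum (HD hN) (Th.hDK hN hp k) (ℓ.good hNS) (R2O.wK hqM hN (p ^ k) x)
    = R2O.wK hqM hN (p ^ k) (B1.diaKum (HD hN) (p ^ k) (R2O.prq hqM (B1.gpUnit (ℓ.good hNS)))⁻¹
        (B1.heckeKum (HD hN) (Th.hDK hN hp k) (ℓ.good hNS) x))
  rw [B1.diaKum_heckeKum]
  exact h.symm

include hpS in
/-- **`w_q` preserves the `θ`-part.** -/
theorem wK_mem_K0 {y : B1.Kum Qb (X1.F1Q (M * q)).F (p ^ k)} (hy : y ∈ Th.K0 hN hp k hNS a) :
    R2O.wK hqM hN (p ^ k) y ∈ Th.K0 hN hp k hNS a := by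
  rw [Th.mem_K0] at hy ⊢
  refine ⟨fun ℓ => ?_, fun d => ?_⟩
  · obtain ⟨n₁, h₁⟩ := hy.1 ℓ
    obtain ⟨n₂, h₂⟩ := hy.2 (R2O.prq hqM (Th.gK hNS ℓ))⁻¹
    rw [map_one] at h₂
    exact ⟨n₁ + n₂, twist_pow _ _ (wL hqM hN k) (a ℓ.1) (Th.DrK_TlK_comm hN hp k hNS _ ℓ).symm
      (TlK_wL hqM hN hp k hNS hpS ℓ) y n₁ n₂ h₁ h₂⟩
  · obtain ⟨n, hn⟩ := hy.2 (R2O.sw hqM d)
    refine ⟨n, ?_⟩
    have h := congrArg (fun f : Module.End ℤ _ => f y)
      (conj_pow _ _ (wL hqM hN k) (algebraMap ℤ _ 1) (Algebra.commutes _ _) (DrK_wL hqM hN k d) n)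
    have h' : ((Th.DrK hN k d - algebraMap ℤ _ 1) ^ n) (wL hqM hN k y)
        = wL hqM hN k (((Th.DrK hN k (R2O.sw hqM d) - algebraMap ℤ _ 1) ^ n) y) := h
    rw [hn, map_zero] at h'
    exact h'

/-! ### `sw` -/

theorem prq_sw (d : (ZMod (M * q))ˣ) : R2O.prq hqM (R2O.sw hqM d) = (R2O.prq hqM d)⁻¹ := by
  unfold R2O.sw
  rw [map_mul, map_mul, map_inv, R2O.prq_prq, mul_inv_cancel, one_mul]

theorem sw_sw (d : (ZMod (M * q))ˣ) : R2O.sw hqM (R2O.sw hqM d) = d := by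
  conv_lhs => rw [R2O.sw, prq_sw, inv_inv, R2O.sw]
  rw [inv_mul_cancel_right, inv_mul_cancel_right]

/-- `prq d ≡ d mod q`. -/
theorem unitsMap_prq (d : (ZMod (M * q))ˣ) :
    ZMod.unitsMap (dvd_mul_left q M) (R2O.prq hqM d) = ZMod.unitsMap (dvd_mul_left q M) d := by
  apply Units.ext
  rw [ZMod.unitsMap_val, ZMod.unitsMap_val]
  have h := congrArg (ZMod.castHom (dvd_mul_left q M) (ZMod q)) (R2O.prq_mul_M hqM d)
  rw [map_mul, map_mul, map_natCast] at h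
  have hM : (M : ZMod q) ≠ 0 := by
    rw [Ne, ZMod.natCast_eq_zero_iff]
    exact hqM
  exact mul_right_cancel₀ hM h

theorem sw_mem_GH {k' : ℕ} {d : (ZMod (M * q))ˣ} (hd : d ∈ Free.GH M q k') :
    R2O.sw hqM d ∈ Free.GH M q k' := by
  rw [Free.mem_GH] at hd ⊢
  unfold R2O.sw
  rw [map_mul, map_mul, map_inv, unitsMap_prq, mul_inv_cancel, one_mul, inv_pow, hd, inv_one]

/-! ### `HH` -/

variable (GH : Subgroup (ZMod (M * q))ˣ) [Fintype GH]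

/-- `w Nm_{G_H} = Nm_{G_H} w`. -/
theorem wK_NH (hsw : ∀ d ∈ GH, R2O.sw hqM d ∈ GH) {m : ℕ}
    (z : B1.Kum Qb (X1.F1Q (M * q)).F m) :
    R2O.wK hqM hN m (Ctl.NH GH (fun d => B1.diaKum (HD hN) m d) z)
      = Ctl.NH GH (fun d => B1.diaKum (HD hN) m d) (R2O.wK hqM hN m z) := by
  rw [Ctl.NH_apply, Ctl.NH_apply, map_sum]
  let e : GH ≃ GH :=
    { toFun := fun h => ⟨R2O.sw hqM h, hsw _ h.2⟩
      invFun := fun h => ⟨R2O.sw hqM h, hsw _ h.2⟩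
      left_inv := fun h => Subtype.ext (sw_sw hqM _)
      right_inv := fun h => Subtype.ext (sw_sw hqM _) }
  refine Fintype.sum_equiv e _ _ fun h => ?_
  show R2O.wK hqM hN m (B1.diaKum (HD hN) m (h : (ZMod (M * q))ˣ) z)
    = B1.diaKum (HD hN) m (R2O.sw hqM h) (R2O.wK hqM hN m z)
  rw [R2O.dia_wK, sw_sw]

include hpS in
/-- **`w_q` preserves `HH = Nm_{G_H} K0`.** -/
theorem wK_mem_HH (hsw : ∀ d ∈ GH, R2O.sw hqM d ∈ GH)
    {y : B1.Kum Qb (X1.F1Q (M * q)).F (p ^ k)}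
    (hy : y ∈ Ctl.HH GH (fun d => B1.diaKum (HD hN) (p ^ k) d) (Th.K0 hN hp k hNS a)) :
    R2O.wK hqM hN (p ^ k) y
      ∈ Ctl.HH GH (fun d => B1.diaKum (HD hN) (p ^ k) d) (Th.K0 hN hp k hNS a) := by
  obtain ⟨z, hz, rfl⟩ := hy
  exact ⟨R2O.wK hqM hN (p ^ k) z, wK_mem_K0 hqM hN hp k hNS hpS a hz,
    (wK_NH hqM hN GH hsw z).symm⟩

end

end Fermat.Agent.S43.R2S
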