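import Fermat.Agent.S43.R2W.OutRes
import Fermat.Agent.S43.T.Dia
import Fermat.Agent.S43.T.IoStab

/-!
# S43 / T / L6 : the fields (L6) + `io_mem` of `T.IsRel` for the concrete data

`dl = ⟨c1⟩`, `c1 = cyc (M q) Σ`, `io = R2O.wK`, `gK = B1.galKum`, `pull = R0.pull`, `wV = SS.wKum`.
All the relations hold on the whole of `KK` (any exponent `m`).
-/

set_option autoImplicit false
set_option linter.unusedSectionVars false

open AlgebraicCurve ModularCurve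

namespace Fermat.Agent.S43.TL6

open Fermat.Agent.S48 Fermat.Agent.S48.B1 Fermat.Agent.S43.CH
open Fermat.Agent.ES (Qb GQ)

noncomputable section

variable {M q p : ℕ} [NeZero M] [NeZero q] [Fact q.Prime] (C : Fin.Ctx M q p) (hN : 5 ≤ M * q) (m : ℕ)

theorem mul_of_cast_eq_one {N a b : ℕ} [NeZero N] (hab : a ∣ N) (hN : a * b = N) {x : ZMod N}
    (h : ZMod.castHom hab (ZMod a) x = 1) : x * (b : ZMod N) = b := by
  have hx : x = ((x.val : ℤ) : ZMod N) := by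
    rw [Int.cast_natCast, ZMod.natCast_zmod_val]
  rw [hx, map_intCast] at h
  have h2 : ((x.val : ℤ) : ZMod a) = ((1 : ℤ) : ZMod a) := by rw [h, Int.cast_one]
  rw [ZMod.intCast_eq_intCast_iff_dvd_sub] at h2
  obtain ⟨t, ht⟩ := h2
  have h3 : ((x.val : ℤ) : ZMod N) = 1 - (a : ZMod N) * (t : ZMod N) := by
    have : (x.val : ℤ) = 1 - (a : ℤ) * t := by linarith
    rw [this]; push_cast; ring
  have h4 : (a : ZMod N) * (b : ZMod N) = 0 := by
    rw [← Nat.cast_mul, hN, ZMod.natCast_self]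
  rw [hx, h3]
  linear_combination (-(t : ZMod N)) * h4

/-- a unit which is `1 mod M`. -/
theorem mul_q_of_unitsMap {d : (ZMod (M * q))ˣ}
    (h : ZMod.unitsMap (dvd_mul_right M q) d = 1) :
    (d : ZMod (M * q)) * (q : ZMod (M * q)) = q := by
  have h1 : ZMod.castHom (dvd_mul_right M q) (ZMod M) (d : ZMod (M * q)) = 1 := by
    have := congrArg Units.val h
    rwa [ZMod.unitsMap_val, Units.val_one] at this
  exact mul_of_cast_eq_one (dvd_mul_right M q) rfl h1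

/-- a unit which is `1 mod q`. -/
theorem mul_M_of_unitsMap {d : (ZMod (M * q))ˣ}
    (h : ZMod.unitsMap (dvd_mul_left q M) d = 1) :
    (d : ZMod (M * q)) * (M : ZMod (M * q)) = M := by
  have h1 : ZMod.castHom (dvd_mul_left q M) (ZMod q) (d : ZMod (M * q)) = 1 := by
    have := congrArg Units.val h
    rwa [ZMod.unitsMap_val, Units.val_one] at this
  exact mul_of_cast_eq_one (dvd_mul_left q M) (mul_comm q M) h1

theorem c1_mul_q : ((TD.c1 C : (ZMod (M * q))ˣ) : ZMod (M * q)) * (q : ZMod (M * q)) = q :=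
  mul_q_of_unitsMap (TD.unitsMap_c1 C)

theorem cq_Sg : R2O.cq C.hqM C.Sg = TD.c1 C :=
  R2O.prq_of_mul_q C.hqM (c1_mul_q C)

theorem cq_Ph : R2O.cq C.hqM C.Ph = 1 :=
  R2O.prq_of_mul_M C.hqM (mul_M_of_unitsMap (by rw [TD.unitsMap_cyc, C.hPh1]))

/-- (L6) `δ ι δ = ι`. -/
theorem io_dl (y : Kum Qb (X1.F1Q (M * q)).F m) :
    diaKum (R0.HD hN) m (TD.c1 C) (R2O.wK C.hqM hN m (diaKum (R0.HD hN) m (TD.c1 C) y))
      = R2O.wK C.hqM hN m y := by
  rw [R2O.dia_wK_of_mul_q C.hqM hN (c1_mul_q C), R2K.diaKum_inv_diaKum]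

/-- (L6) `ι Φ = Φ ι`. -/
theorem io_Ph (y : Kum Qb (X1.F1Q (M * q)).F m) :
    R2O.wK C.hqM hN m (galKum (X1.F1Q (M * q)) m C.Ph y)
      = galKum (X1.F1Q (M * q)) m C.Ph (R2O.wK C.hqM hN m y) := by
  rw [R2O.wK_gal, cq_Ph, R2K.diaKum_one]

/-- (L6) `δ ι Σ = Σ ι`. -/
theorem io_Sg (y : Kum Qb (X1.F1Q (M * q)).F m) :
    diaKum (R0.HD hN) m (TD.c1 C) (R2O.wK C.hqM hN m (galKum (X1.F1Q (M * q)) m C.Sg y))
      = galKum (X1.F1Q (M * q)) m C.Sg (R2O.wK C.hqM hN m y) := by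
  rw [R2O.gal_wK, cq_Sg]

/-- (L6) `ι` is injective. -/
theorem io_inj (y : Kum Qb (X1.F1Q (M * q)).F m) (h : R2O.wK C.hqM hN m y = 0) : y = 0 :=
  (R2O.wK C.hqM hN m).injective (h.trans (map_zero _).symm)

/-- (L6) `ι π^* = π^* w`. -/
theorem io_pull (v : ES.Kum (M * q) m) :
    R2O.wK C.hqM hN m (R0.pull hN m v) = R0.pull hN m (SS.wKum C.hw C.hq m v) :=
  R2O.wK_pull C.hqM hN C.hw m v

/-- `sw` preserves `GH`. -/
theorem sw_mem_GH {d : (ZMod (M * q))ˣ} (hd : d ∈ TD.GH C) : R2O.sw C.hqM d ∈ TD.GH C :=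
  R2S.sw_mem_GH C.hqM hd

/-- (L0) `ι` preserves `HH = Nm_{G_H} K0`. -/
theorem io_mem (k : ℕ) [Fintype (TD.GH C)]
    (hNS : ∀ r : ℕ, r.Prime → r ∣ M * q → r ∈ C.S)
    {y : Kum Qb (X1.F1Q (M * q)).F (p ^ k)}
    (hy : y ∈ Ctl.HH (TD.GH C) (fun d => diaKum (R0.HD hN) (p ^ k) d)
      (Th.K0 hN C.hp k hNS C.a)) :
    R2O.wK C.hqM hN (p ^ k) y ∈ Ctl.HH (TD.GH C) (fun d => diaKum (R0.HD hN) (p ^ k) d)
      (Th.K0 hN C.hp k hNS C.a) :=
  R2S.wK_mem_HH C.hqM hN C.hp k hNS C.hpS C.a (TD.GH C) (fun _ hd => sw_mem_GH C hd) hy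

end

end Fermat.Agent.S43.TL6
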