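import Fermat.Agent.S43.Ctl.Main
import Fermat.Agent.S43.PB.Theta
import Fermat.Agent.S43.Th.KK
import Fermat.Agent.S43.Th.Bridge
import Fermat.Agent.S43.T.Dia

/-!
# S43 / T / L7 : the leaves (L7), (L0) and the (H1) package of the tower block, CONCRETE and UNCONDITIONAL

* `Ctl.hyp'`   : `Ctl.Hyp` for `(KK, Kum N (p ^ k), Th.K0, Fin.Vth, diaKum, π^*, π_*)`, `c = 2`, no hypothesis left
                 (`p ≥ 5`, `p ∤ N`, `p ∈ S`, one non Eisenstein prime);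
* for `C : Fin.Ctx M q p`, `1 ≤ C.e`, `hN : 5 ≤ M q`, any exponent `p ^ k`, any instance `[Fintype (TD.GH C)]`,
  `HH = Ctl.HH (TD.GH C) (diaKum (HD hN) (p ^ k)) (Th.K0 hN C.hp k (hNS C) C.a)`, `VV = Fin.Vth (M q) (p ^ k) C.S C.a`,
  `dl = diaKum (HD hN) (p ^ k) (TD.c1 C)`:
  `T7.hypC`, `T7.bij`,
  (L0) `gal_mem`, `dia_mem`, `dl_mem`, `pull_mem`, `kill`, `HH_le_K0`, `mem_FixGH`,
  (L7) `ker_w`, `pull_inj`, `dl_pull`, `pull_gal`,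
  (H1) `nd_pull` (`Nm_Δ y = π^* v`), `pull_nd` (`π^* v = Nm_Δ y`), `ker_nd` (`Nm_Δ y = 0 → y = dl y' - y'`), with `Nm_Δ y = ∑_{i < p ^ e} dl^[i] y`,
  `dl_iterate` (`dl^[p ^ e] y = y` on `HH`).
-/

set_option autoImplicit false
set_option linter.unusedSectionVars false
set_option linter.unusedVariables false
set_option linter.style.haveILetI false

open AlgebraicCurve ModularCurve

namespace Fermat.Agent.S43.Ctl

open Fermat.Agent.S48 Fermat.Agent.S43.R0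
open Fermat.Agent.ES (Qb GQ FF)
open Fermat.Agent.SS (GP)

noncomputable section

variable {N : ℕ} [NeZero N] (hN : 5 ≤ N) {p : ℕ} (hp : p.Prime) (k : ℕ) {S : Finset ℕ}
  (hNS : ∀ r : ℕ, r.Prime → r ∣ N → r ∈ S) (a : ℕ → ℤ)

theorem K0_eq : K0 hN hp k S hNS a = Th.K0 hN hp k hNS a := rfl

include hp in
theorem inv_holds (hp5 : 5 ≤ p) (hpN : ¬ p ∣ N) : INV hN (p ^ k) := fun y hy σ e he =>
  PB.exists_pull_eq hN (pow_pos hp.pos k) (PB.coprime_pow_of hp hp5 hpN k) y hy σ e he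

/-- **the concrete control package, unconditional.** -/
theorem hyp' [S26.FF1 Qb (X1.F1Q N).F] (hp5 : 5 ≤ p) (hpN : ¬ p ∣ N) (hpS : p ∈ S)
    (ℓ0 : GP S) (hℓ0 : ¬ (p : ℤ) ∣ a ℓ0.1 - ((ℓ0.1 : ℤ) + 1)) :
    Hyp (S15.W.e1Hom (K := Qb) (F := (X1.F1Q N).F) (pow_pos hp.pos k).ne')
      (S15.W.e1NHom (N := N) (pow_pos hp.pos k).ne')
      (fun d => B1.diaKum (HD hN) (p ^ k) d) (pull hN (p ^ k)) (push hN (p ^ k))
      (Th.K0 hN hp k hNS a) (Fin.Vth N (p ^ k) S a) 2 ((p ^ k + 1) / 2) := by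
  rw [Th.Fin_Vth_eq (hNS := hNS)]
  exact hyp hN hp k hNS a (by omega) hpS (inv_holds hN hp k hp5 hpN) ℓ0 hℓ0

end

end Fermat.Agent.S43.Ctl

namespace Fermat.Agent.S43.T7

open Fermat.Agent.S48 Fermat.Agent.S43.R0
open Fermat.Agent.ES (Qb GQ FF)
open Fermat.Agent.SS (GP)

noncomputable section

variable {M q p : ℕ} [NeZero M] [NeZero q] (C : Fin.Ctx M q p)

theorem hNS : ∀ r : ℕ, r.Prime → r ∣ M * q → r ∈ C.S := by
  intro r hr h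
  rcases (Nat.Prime.dvd_mul hr).1 h with h | h
  · exact C.hMS r hr h
  · rw [(Nat.prime_dvd_prime_iff_eq hr C.hq).1 h]
    exact C.hqS

include C in
theorem hpN : ¬ p ∣ M * q := by
  intro h
  rcases (Nat.Prime.dvd_mul C.hp).1 h with h | h
  · exact C.hpM h
  · exact C.hqp ((Nat.prime_dvd_prime_iff_eq C.hp C.hq).1 h).symm

theorem exists_nonEis : ∃ ℓ0 : GP C.S, ¬ (p : ℤ) ∣ C.a ℓ0.1 - ((ℓ0.1 : ℤ) + 1) := by
  obtain ⟨ℓ, hℓ, hS, h⟩ := C.hnE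
  refine ⟨⟨ℓ, hℓ, hS⟩, fun h' => h ?_⟩
  have : C.W.apOfModel ℓ - (ℓ : ℤ) - 1 = C.a ℓ - ((ℓ : ℤ) + 1) := by
    show C.W.apOfModel ℓ - (ℓ : ℤ) - 1 = C.W.apOfModel ℓ - ((ℓ : ℤ) + 1)
    ring
  rw [this]
  exact h'

/-- the decomposition of the diamonds: `(i, h) ↦ c1 ^ i * h`. -/
theorem bij (he : 1 ≤ C.e) : Function.Bijective
    (fun x : Fin (p ^ C.e) × TD.GH C => TD.c1 C ^ (x.1 : ℕ) * (x.2 : (ZMod (M * q))ˣ)) := by
  have hpos : 0 < p ^ C.e := pow_pos C.hp.pos _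
  constructor
  · rintro ⟨i, h⟩ ⟨j, h'⟩ hij
    have hij' : TD.c1 C ^ (i : ℕ) * (h : (ZMod (M * q))ˣ) = TD.c1 C ^ (j : ℕ) * (h' : (ZMod (M * q))ˣ) :=
      hij
    have h1 := congrArg (Free.chi M q (TD.kk C)) hij'
    have hh : Free.chi M q (TD.kk C) (h : (ZMod (M * q))ˣ) = 1 := h.2
    have hh' : Free.chi M q (TD.kk C) (h' : (ZMod (M * q))ˣ) = 1 := h'.2
    rw [map_mul, map_mul, map_pow, map_pow, hh, hh', mul_one, mul_one] at h1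
    have h2 : (i : ℕ) = j := by
      refine pow_injOn_Iio_orderOf ?_ ?_ h1
      · rw [TD.orderOf_chi_c1]; exact i.2
      · rw [TD.orderOf_chi_c1]; exact j.2
    have h3 : i = j := Fin.ext h2
    subst h3
    have h4 : (h : (ZMod (M * q))ˣ) = h' := mul_left_cancel hij'
    rw [Subtype.ext h4]
  · intro d
    obtain ⟨i, h, hh, rfl⟩ := TD.exists_pow_mul C he d
    refine ⟨(⟨i % p ^ C.e, Nat.mod_lt _ hpos⟩,
      ⟨(TD.c1 C ^ p ^ C.e) ^ (i / p ^ C.e) * h,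
        (TD.GH C).mul_mem ((TD.GH C).pow_mem (TD.c1_pow_mem_GH C) _) hh⟩), ?_⟩
    show TD.c1 C ^ (i % p ^ C.e) * ((TD.c1 C ^ p ^ C.e) ^ (i / p ^ C.e) * h) = TD.c1 C ^ i * h
    rw [← mul_assoc, ← pow_mul, ← pow_add, Nat.mod_add_div]

variable (hN : 5 ≤ M * q) (k : ℕ)

/-- the control package for `C`. -/
theorem hypC [S26.FF1 Qb (X1.F1Q (M * q)).F] :
    Ctl.Hyp (S15.W.e1Hom (K := Qb) (F := (X1.F1Q (M * q)).F) (pow_pos C.hp.pos k).ne')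
      (S15.W.e1NHom (N := M * q) (pow_pos C.hp.pos k).ne')
      (fun d => B1.diaKum (HD hN) (p ^ k) d) (pull hN (p ^ k)) (push hN (p ^ k))
      (Th.K0 hN C.hp k (hNS C) C.a) (Fin.Vth (M * q) (p ^ k) C.S C.a) 2 ((p ^ k + 1) / 2) := by
  obtain ⟨ℓ0, hℓ0⟩ := exists_nonEis C
  exact Ctl.hyp' hN C.hp k (hNS C) C.a C.hp5 (hpN C) C.hpS ℓ0 hℓ0

variable [Fintype (TD.GH C)]

local notation "HHc" => Ctl.HH (TD.GH C) (fun d => B1.diaKum (HD hN) (p ^ k) d)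
  (Th.K0 hN C.hp k (hNS C) C.a)
local notation "VVc" => Fin.Vth (M * q) (p ^ k) C.S C.a
local notation "dlc" => B1.diaKum (HD hN) (p ^ k) (TD.c1 C)

/-! ### (L0) -/

theorem HH_le_K0 {y : B1.Kum Qb (X1.F1Q (M * q)).F (p ^ k)} (hy : y ∈ HHc) :
    y ∈ Th.K0 hN C.hp k (hNS C) C.a := by
  haveI := ThK.ff1_F1 hN
  exact (hypC C hN k).HH_le hy

theorem dia_mem (d : (ZMod (M * q))ˣ) {y : B1.Kum Qb (X1.F1Q (M * q)).F (p ^ k)} (hy : y ∈ HHc) :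
    B1.diaKum (HD hN) (p ^ k) d y ∈ HHc := by
  haveI := ThK.ff1_F1 hN
  exact (hypC C hN k).ρ_mem_HH d hy

theorem dl_mem {y : B1.Kum Qb (X1.F1Q (M * q)).F (p ^ k)} (hy : y ∈ HHc) : dlc y ∈ HHc :=
  dia_mem C hN k _ hy

theorem gal_mem (s : GQ) {y : B1.Kum Qb (X1.F1Q (M * q)).F (p ^ k)} (hy : y ∈ HHc) :
    B1.galKum (X1.F1Q (M * q)) (p ^ k) s y ∈ HHc := by
  obtain ⟨z, hz, rfl⟩ := hy
  refine ⟨B1.galKum (X1.F1Q (M * q)) (p ^ k) s z,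
    Ctl.gal_mem_K0 hN C.hp k (hNS C) C.a s hz, ?_⟩
  rw [Ctl.NH_apply, Ctl.NH_apply, map_sum]
  exact Finset.sum_congr rfl fun g _ => B1.diaKum_galKum (HD hN) _ s z

theorem kill (y : B1.Kum Qb (X1.F1Q (M * q)).F (p ^ k)) : (p ^ k) • y = 0 :=
  B1.Kum.nsmul_eq_zero y

/-- the elements of `HH` are fixed by the diamonds of `GH`. -/
theorem mem_FixGH {y : B1.Kum Qb (X1.F1Q (M * q)).F (p ^ k)} (hy : y ∈ HHc) :
    y ∈ TD.FixGH C hN (p ^ k) := by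
  haveI := ThK.ff1_F1 hN
  obtain ⟨z, hz, rfl⟩ := hy
  intro c hc
  show B1.diaKum (HD hN) (p ^ k) c _ = _
  have h1 := (hypC C hN k).ρ_NH (GH := TD.GH C) c z
  have h2 := (hypC C hN k).NH_ρ_of_mem (GH := TD.GH C) ⟨c, hc⟩ z
  exact h1.trans h2

/-! ### `Nm_Δ` -/

theorem dia_pow (d : (ZMod (M * q))ˣ) (i : ℕ) (y : B1.Kum Qb (X1.F1Q (M * q)).F (p ^ k)) :
    B1.diaKum (HD hN) (p ^ k) (d ^ i) y = (B1.diaKum (HD hN) (p ^ k) d)^[i] y := by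
  induction i with
  | zero => rw [pow_zero, TD.diaKum_one', Function.iterate_zero, id]
  | succ i ih => rw [pow_succ', TD.diaKum_mul', ih, Function.iterate_succ_apply']

theorem ND_eq (y : B1.Kum Qb (X1.F1Q (M * q)).F (p ^ k)) :
    Ctl.ND (TD.c1 C) (p ^ C.e) (fun d => B1.diaKum (HD hN) (p ^ k) d) y
      = ∑ i ∈ Finset.range (p ^ C.e), dlc^[i] y := by
  rw [Ctl.ND_apply]
  exact Finset.sum_congr rfl fun i _ => dia_pow hN k _ i y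

theorem dl_iterate {y : B1.Kum Qb (X1.F1Q (M * q)).F (p ^ k)} (hy : y ∈ HHc) :
    dlc^[p ^ C.e] y = y := by
  rw [← dia_pow]
  exact TD.dia_c1_pow C hN (mem_FixGH C hN k hy)

/-! ### (H1) -/

theorem nd_pull (he : 1 ≤ C.e) {y : B1.Kum Qb (X1.F1Q (M * q)).F (p ^ k)} (hy : y ∈ HHc) :
    ∃ v ∈ VVc, pull hN (p ^ k) v = ∑ i ∈ Finset.range (p ^ C.e), dlc^[i] y := by
  haveI := ThK.ff1_F1 hN
  rw [← ND_eq]
  exact (hypC C hN k).ND_eq_pull (bij C he) y hy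

theorem pull_nd (he : 1 ≤ C.e) {v : ES.Kum (M * q) (p ^ k)} (hv : v ∈ VVc) :
    ∃ y ∈ HHc, ∑ i ∈ Finset.range (p ^ C.e), dlc^[i] y = pull hN (p ^ k) v := by
  haveI := ThK.ff1_F1 hN
  obtain ⟨y, hy, h⟩ := (hypC C hN k).pull_eq_ND (bij C he) v hv
  exact ⟨y, hy, by rw [← ND_eq, h]⟩

theorem ker_nd (he : 1 ≤ C.e) {y : B1.Kum Qb (X1.F1Q (M * q)).F (p ^ k)} (hy : y ∈ HHc)
    (h0 : ∑ i ∈ Finset.range (p ^ C.e), dlc^[i] y = 0) : ∃ y' ∈ HHc, dlc y' - y' = y := by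
  haveI := ThK.ff1_F1 hN
  rw [← ND_eq] at h0
  exact (hypC C hN k).ker_ND (bij C he) y hy h0

theorem pull_mem (he : 1 ≤ C.e) {v : ES.Kum (M * q) (p ^ k)} (hv : v ∈ VVc) :
    pull hN (p ^ k) v ∈ HHc := by
  obtain ⟨y, hy, h⟩ := pull_nd C hN k he hv
  rw [← h]
  refine AddSubgroup.sum_mem _ fun i _ => ?_
  rw [← dia_pow]
  exact dia_mem C hN k _ hy

/-! ### (L7) -/

theorem ker_w (he : 1 ≤ C.e) {y : B1.Kum Qb (X1.F1Q (M * q)).F (p ^ k)} (hy : y ∈ HHc)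
    (h : dlc y = y) : ∃ v ∈ VVc, pull hN (p ^ k) v = y := by
  haveI := ThK.ff1_F1 hN
  obtain ⟨y', hy', rfl⟩ := (hypC C hN k).ker_w (bij C he) y hy h
  exact (hypC C hN k).ND_eq_pull (bij C he) y' hy'

theorem pull_inj {v : ES.Kum (M * q) (p ^ k)} (hv : v ∈ VVc) (h : pull hN (p ^ k) v = 0) :
    v = 0 := by
  haveI := ThK.ff1_F1 hN
  exact (hypC C hN k).inj v hv h

theorem dl_pull (v : ES.Kum (M * q) (p ^ k)) : dlc (pull hN (p ^ k) v) = pull hN (p ^ k) v :=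
  dia_pull hN _ v

theorem pull_gal' (s : GQ) (v : ES.Kum (M * q) (p ^ k)) :
    pull hN (p ^ k) (ES.galKum (M * q) (p ^ k) s v)
      = B1.galKum (X1.F1Q (M * q)) (p ^ k) s (pull hN (p ^ k) v) := pull_gal hN s v

theorem push_surj {v : ES.Kum (M * q) (p ^ k)} (hv : v ∈ VVc) :
    ∃ y ∈ Th.K0 hN C.hp k (hNS C) C.a, push hN (p ^ k) y = v := by
  haveI := ThK.ff1_F1 hN
  exact (hypC C hN k).push_surj v hv

end

end Fermat.Agent.S43.T7
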