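import Mathlib

/-!
# S43 / T / L8Abs : the formal half of leaf (L8) of the tower block

`w = δ - 1`, `n = p ^ e`, `p ≥ 5`, `p ^ (e + 1) y = 0`  ⟹  `p • ∑_{i < n} δ^i y = w⁴ u` with `u ∈ ℤ[δ] y`.

Reason: `∑_{i < n} (1 + w)^i = ∑_{j < n} C(n, j + 1) w^j` and `n ∣ C(n, j)` for `1 ≤ j ≤ 4` (as `p ≥ 5`).
-/

set_option autoImplicit false

namespace Fermat.Agent.S43.T.L8

open Finset

/-- `∑_{i < n} (1 + x)^i = ∑_{j < n} C(n, j + 1) x^j`. -/
theorem geom_one_add {R : Type*} [CommRing R] (x : R) (n : ℕ) :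
    ∑ i ∈ range n, (1 + x) ^ i = ∑ j ∈ range n, (n.choose (j + 1) : R) * x ^ j := by
  induction n with
  | zero => simp
  | succ n ih =>
    rw [sum_range_succ, ih, add_comm 1 x, add_pow, sum_range_succ (fun j => ((n + 1).choose (j + 1) : R) * x ^ j)]
    rw [sum_range_succ (fun m => x ^ m * 1 ^ (n - m) * (n.choose m : R))]
    rw [← add_assoc, ← sum_add_distrib]
    congr 1
    · refine sum_congr rfl fun j _ => ?_
      rw [Nat.choose_succ_succ' n j, Nat.cast_add]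
      ring
    · simp

/-- `p ^ e ∣ C(p ^ e, j)` for `1 ≤ j < p`. -/
theorem pow_dvd_choose {p : ℕ} (hp : p.Prime) (e j : ℕ) (hjp : j + 1 < p) :
    p ^ e ∣ (p ^ e).choose (j + 1) := by
  have hpos : 0 < p ^ e := pow_pos hp.pos e
  obtain ⟨n, hn⟩ := Nat.exists_eq_succ_of_ne_zero hpos.ne'
  have h := Nat.add_one_mul_choose_eq n j
  rw [Nat.succ_eq_add_one] at hn
  rw [← hn] at h
  have hc : Nat.Coprime (p ^ e) (j + 1) :=
    Nat.Coprime.pow_left e ((Nat.Prime.coprime_iff_not_dvd hp).2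
      (Nat.not_dvd_of_pos_of_lt (Nat.succ_pos j) hjp))
  exact hc.dvd_of_dvd_mul_right (Dvd.intro _ h)

variable {H : Type*} [AddCommGroup H]

/-- the operator identity `∑_{i < n} δ^i = ∑_{j < n} C(n, j + 1) (δ - 1)^j`. -/
theorem sum_pow_eq (D : Module.End ℤ H) (n : ℕ) (y : H) :
    ∑ i ∈ range n, (D ^ i) y = ∑ j ∈ range n, (n.choose (j + 1)) • ((D - 1) ^ j) y := by
  have h := congrArg (Polynomial.aeval (D - 1)) (geom_one_add (Polynomial.X : Polynomial ℤ) n)
  simp only [map_sum, map_mul, map_pow, map_add, map_one, Polynomial.aeval_X, map_natCast,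
    add_sub_cancel] at h
  have h2 := congrArg (fun f : Module.End ℤ H => f y) h
  simp only [LinearMap.sum_apply, Module.End.mul_apply] at h2
  rw [h2]
  refine sum_congr rfl fun j _ => ?_
  rw [Module.End.natCast_apply]

/-- **(L8), formal half**, operator form. -/
theorem lift_end {p : ℕ} (hp : p.Prime) (hp5 : 5 ≤ p) (e : ℕ) (D : Module.End ℤ H)
    (HH : AddSubgroup H) (hD : ∀ y ∈ HH, D y ∈ HH) (y : H) (hy : y ∈ HH)
    (hk : p ^ (e + 1) • y = 0) :
    ∃ u ∈ HH, ((D - 1) ^ 4 : Module.End ℤ H) u = p • ∑ i ∈ range (p ^ e), (D ^ i) y := by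
  have hW : ∀ z ∈ HH, (D - 1) z ∈ HH := fun z hz => by
    rw [LinearMap.sub_apply, Module.End.one_apply]
    exact HH.sub_mem (hD z hz) hz
  have hWj : ∀ j : ℕ, ((D - 1) ^ j) y ∈ HH := by
    intro j
    induction j with
    | zero => simpa using hy
    | succ j ih =>
      rw [pow_succ', Module.End.mul_apply]
      exact hW _ ih
  have key : ∀ j : ℕ, ∃ u ∈ HH,
      ((D - 1) ^ 4 : Module.End ℤ H) u = p • ((p ^ e).choose (j + 1)) • ((D - 1) ^ j) y := by
    intro j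
    by_cases hj : j < 4
    · refine ⟨0, HH.zero_mem, ?_⟩
      obtain ⟨c, hc⟩ := pow_dvd_choose hp e j (by omega)
      rw [map_zero, hc, smul_smul, ← mul_assoc, ← pow_succ', mul_comm, mul_smul, ← map_nsmul, hk,
        map_zero, smul_zero]
    · refine ⟨p • ((p ^ e).choose (j + 1)) • ((D - 1) ^ (j - 4)) y,
        HH.nsmul_mem (HH.nsmul_mem (hWj _) _) _, ?_⟩
      rw [map_nsmul, map_nsmul, ← Module.End.mul_apply, ← pow_add]
      congr 4
      omega
  choose u hu hu' using key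
  refine ⟨∑ j ∈ range (p ^ e), u j, HH.sum_mem fun j _ => hu j, ?_⟩
  rw [map_sum, sum_pow_eq, smul_sum]
  exact sum_congr rfl fun j _ => hu' j

/-- **(L8), formal half**, elementwise form: `w u = δ u - u`. -/
theorem lift_abs {p : ℕ} (hp : p.Prime) (hp5 : 5 ≤ p) (e : ℕ) (dl : H →+ H) (w : H → H)
    (hw : ∀ y, w y = dl y - y)
    (HH : AddSubgroup H) (hdl : ∀ y ∈ HH, dl y ∈ HH) (y : H) (hy : y ∈ HH)
    (hk : p ^ (e + 1) • y = 0) :
    ∃ u ∈ HH, w (w (w (w u))) = p • ∑ i ∈ range (p ^ e), (dl^[i]) y := by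
  obtain ⟨u, hu, h⟩ := lift_end hp hp5 e dl.toIntLinearMap HH hdl y hy hk
  refine ⟨u, hu, ?_⟩
  have hW : ∀ z, (dl.toIntLinearMap - 1 : Module.End ℤ H) z = w z := fun z => by
    rw [LinearMap.sub_apply, Module.End.one_apply, hw]
    rfl
  have h4 : ((dl.toIntLinearMap - 1) ^ 4 : Module.End ℤ H) u = w (w (w (w u))) := by
    rw [pow_succ', pow_succ', pow_succ', pow_one, Module.End.mul_apply, Module.End.mul_apply,
      Module.End.mul_apply, hW, hW, hW, hW]
  rw [← h4, h]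
  congr 1
  refine sum_congr rfl fun i _ => ?_
  rw [Module.End.pow_apply]
  rfl

end Fermat.Agent.S43.T.L8
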