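import Fermat.Agent.S43.I.Lev
import Fermat.Agent.S43.Th.Bridge
import Fermat.Agent.S43.Fin.Pow2

/-!
# S43 / T / L8X : the `X₀`-level half of leaf (L8) of the tower block

`v ∈ Vth N (p ^ (e + 1))`, `p ^ e • v = 0`  ⟹  `v = p • v₀`, `v₀ ∈ Vth N (p ^ (e + 1))`   (the `θ`-part is "free over `ℤ / p ^ (e + 1)`").
-/

set_option autoImplicit false

open AlgebraicCurve ModularCurve

namespace Fermat.Agent.S43.T.L8

open Fermat.Agent.ES

/-- the two transition maps of the library agree. -/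
theorem trans_eq_trans {N m m' : ℕ} (h : m ∣ m') (x : Kum N m') :
    Fermat.Agent.S30.trans h x = Kum.trans N h x := by
  obtain ⟨f, rfl⟩ := Kum.mk_surjective x
  rfl

/-- general exponents `m' = m * k`: the `m`-torsion of the `θ`-part is `k • (θ-part)`. -/
theorem div_Vth {N : ℕ} [NeZero N] {S : Finset ℕ} (hNS : ∀ r : ℕ, r.Prime → r ∣ N → r ∈ S)
    {a : ℕ → ℤ} {m k m' : ℕ} (h : m' = m * k) (hm : m ≠ 0) (hk : k ≠ 0) {v : Kum N m'}
    (hv : v ∈ Fin.Vth N m' S a) (h0 : m • v = 0) : ∃ v0 ∈ Fin.Vth N m' S a, v = k • v0 := by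
  subst h
  obtain ⟨z, rfl⟩ := Fin.exists_powMap_of_nsmul k rfl hk hm v h0
  have hz := (Fin.powMap_mem_Vth_iff k rfl hk hm S a z).1 hv
  rw [Th.Fin_Vth_eq_I (hNS := hNS)] at hz
  obtain ⟨y', hy', rfl⟩ := I.lev_trans_surjective_Vth (k := k)
    (Nat.mul_pos (Nat.pos_of_ne_zero hm) (Nat.pos_of_ne_zero hk)) hz
  refine ⟨y', by rw [Th.Fin_Vth_eq_I (hNS := hNS)]; exact hy', ?_⟩
  rw [← trans_eq_trans, Fermat.Agent.S30.powMap_trans]

/-- **(L8), `X₀`-level half.** -/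
theorem div_p {N : ℕ} [NeZero N] {S : Finset ℕ} (hNS : ∀ r : ℕ, r.Prime → r ∣ N → r ∈ S)
    {a : ℕ → ℤ} {p : ℕ} (hp : p.Prime) (e : ℕ) {v : Kum N (p ^ (e + 1))}
    (hv : v ∈ Fin.Vth N (p ^ (e + 1)) S a) (h0 : p ^ e • v = 0) :
    ∃ v0 ∈ Fin.Vth N (p ^ (e + 1)) S a, v = p • v0 :=
  div_Vth hNS (pow_succ p e) (pow_ne_zero _ hp.ne_zero) hp.ne_zero hv h0

end Fermat.Agent.S43.T.L8
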