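import Fermat.Agent.S43.Fin.SignAll

/-!
# S43 / T / L9 : leaf (L9) of the tower block

`Φ v + q Φ⁻¹ v = - (q + 1) w v` on the WHOLE `θ`-part `Vth (M q) (p ^ (e + 1))` (both signs), from (LOC) for `C` and for the flipped
context, and (SIGN).
-/

set_option autoImplicit false

open AlgebraicCurve ModularCurve

namespace Fermat.Agent.S43.T.L9

open Fermat.Agent.ES Fermat.Agent.SS Fermat.Agent.S43.Fin

variable {M q p : ℕ} [NeZero M] [NeZero q]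

/-- (LOC) in the trace form: `Φ v + q Φ⁻¹ v = ε (q + 1) v` on `Jc`. -/
theorem trace_of_loc (C : Ctx M q p) (hL : C.LOC) {v : Kum (M * q) (p ^ (C.e + 1))}
    (hv : v ∈ C.Jc) :
    galKum (M * q) (p ^ (C.e + 1)) C.Ph v + (q : ℤ) • galKum (M * q) (p ^ (C.e + 1)) C.Ph⁻¹ v
      = (C.ε * ((q : ℤ) + 1)) • v := by
  have h := hL _ (C.galKum_mem_J C.Ph⁻¹ hv)
  change galKum (M * q) (p ^ (C.e + 1)) C.Ph (galKum (M * q) (p ^ (C.e + 1)) C.Ph
      (galKum (M * q) (p ^ (C.e + 1)) C.Ph⁻¹ v))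
    - (C.ε * ((q : ℤ) + 1)) • galKum (M * q) (p ^ (C.e + 1)) C.Ph
      (galKum (M * q) (p ^ (C.e + 1)) C.Ph⁻¹ v)
    + (q : ℤ) • galKum (M * q) (p ^ (C.e + 1)) C.Ph⁻¹ v = 0 at h
  rw [← galKum_mul C.Ph C.Ph⁻¹, mul_inv_cancel, galKum_one, sub_add_eq_add_sub, sub_eq_zero] at h
  exact h

/-- **(L9)**, integer scalars. -/
theorem l9 (hX : XBlock M q p) (C : Ctx M q p) (he : 1 ≤ C.e)
    (v : Kum (M * q) (p ^ (C.e + 1))) (hv : v ∈ Vth (M * q) (p ^ (C.e + 1)) C.S C.a) :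
    galKum (M * q) (p ^ (C.e + 1)) C.Ph v + (q : ℤ) • galKum (M * q) (p ^ (C.e + 1)) C.Ph⁻¹ v
      = (-((q : ℤ) + 1)) • wKum C.hw C.hq (p ^ (C.e + 1)) v := by
  rcases sign hX C he with h | h
  · have hJ : v ∈ C.Jc := (C.mem_J).2 ⟨hv, h _ v hv⟩
    rw [trace_of_loc C (hX C).1 hJ, h _ v hv, smul_neg, smul_smul, ← neg_smul]
    congr 1
    ring
  · have hJ : v ∈ C.Sign_flip.Jc := by
      refine (C.Sign_flip.mem_J).2 ⟨hv, ?_⟩
      change wKum C.hw C.hq (p ^ (C.e + 1)) v = -((-C.ε) • v)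
      rw [neg_smul, neg_neg]
      exact h _ v hv
    have h1 := trace_of_loc C.Sign_flip (hX C.Sign_flip).1 hJ
    change galKum (M * q) (p ^ (C.e + 1)) C.Ph v
        + (q : ℤ) • galKum (M * q) (p ^ (C.e + 1)) C.Ph⁻¹ v = ((-C.ε) * ((q : ℤ) + 1)) • v at h1
    rw [h1, h _ v hv, smul_smul]
    congr 1
    ring

/-- **(L9)**, natural scalar `q` on the left. -/
theorem l9' (hX : XBlock M q p) (C : Ctx M q p) (he : 1 ≤ C.e)
    (v : Kum (M * q) (p ^ (C.e + 1))) (hv : v ∈ Vth (M * q) (p ^ (C.e + 1)) C.S C.a) :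
    galKum (M * q) (p ^ (C.e + 1)) C.Ph v + q • galKum (M * q) (p ^ (C.e + 1)) C.Ph⁻¹ v
      = -((q + 1) • wKum C.hw C.hq (p ^ (C.e + 1)) v) := by
  have h := l9 hX C he v hv
  rw [natCast_zsmul, neg_smul] at h
  rw [h, ← natCast_zsmul (wKum C.hw C.hq (p ^ (C.e + 1)) v) (q + 1), Nat.cast_add, Nat.cast_one]

end Fermat.Agent.S43.T.L9
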