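import Fermat.Agent.S43.I.IsoInst
import Fermat.Agent.S43.I.Lev
import Fermat.Agent.S43.Fin.Pow
import Fermat.Agent.S43.Fin.Pow2
import Fermat.Agent.S43.Fin.VthBridge
import Fermat.Agent.S43.Fin.Data

/-!
# S43 / T / XI1 : the `X₀(M q)`-level inputs (DIV), (I1), `N² = 0` of the counting step of TBlock     (helper83)

For `C : Fin.Ctx M q p`, ANY `K ≥ 1`, `VV := Fin.Vth (M q) (p ^ K) C.S C.a`, `N = Σ - 1`:

* `div_Vth` : `P ∈ VV`, `p • P = 0`  ⟹  `P = p ^ (K - 1) • y`, `y ∈ VV`;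
* `i1_Vth`  : (from `I.IsoHyp`) `P ∈ VV`, `p • P = 0`, `Σ P = P`  ⟹  `P = Σ y - y`, `y ∈ VV`, `p • y = 0`;
* `nn_Kum`  : `Σ (Σ x - x) = Σ x - x` on all of `Kum (M q) m`, `q ∤ m`;
* `VV C K`, `NV C K : VV C K →+ VV C K`, `gV C K : GQ →* AddMonoid.End (VV C K)` and `hDIV`, `hI1`, `hN2`, `hK` : the SUBTYPE forms
  (verbatim the hypotheses of `Soc.c1`, `Soc.tower_fields`).
-/

set_option autoImplicit false

open AlgebraicCurve ModularCurve

namespace Fermat.Agent.S43.TXI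

open Fermat.Agent.ES Fermat.Agent.SS Fermat.Agent.S30

noncomputable section

section General

variable {N : ℕ} [NeZero N]

omit [NeZero N] in
/-- the two transition maps agree. -/
theorem trans_eq {m m' : ℕ} (h : m ∣ m') (x : Kum N m') : S30.trans h x = Kum.trans N h x := by
  obtain ⟨f, rfl⟩ := Kum.mk_surjective x
  rfl

/-- `trans` is onto on the `θ`-parts. -/
theorem exists_trans_eq {S : Finset ℕ} (hNS : ∀ r : ℕ, r.Prime → r ∣ N → r ∈ S) (a : ℕ → ℤ)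
    {m m' k : ℕ} (h : m' = m * k) (hm' : 0 < m') (hd : m ∣ m') {y : Kum N m}
    (hy : y ∈ Fin.Vth N m S a) : ∃ y' ∈ Fin.Vth N m' S a, S30.trans hd y' = y := by
  subst h
  rw [Fin.Vth_eq_I hNS a] at hy
  obtain ⟨y', hy', h⟩ := I.lev_trans_surjective_Vth hm' hy
  exact ⟨y', by rw [Fin.Vth_eq_I hNS a]; exact hy', by rw [trans_eq]; exact h⟩

end General

variable {M q p : ℕ} [NeZero M] [NeZero q] (C : Fin.Ctx M q p)

/-- **(DIV)** on the `θ`-part, at every exponent. -/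
theorem div_Vth {K : ℕ} (hK : 0 < K) {P : Kum (M * q) (p ^ K)}
    (hP : P ∈ Fin.Vth (M * q) (p ^ K) C.S C.a) (h0 : p • P = 0) :
    ∃ y ∈ Fin.Vth (M * q) (p ^ K) C.S C.a, P = p ^ (K - 1) • y := by
  obtain ⟨n, rfl⟩ : ∃ n, K = n + 1 := ⟨K - 1, by omega⟩
  have h : p ^ (n + 1) = p * p ^ n := pow_succ' p n
  have hpn : p ^ n ≠ 0 := pow_ne_zero _ C.hp.ne_zero
  obtain ⟨z, rfl⟩ := Fin.exists_powMap_of_nsmul (p ^ n) h hpn C.hp.ne_zero P h0
  have hz : z ∈ Fin.Vth (M * q) p C.S C.a :=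
    (Fin.powMap_mem_Vth_iff (p ^ n) h hpn C.hp.ne_zero C.S C.a z).1 hP
  obtain ⟨y, hy, rfl⟩ := exists_trans_eq (I.ctx_hNS C) C.a h (pow_pos C.hp.pos _)
    (Dvd.intro _ h.symm) hz
  exact ⟨y, hy, by rw [powMap_trans, Nat.add_sub_cancel]⟩

/-- **(I1)** at exponent `p`, inside the `θ`-part at exponent `p ^ K`. -/
theorem i1_Vth (H : I.IsoHyp (M * q) (I.ctx_hNS C) C.a C.A p q C.Sg C.Ph) {K : ℕ} (hK : 0 < K)
    {P : Kum (M * q) (p ^ K)} (hP : P ∈ Fin.Vth (M * q) (p ^ K) C.S C.a) (h0 : p • P = 0)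
    (hS : galKum (M * q) (p ^ K) C.Sg P = P) :
    ∃ y ∈ Fin.Vth (M * q) (p ^ K) C.S C.a, p • y = 0 ∧ P = galKum (M * q) (p ^ K) C.Sg y - y := by
  obtain ⟨n, rfl⟩ : ∃ n, K = n + 1 := ⟨K - 1, by omega⟩
  have h : p ^ (n + 1) = p * p ^ n := pow_succ' p n
  have hpn : p ^ n ≠ 0 := pow_ne_zero _ C.hp.ne_zero
  obtain ⟨z, rfl⟩ := Fin.exists_powMap_of_nsmul (p ^ n) h hpn C.hp.ne_zero P h0
  have hz : z ∈ Fin.Vth (M * q) p C.S C.a :=
    (Fin.powMap_mem_Vth_iff (p ^ n) h hpn C.hp.ne_zero C.S C.a z).1 hP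
  have hzS : galKum (M * q) p C.Sg z = z := by
    apply powMap_injective (p ^ n) h hpn C.hp.ne_zero
    rw [Fin.powMap_galKum, hS]
  have hzI : z ∈ I.Inv (M * q) (I.ctx_hNS C) C.a C.A p :=
    I.mem_Inv.2 ⟨by rw [← Fin.Vth_eq_I (I.ctx_hNS C) C.a]; exact hz,
      H.gen p (I.IsPP.self p) z hzS⟩
  obtain ⟨y, hy, rfl⟩ := H.I1 hzI
  rw [← Fin.Vth_eq_I (I.ctx_hNS C) C.a] at hy
  exact ⟨powMap (p ^ n) h y, (Fin.powMap_mem_Vth_iff (p ^ n) h hpn C.hp.ne_zero C.S C.a y).2 hy,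
    Fin.nsmul_powMap _ _ _, by rw [map_sub, Fin.powMap_galKum]⟩

/-- `N² = 0` for `N = Σ - 1`. -/
theorem nn_Kum {m : ℕ} (hqm : ¬ q ∣ m) (x : Kum (M * q) m) :
    galKum (M * q) m C.Sg (galKum (M * q) m C.Sg x - x) = galKum (M * q) m C.Sg x - x := by
  have h := Fin.sig_add_inv C.hq C.hqM hqm C.A C.hA C.hSg.1 (galKum (M * q) m C.Sg x)
  have h1 : galKum (M * q) m C.Sg⁻¹ (galKum (M * q) m C.Sg x) = x := by
    rw [← galKum_mul, inv_mul_cancel, galKum_one]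
  rw [h1, two_smul] at h
  rw [map_sub]
  have e : galKum (M * q) m C.Sg (galKum (M * q) m C.Sg x) - galKum (M * q) m C.Sg x
      = (galKum (M * q) m C.Sg (galKum (M * q) m C.Sg x) + x) - galKum (M * q) m C.Sg x - x := by
    abel
  rw [e, h]
  abel

include C in
theorem not_dvd_pow (K : ℕ) : ¬ q ∣ p ^ K := fun h =>
  C.hqp ((Nat.prime_dvd_prime_iff_eq C.hq C.hp).1 (C.hq.dvd_of_dvd_pow h))

/-! ### subtype forms -/

/-- the `θ`-part at exponent `p ^ K`, as a type. -/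
abbrev VV (K : ℕ) : Type := ↥(Fin.Vth (M * q) (p ^ K) C.S C.a)

/-- the Galois action on the `θ`-part. -/
def gV (K : ℕ) : GQ →* AddMonoid.End (VV C K) where
  toFun s := ((galKum (M * q) (p ^ K) s).comp (Fin.Vth (M * q) (p ^ K) C.S C.a).subtype).codRestrict
    (Fin.Vth (M * q) (p ^ K) C.S C.a) (fun x => Fin.galKum_mem_Vth s x.2)
  map_one' := by
    ext x
    exact galKum_one _
  map_mul' s t := by
    ext x
    exact galKum_mul s t _

@[simp] theorem coe_gV (K : ℕ) (s : GQ) (x : VV C K) :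
    ((gV C K s x : VV C K) : Kum (M * q) (p ^ K)) = galKum (M * q) (p ^ K) s x := rfl

/-- `N = Σ - 1` on the `θ`-part. -/
def NV (K : ℕ) : VV C K →+ VV C K where
  toFun x := gV C K C.Sg x - x
  map_zero' := by rw [map_zero, sub_zero]
  map_add' x y := by rw [map_add]; abel

@[simp] theorem coe_NV (K : ℕ) (x : VV C K) :
    ((NV C K x : VV C K) : Kum (M * q) (p ^ K)) = galKum (M * q) (p ^ K) C.Sg x - x := rfl

theorem NV_apply (K : ℕ) (x : VV C K) : NV C K x = gV C K C.Sg x - x := rfl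

theorem hK (K : ℕ) (v : VV C K) : p ^ K • v = 0 :=
  Subtype.ext (Kum.nsmul_eq_zero _)

theorem hDIV {K : ℕ} (hK : 0 < K) (P : VV C K) (h0 : p • P = 0) : ∃ y : VV C K, P = p ^ (K - 1) • y := by
  obtain ⟨y, hy, h⟩ := div_Vth C hK P.2 (congrArg Subtype.val h0)
  exact ⟨⟨y, hy⟩, Subtype.ext h⟩

theorem hI1 (H : I.IsoHyp (M * q) (I.ctx_hNS C) C.a C.A p q C.Sg C.Ph) {K : ℕ} (hK : 0 < K)
    (P : VV C K) (h0 : p • P = 0) (hN : NV C K P = 0) : ∃ y : VV C K, p • y = 0 ∧ P = NV C K y := by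
  obtain ⟨y, hy, h1, h2⟩ := i1_Vth C H hK P.2 (congrArg Subtype.val h0)
    (sub_eq_zero.1 (congrArg Subtype.val hN))
  exact ⟨⟨y, hy⟩, Subtype.ext h1, Subtype.ext h2⟩

theorem hN2 (K : ℕ) (v : VV C K) : NV C K (NV C K v) = 0 := by
  apply Subtype.ext
  rw [coe_NV, coe_NV, nn_Kum C (not_dvd_pow C K), sub_self]
  rfl

instance finite_VV (K : ℕ) : Finite (VV C K) := by
  have : Finite (Kum (M * q) (p ^ K)) := ES.Glue.finite_Kum (pow_pos C.hp.pos K)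
  infer_instance

end

end Fermat.Agent.S43.TXI
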