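import Fermat.Agent.S43.T.Rel
import Fermat.Agent.S43.T.L6
import Fermat.Agent.S43.T.L7
import Fermat.Agent.S43.T.L8Abs
import Fermat.Agent.S43.T.L8X
import Fermat.Agent.S43.T.L9
import Fermat.Agent.S43.T.L10x
import Fermat.Agent.S43.T.XI1
import Fermat.Agent.S43.Soc.Rel
import Fermat.Agent.S43.D.DStar
import Fermat.Agent.S43.S1.Gen
import Fermat.Agent.S43.Tame.Rel
import Fermat.Agent.S43.Fin.Sign
import Fermat.Agent.S43.I.Main

/-!
# S43 / T / Main : **TBlock**  (assembly of the leaves (L0)-(L10) into `T.IsRel`, then `T.IsRel.main`)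
-/

set_option autoImplicit false

open AlgebraicCurve ModularCurve

namespace Fermat.Agent.S43.T

open Fermat.Agent.S48 Fermat.Agent.S43.R0
open Fermat.Agent.ES (Qb GQ FF)
open Fermat.Agent.SS (GP)

noncomputable section

variable {M q p : ℕ} [NeZero M] [NeZero q]

/-- the `IsoHyp` package of `C`. -/
theorem M50_isoHyp (C : Fin.Ctx M q p) :
    I.IsoHyp (M * q) (I.ctx_hNS C) C.a C.A p q C.Sg C.Ph :=
  I.isoHyp_of_kum C (I.ctx_hTor C) (fun h => I.kumF_of_ev C (I.ctx_hEV C h))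

/-- (L4), (L5). -/
theorem M50_l45 [Fact q.Prime] (C : Fin.Ctx M q p) (he : 1 ≤ C.e) (hN : 5 ≤ M * q)
    [Fintype (TD.GH C)] (k : ℕ) (hk : 0 < k) :
    (∀ y ∈ Ctl.HH (TD.GH C) (fun d => B1.diaKum (HD hN) (p ^ k) d) (Th.K0 hN C.hp k (T7.hNS C) C.a),
      B1.diaKum (HD hN) (p ^ k) (TD.c1 C)
        (B1.galKum (X1.F1Q (M * q)) (p ^ k) C.Sg (B1.galKum (X1.F1Q (M * q)) (p ^ k) C.Sg y
          - B1.diaKum (HD hN) (p ^ k) (TD.c1 C) y)
          - (B1.galKum (X1.F1Q (M * q)) (p ^ k) C.Sg y - B1.diaKum (HD hN) (p ^ k) (TD.c1 C) y))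
      = B1.galKum (X1.F1Q (M * q)) (p ^ k) C.Sg (B1.galKum (X1.F1Q (M * q)) (p ^ k) C.Sg y
          - B1.diaKum (HD hN) (p ^ k) (TD.c1 C) y)
          - (B1.galKum (X1.F1Q (M * q)) (p ^ k) C.Sg y - B1.diaKum (HD hN) (p ^ k) (TD.c1 C) y)) ∧
    (∀ y ∈ Ctl.HH (TD.GH C) (fun d => B1.diaKum (HD hN) (p ^ k) d) (Th.K0 hN C.hp k (T7.hNS C) C.a),
      B1.diaKum (HD hN) (p ^ k) (TD.c1 C)
        (B1.galKum (X1.F1Q (M * q)) (p ^ k) C.Ph (B1.galKum (X1.F1Q (M * q)) (p ^ k) C.Sg y)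
          - B1.galKum (X1.F1Q (M * q)) (p ^ k) C.Sg (B1.galKum (X1.F1Q (M * q)) (p ^ k) C.Ph y))
      = B1.galKum (X1.F1Q (M * q)) (p ^ k) C.Ph (B1.galKum (X1.F1Q (M * q)) (p ^ k) C.Sg y)
          - B1.galKum (X1.F1Q (M * q)) (p ^ k) C.Sg (B1.galKum (X1.F1Q (M * q)) (p ^ k) C.Ph y)) := by
  have : Finite (B1.Kum Qb (X1.F1Q (M * q)).F (p ^ k)) := CH.finite_F1 (M * q) hN (pow_pos C.hp.pos k)
  have hp2 : p ≠ 2 := by have := C.hp5; omega
  refine Soc.rel_L45 (a := C.e) (K := k)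
    (Ctl.HH (TD.GH C) (fun d => B1.diaKum (HD hN) (p ^ k) d) (Th.K0 hN C.hp k (T7.hNS C) C.a))
    (Fin.Vth (M * q) (p ^ k) C.S C.a) C.hp hp2 hk (fun y _ => T7.kill k y)
    (B1.diaKum (HD hN) (p ^ k) (TD.c1 C)) (R2O.wK C.hqM hN (p ^ k)).toAddMonoidHom
    (B1.galKum (X1.F1Q (M * q)) (p ^ k) C.Sg) (B1.galKum (X1.F1Q (M * q)) (p ^ k) C.Ph)
    (B1.galKum (X1.F1Q (M * q)) (p ^ k) C.Ph⁻¹) (Fermat.Agent.ES.galKum (M * q) (p ^ k) C.Sg)
    (pull hN (p ^ k))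
    (fun y hy => T7.dl_mem C hN k hy) (fun y hy => TL6.io_mem C hN k (T7.hNS C) hy)
    (fun y hy => T7.gal_mem C hN k _ hy) (fun y hy => T7.gal_mem C hN k _ hy)
    (fun y hy => T7.gal_mem C hN k _ hy) (fun v hv => Fin.galKum_mem_Vth _ hv)
    (fun v hv => T7.pull_mem C hN k he hv)
    (fun y _ => B1.diaKum_galKum (HD hN) _ _ y) (fun y _ => B1.diaKum_galKum (HD hN) _ _ y)
    (fun y _ => by rw [← B1.galKum_mul, mul_inv_cancel, B1.galKum_one])
    (fun y _ => by rw [← B1.galKum_mul, inv_mul_cancel, B1.galKum_one])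
    (fun y hy => T7.dl_iterate C hN k hy)
    (fun y hy => T7.nd_pull C hN k he hy) (fun v hv => T7.pull_nd C hN k he hv)
    (fun y hy h => T7.ker_nd C hN k he hy h) (fun v hv h => T7.pull_inj C hN k hv h)
    (fun v _ => T7.pull_gal' hN k _ v)
    (fun P hP h0 => TXI.div_Vth C hk hP h0)
    (fun P hP h0 hS => TXI.i1_Vth C (M50_isoHyp C) hk hP h0 hS)
    (fun v _ => TXI.nn_Kum C (TXI.not_dvd_pow C k) v)
    (S1.Koo (HD hN) C.A (p ^ k)) (fun y hy => S1.diaKum_mem_Koo _ hy)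
    (fun y _ => S1.gal_sub_mem_Koo C.hSg.1 y)
    (fun y _ => by
      rw [← B1.galKum_mul, ← B1.galKum_mul]
      exact S1.gal_sub_mem_Koo
        (Tame.conj_mem_inertia C.hPh.mem_decompositionSubgroup C.hSg.1) y)
    (fun v hv h => DPI.ctx_dstar_Sg C hN k hv h)
    (fun y _ => TL6.io_dl C hN (p ^ k) y) (fun y _ => TL6.io_Ph C hN (p ^ k) y)
    (fun y _ => TL6.io_Sg C hN (p ^ k) y) (fun y _ h => TL6.io_inj C hN (p ^ k) y h)

/-- the concrete tower. -/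
theorem M50_isRel [Fact q.Prime] (C : Fin.Ctx M q p) (he : 1 ≤ C.e) (hN : 5 ≤ M * q)
    [Fintype (TD.GH C)] :
    IsRel (G := GQ) (fun s => B1.galKum (X1.F1Q (M * q)) (p ^ (C.e + 1)) s)
      (fun s => Fermat.Agent.ES.galKum (M * q) (p ^ (C.e + 1)) s)
      (B1.diaKum (HD hN) (p ^ (C.e + 1)) (TD.c1 C))
      (R2O.wK C.hqM hN (p ^ (C.e + 1))).toAddMonoidHom
      (Fermat.Agent.SS.wKum C.hw C.hq (p ^ (C.e + 1)))
      (pull hN (p ^ (C.e + 1)))
      (Ctl.HH (TD.GH C) (fun d => B1.diaKum (HD hN) (p ^ (C.e + 1)) d)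
        (Th.K0 hN C.hp (C.e + 1) (T7.hNS C) C.a))
      (Fin.Vth (M * q) (p ^ (C.e + 1)) C.S C.a) C.Ph C.Sg (q : ℤ) (p ^ (C.e + 1)) (p ^ C.e) := by
  have : NeZero (p ^ (C.e + 1)) := ⟨pow_ne_zero _ C.hp.ne_zero⟩
  have hK : C.e + 1 ≠ 0 := Nat.succ_ne_zero _
  have h45 := M50_l45 C he hN (C.e + 1) (Nat.succ_pos _)
  refine
    { gK_one := fun y _ => B1.galKum_one y
      gK_mul := fun a b y _ => B1.galKum_mul a b y
      gK_mem := fun s y hy => T7.gal_mem C hN _ s hy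
      dl_mem := fun y hy => T7.dl_mem C hN _ hy
      io_mem := fun y hy => TL6.io_mem C hN _ (T7.hNS C) hy
      gV_mem := fun s v hv => Fin.galKum_mem_Vth s hv
      pull_mem := fun v hv => T7.pull_mem C hN _ he hv
      kill := fun y _ => T7.kill _ y
      cop := ?_
      hpe := ?_
      dl_gK := fun s y _ => B1.diaKum_galKum (HD hN) _ s y
      S_comm := fun s y hy => ?_
      P_comm := fun s y hy => ?_
      type := h45.1
      comm := fun y hy c hc => ?_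
      io_dl := fun y _ => TL6.io_dl C hN _ y
      io_Φ := fun y _ => TL6.io_Ph C hN _ y
      io_Sg := fun y _ => TL6.io_Sg C hN _ y
      io_inj := fun y _ h => TL6.io_inj C hN _ y h
      io_pull := fun v _ => TL6.io_pull C hN _ v
      ker_w := fun y hy h => T7.ker_w C hN _ he hy h
      pull_inj := fun v hv h => T7.pull_inj C hN _ hv h
      dl_pull := fun v _ => T7.dl_pull C hN _ v
      pull_gal := fun s v _ => T7.pull_gal' hN _ s v
      lift := fun v hv h0 => ?_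
      SV := fun v hv => L9.l9 I.xBlock C he v hv
      c1V := fun v hv => L10x.l10 I.xBlock C he v hv }
  · -- cop
    have hpZ : Prime (p : ℤ) := Nat.prime_iff_prime_int.1 C.hp
    rw [Nat.cast_pow]
    apply IsCoprime.pow_right
    rw [isCoprime_comm, Prime.coprime_iff_not_dvd hpZ]
    intro h
    rcases hpZ.dvd_or_dvd h with h | h
    · have h2 : p ∣ 2 := by exact_mod_cast h
      have := Nat.le_of_dvd (by norm_num) h2
      have := C.hp5
      omega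
    · exact C.not_dvd_succ he (by exact_mod_cast h)
  · -- hpe
    have h1 : ((q - 1 : ℕ) : ℤ) = (q : ℤ) - 1 := by
      have := C.hq.one_lt
      push_cast [Nat.cast_sub this.le]
      ring
    rw [← h1]
    exact_mod_cast C.he
  · rw [natCast_zsmul, natCast_zsmul]
    exact TD.tF_comm' C hN hK s (T7.mem_FixGH C hN _ hy)
  · rw [natCast_zsmul, natCast_zsmul]
    exact TD.tFS_comm C hN hK s (T7.mem_FixGH C hN _ hy)
  · have h5 := h45.2 y hy
    rw [← hc] at h5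
    rw [h5, sub_self, map_zero]
  · obtain ⟨v0, hv0, rfl⟩ := L8.div_p (T7.hNS C) C.hp C.e hv h0
    obtain ⟨y, hy, hy'⟩ := T7.pull_nd C hN (C.e + 1) he hv0
    obtain ⟨u, hu, hu'⟩ := L8.lift_abs C.hp C.hp5 C.e (B1.diaKum (HD hN) (p ^ (C.e + 1)) (TD.c1 C))
      (fun z => B1.diaKum (HD hN) (p ^ (C.e + 1)) (TD.c1 C) z - z) (fun _ => rfl) _
      (fun z hz => T7.dl_mem C hN _ hz) y hy (T7.kill _ y)
    refine ⟨u, hu, ?_⟩
    rintro u1 u2 u3 rfl rfl rfl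
    rw [map_nsmul, ← hy']
    exact hu'

/-- **TBlock.** -/
theorem tBlock : Fin.TBlock M q p := by
  intro C he
  classical
  have : Fact q.Prime := ⟨C.hq⟩
  have hN : 5 ≤ M * q := TD.five_le C he
  have : Fintype (TD.GH C) := Fintype.ofFinite _
  obtain ⟨β, h1, h2, h3⟩ := (M50_isRel C he hN).main C.ε
  refine ⟨β, fun x hx y hy hx0 hy0 => h1 x (C.mem_J.1 hx).1 y (C.mem_J.1 hy).1 hx0 hy0,
    fun s x hx hx0 => h2 s x (C.mem_J.1 hx).1 hx0,
    fun z hz hz0 => h3 z (C.mem_J.1 hz).1 (C.mem_J.1 hz).2 hz0⟩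

end

end Fermat.Agent.S43.T
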