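import Mathlib

/-!
# S43 / T / Abs : the formal derivation of (TR) from the tower, at FINITE level  (Mathlib only)

`H` an abelian group (think: `θ`-part of the Kummer module of `X_H(q)`, exponent `n = p^a ‖ q - 1`), with
* `ρ : G →* End H` (Galois), `δ` (generator of the diamond group `Δ`), `w = δ - 1`;
* `Φ Sg : G` (Frobenius, tame generator), `S = t(Φ) = Φ + q Φ⁻¹`, `t(Sg) = Sg + δ Sg⁻¹`, `P = t(Φ Sg) = Φ Sg + q δ (Φ Sg)⁻¹`;
* (CH)  `S`, `P` commute with `G`;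
* (H3)  `w (t(Sg) - 1 - δ) = 0`   [`⟺ w (Sg - 1)(Sg - δ) = 0`];
* (P3)  `w² (Φ Sg - Sg Φ) = 0`;
* (H4)  `ι` additive injective, `δ ι δ = ι`, `ι Φ = Φ ι`, `δ ι Sg = Sg ι`;
* level `X₀`: on `ker w`:  `c₁ := P - S = 0`,  `S = - (q + 1) ι`.

Put `γ := 2 c₁ - w S`.  Then
* `ring_identity` : `w⁴ Φ = w² γ (Sg - 1) - w³ c₁ + w⁴ S`     (no division by `w` anywhere);
* `gam_kill`      : `γ` kills `ker w²`                         (this is "`D = γ / w` anticommutes with `ι`, so `D ≡ 0 mod w`");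
* `exists_beta`   : `β (w² u) := γ u` is a well defined additive `G`-equivariant map on `ker w ∩ w² H`, and
                    `2 Φ z + (q + 1) ι z = 2 β ((Sg - 1) z)` for `z ∈ ker w ∩ w⁴ H`.
* `norm_eq`       : `∑_{i<n} (1 + w)^i ∈ n A + w⁴ A` if `n` is prime to `6`; so `ker w = Nm H ⊆ w⁴ H` if `n H = 0`.
-/

set_option autoImplicit false

namespace Fermat.Agent.S43.T

theorem ring_identity {A : Type*} [Ring A] (w φ σ φ' σ' : A)
    (hwφ : w * φ = φ * w) (hwφ' : w * φ' = φ' * w)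
    (hσ : σ' * σ = 1 + w)
    (hS : (φ + φ') * σ = σ * (φ + φ'))
    (htype : w * (σ + σ' - 2 - w) = 0)
    (hcomm : w ^ 2 * (φ * σ - σ * φ) = 0) :
    w ^ 4 * φ = w ^ 2 * (2 * (φ * σ + σ' * φ' - (φ + φ')) - w * (φ + φ')) * (σ - 1)
      - w ^ 3 * (φ * σ + σ' * φ' - (φ + φ')) + w ^ 4 * (φ + φ') := by
  set S := φ + φ' with hSdef
  set T := σ + σ' with hTdef
  set P := φ * σ + σ' * φ' with hPdef
  set ν := σ - 1 with hνdef
  have hwS : w * S = S * w := by rw [hSdef, mul_add, add_mul, hwφ, hwφ']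
  -- polar
  have hB : φ * ν + ν * φ = (P - S) + (T - 2) * φ + S * ν - (T - 2) * S := by
    rw [hPdef, hTdef, hνdef]
    have : σ * S = S * σ := hS.symm
    rw [hSdef] at this ⊢
    linear_combination (norm := noncomm_ring) this
  have h1 : w ^ 2 * (T - 2) = w ^ 3 := by
    linear_combination (norm := noncomm_ring) w * htype
  have hc' : w ^ 2 * (ν * φ) = w ^ 2 * (φ * ν) := by
    rw [hνdef]
    linear_combination (norm := noncomm_ring) -hcomm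
  have hE1 : 2 * (w ^ 2 * (φ * ν)) = w ^ 2 * (P - S) + w ^ 3 * φ + w ^ 2 * (S * ν) - w ^ 3 * S := by
    linear_combination (norm := noncomm_ring) w ^ 2 * hB - hc' + h1 * φ - h1 * S
  have hν2 : ν * ν = (T - 2) * σ - w := by
    rw [hTdef, hνdef]
    linear_combination (norm := noncomm_ring) -hσ
  have hwν2 : w * (ν * ν) = w ^ 2 * ν := by
    rw [hνdef] at hν2 ⊢
    linear_combination (norm := noncomm_ring) w * hν2 + htype * σ
  have hF1 : w ^ 2 * (φ * (ν * ν)) = w ^ 3 * (φ * ν) := by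
    linear_combination (norm := noncomm_ring) w * hwφ * (ν * ν) + w * φ * hwν2
      - w * hwφ * (w * ν) - w ^ 2 * hwφ * ν
  have hF2 : w ^ 2 * (S * (ν * ν)) = w ^ 3 * (S * ν) := by
    linear_combination (norm := noncomm_ring) w * hwS * (ν * ν) + w * S * hwν2
      - w * hwS * (w * ν) - w ^ 2 * hwS * ν
  have hE2 : w ^ 3 * (φ * ν) = w ^ 2 * ((P - S) * ν) := by
    linear_combination (norm := noncomm_ring) hE1 * ν - 2 * hF1 + hF2
  linear_combination (norm := noncomm_ring) -(w * hE1) + 2 * hE2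

section Tower

variable {H : Type*} [AddCommGroup H] {G : Type*} [Group G]
  (ρ : G →* Module.End ℤ H) (δ ι : Module.End ℤ H) (Φ Sg : G) (q : ℤ)

/-- `w = δ - 1`. -/
def wOp : Module.End ℤ H := δ - 1

/-- `S = t(Φ) = Φ + q Φ⁻¹`. -/
def SOp : Module.End ℤ H := ρ Φ + q • ρ Φ⁻¹

/-- `t(Sg) = Sg + δ Sg⁻¹`. -/
def TsOp : Module.End ℤ H := ρ Sg + δ * ρ Sg⁻¹

/-- `P = t(Φ Sg) = Φ Sg + q δ (Φ Sg)⁻¹`. -/
def PPOp : Module.End ℤ H := ρ Φ * ρ Sg + (δ * ρ Sg⁻¹) * (q • ρ Φ⁻¹)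

/-- `c₁ = t(Φ (Sg - 1))`. -/
def c1Op : Module.End ℤ H := PPOp ρ δ Φ Sg q - SOp ρ Φ q

/-- `γ = 2 c₁ - w S`. -/
def gamOp : Module.End ℤ H := 2 * c1Op ρ δ Φ Sg q - wOp δ * SOp ρ Φ q

/-- the hypotheses. -/
structure IsTower : Prop where
  δ_comm : ∀ g, δ * ρ g = ρ g * δ
  S_comm : ∀ g, SOp ρ Φ q * ρ g = ρ g * SOp ρ Φ q
  P_comm : ∀ g, PPOp ρ δ Φ Sg q * ρ g = ρ g * PPOp ρ δ Φ Sg q
  type : wOp δ * (TsOp ρ δ Sg - 2 - wOp δ) = 0
  comm : wOp δ ^ 2 * (ρ Φ * ρ Sg - ρ Sg * ρ Φ) = 0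
  ι_δ : δ * ι * δ = ι
  ι_Φ : ι * ρ Φ = ρ Φ * ι
  ι_Sg : δ * ι * ρ Sg = ρ Sg * ι
  ι_inj : Function.Injective ι
  c1_ker : ∀ y, wOp δ y = 0 → c1Op ρ δ Φ Sg q y = 0
  S_ker : ∀ y, wOp δ y = 0 → SOp ρ Φ q y = (-(q + 1)) • ι y
  tors : ∀ y : H, (2 * (q + 1)) • y = 0 → y = 0

variable {ρ δ ι Φ Sg q}

namespace IsTower

variable (D : IsTower ρ δ ι Φ Sg q)

include D

theorem w_comm (g : G) : wOp δ * ρ g = ρ g * wOp δ := by
  unfold wOp
  rw [sub_mul, mul_sub, D.δ_comm, one_mul, mul_one]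

theorem w_S : wOp δ * SOp ρ Φ q = SOp ρ Φ q * wOp δ := by
  unfold SOp
  rw [mul_add, add_mul, D.w_comm, mul_smul_comm, smul_mul_assoc, D.w_comm]

theorem δ_P : δ * PPOp ρ δ Φ Sg q = PPOp ρ δ Φ Sg q * δ := by
  have h1 := D.δ_comm Φ
  have h2 := D.δ_comm Sg
  have h3 := D.δ_comm Φ⁻¹
  have h4 := D.δ_comm Sg⁻¹
  unfold PPOp
  simp only [mul_smul_comm, smul_mul_assoc, mul_add, add_mul]
  congr 1
  · rw [← mul_assoc, h1, mul_assoc, h2, mul_assoc]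
  · congr 1
    linear_combination (norm := noncomm_ring) δ * h4 * ρ Φ⁻¹ + δ * ρ Sg⁻¹ * h3

theorem w_P : wOp δ * PPOp ρ δ Φ Sg q = PPOp ρ δ Φ Sg q * wOp δ := by
  unfold wOp
  rw [sub_mul, mul_sub, D.δ_P, one_mul, mul_one]

theorem w_c1 : wOp δ * c1Op ρ δ Φ Sg q = c1Op ρ δ Φ Sg q * wOp δ := by
  unfold c1Op
  rw [mul_sub, sub_mul, D.w_P, D.w_S]

theorem w_gam : wOp δ * gamOp ρ δ Φ Sg q = gamOp ρ δ Φ Sg q * wOp δ := by
  have h1 := D.w_c1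
  have h2 := D.w_S
  unfold gamOp
  linear_combination (norm := noncomm_ring) 2 * h1 - wOp δ * h2

theorem gam_comm (g : G) : gamOp ρ δ Φ Sg q * ρ g = ρ g * gamOp ρ δ Φ Sg q := by
  have h1 := D.S_comm g
  have h2 := D.P_comm g
  have h3 := D.w_comm g
  unfold gamOp c1Op
  linear_combination (norm := noncomm_ring) 2 * h2 - 2 * h1 - wOp δ * h1 - h3 * SOp ρ Φ q

theorem S_P : SOp ρ Φ q * PPOp ρ δ Φ Sg q = PPOp ρ δ Φ Sg q * SOp ρ Φ q := by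
  have h1 := D.P_comm Φ
  have h2 := D.P_comm Φ⁻¹
  conv_lhs => unfold SOp
  conv_rhs => unfold SOp
  rw [add_mul, mul_add, h1, smul_mul_assoc, mul_smul_comm, h2]

theorem S_gam : SOp ρ Φ q * gamOp ρ δ Φ Sg q = gamOp ρ δ Φ Sg q * SOp ρ Φ q := by
  have h1 := D.S_P
  have h2 := D.w_S
  unfold gamOp c1Op
  linear_combination (norm := noncomm_ring) 2 * h1 + h2 * SOp ρ Φ q

theorem ι_Φinv : ι * ρ Φ⁻¹ = ρ Φ⁻¹ * ι := by
  have h := D.ι_Φ
  have h1 : ρ Φ⁻¹ * ρ Φ = 1 := by rw [← map_mul, inv_mul_cancel, map_one]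
  have h2 : ρ Φ * ρ Φ⁻¹ = 1 := by rw [← map_mul, mul_inv_cancel, map_one]
  calc ι * ρ Φ⁻¹ = (ρ Φ⁻¹ * ρ Φ) * ι * ρ Φ⁻¹ := by rw [h1, one_mul]
    _ = ρ Φ⁻¹ * (ι * ρ Φ) * ρ Φ⁻¹ := by rw [h]; noncomm_ring
    _ = ρ Φ⁻¹ * ι * (ρ Φ * ρ Φ⁻¹) := by noncomm_ring
    _ = ρ Φ⁻¹ * ι := by rw [h2, mul_one]

theorem ι_S : ι * SOp ρ Φ q = SOp ρ Φ q * ι := by
  unfold SOp
  rw [mul_add, add_mul, D.ι_Φ, mul_smul_comm, smul_mul_assoc, D.ι_Φinv]

/-- `δ ι σ' = σ' ι`, `σ' = δ Sg⁻¹`. -/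
theorem ι_Sg' : δ * ι * (δ * ρ Sg⁻¹) = (δ * ρ Sg⁻¹) * ι := by
  have h1 : ρ Sg⁻¹ * ρ Sg = 1 := by rw [← map_mul, inv_mul_cancel, map_one]
  have h2 : ρ Sg * ρ Sg⁻¹ = 1 := by rw [← map_mul, mul_inv_cancel, map_one]
  have h3 := D.δ_comm Sg⁻¹
  calc δ * ι * (δ * ρ Sg⁻¹) = (δ * ι * δ) * ρ Sg⁻¹ := by noncomm_ring
    _ = ι * ρ Sg⁻¹ := by rw [D.ι_δ]
    _ = (ρ Sg⁻¹ * ρ Sg) * ι * ρ Sg⁻¹ := by rw [h1, one_mul]
    _ = ρ Sg⁻¹ * (ρ Sg * ι) * ρ Sg⁻¹ := by noncomm_ring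
    _ = ρ Sg⁻¹ * (δ * ι * ρ Sg) * ρ Sg⁻¹ := by rw [D.ι_Sg]
    _ = (ρ Sg⁻¹ * δ) * ι * (ρ Sg * ρ Sg⁻¹) := by noncomm_ring
    _ = (δ * ρ Sg⁻¹) * ι := by rw [h2, mul_one, h3]

theorem ι_P : δ * ι * PPOp ρ δ Φ Sg q = PPOp ρ δ Φ Sg q * ι := by
  have h1 := D.ι_Φ
  have h2 := D.ι_Φinv
  have h3 := D.ι_Sg
  have h4 := D.ι_Sg'
  have h5 := D.δ_comm Φ
  unfold PPOp
  simp only [mul_smul_comm, smul_mul_assoc, mul_add, add_mul]
  congr 1
  · linear_combination (norm := noncomm_ring) δ * h1 * ρ Sg + h5 * ι * ρ Sg + ρ Φ * h3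
  · congr 1
    linear_combination (norm := noncomm_ring) h4 * ρ Φ⁻¹ + δ * ρ Sg⁻¹ * h2

theorem ι_w : δ * ι * wOp δ = - (wOp δ * ι) := by
  have h := D.ι_δ
  unfold wOp
  linear_combination (norm := noncomm_ring) h

/-- `δ ι γ = γ ι`. -/
theorem ι_gam : δ * ι * gamOp ρ δ Φ Sg q = gamOp ρ δ Φ Sg q * ι := by
  have h1 := D.ι_P
  have h2 := D.ι_S
  have h3 := D.ι_w
  unfold gamOp c1Op
  have hδ : δ = wOp δ + 1 := by unfold wOp; abel
  have h4 : δ * ι * SOp ρ Φ q = (wOp δ + 1) * SOp ρ Φ q * ι := by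
    rw [mul_assoc, h2, ← mul_assoc, ← hδ]
  linear_combination (norm := noncomm_ring) 2 * h1 - 2 * h4 - h3 * SOp ρ Φ q + wOp δ * h2

/-! ### elements -/

theorem w_apply_comm (g : G) (x : H) : wOp δ (ρ g x) = ρ g (wOp δ x) :=
  LinearMap.congr_fun (D.w_comm g) x

theorem w_gam_apply (x : H) : wOp δ (gamOp ρ δ Φ Sg q x) = gamOp ρ δ Φ Sg q (wOp δ x) :=
  LinearMap.congr_fun D.w_gam x

theorem w_S_apply (x : H) : wOp δ (SOp ρ Φ q x) = SOp ρ Φ q (wOp δ x) :=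
  LinearMap.congr_fun D.w_S x

omit D in
theorem δ_of_w {y : H} (hy : wOp δ y = 0) : δ y = y := by
  have : δ y - y = 0 := hy
  exact sub_eq_zero.mp this

/-- `w ι x = - δ ι (w x)`. -/
theorem w_ι_apply (x : H) : wOp δ (ι x) = - δ (ι (wOp δ x)) := by
  have h := LinearMap.congr_fun D.ι_w x
  simp only [Module.End.mul_apply, LinearMap.neg_apply] at h
  rw [h, neg_neg]

theorem w_ι_of_w {y : H} (hy : wOp δ y = 0) : wOp δ (ι y) = 0 := by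
  rw [D.w_ι_apply, hy, map_zero, map_zero, neg_zero]

/-- `γ` kills `ker w`. -/
theorem gam_of_w {y : H} (hy : wOp δ y = 0) : gamOp ρ δ Φ Sg q y = 0 := by
  have h1 := D.c1_ker y hy
  have h2 := D.w_S_apply y
  rw [hy, map_zero] at h2
  unfold gamOp
  simp only [LinearMap.sub_apply, Module.End.mul_apply, h1, h2, map_zero, sub_zero]

/-- **`γ` kills `ker w²`.** -/
theorem gam_kill {x : H} (hx : wOp δ (wOp δ x) = 0) : gamOp ρ δ Φ Sg q x = 0 := by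
  -- `γ x ∈ ker w`
  have hb : ∀ {z : H}, wOp δ (wOp δ z) = 0 → wOp δ (gamOp ρ δ Φ Sg q z) = 0 := fun {z} hz => by
    rw [D.w_gam_apply, D.gam_of_w hz]
  -- `ι (w x) ∈ ker w`
  have h1 : wOp δ (ι (wOp δ x)) = 0 := D.w_ι_of_w hx
  -- `w ι x = - ι (w x)`
  have h2 : wOp δ (ι x) = - ι (wOp δ x) := by rw [D.w_ι_apply, δ_of_w h1]
  -- `ι γ x = γ ι x`
  have h3 : ι (gamOp ρ δ Φ Sg q x) = gamOp ρ δ Φ Sg q (ι x) := by
    have h := LinearMap.congr_fun D.ι_gam x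
    simp only [Module.End.mul_apply] at h
    rw [← h, δ_of_w (D.w_ι_of_w (hb hx))]
  -- `S γ x` in two ways
  have h4 : SOp ρ Φ q (gamOp ρ δ Φ Sg q x) = (-(q + 1)) • gamOp ρ δ Φ Sg q (ι x) := by
    rw [D.S_ker _ (hb hx), h3]
  have h5 : SOp ρ Φ q (gamOp ρ δ Φ Sg q x) = gamOp ρ δ Φ Sg q (SOp ρ Φ q x) :=
    LinearMap.congr_fun D.S_gam x
  have h6 : wOp δ (SOp ρ Φ q x - (q + 1) • ι x) = 0 := by
    rw [map_sub, D.w_S_apply, D.S_ker _ hx, map_zsmul, h2, smul_neg, neg_smul, sub_self]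
  have h7 := D.gam_of_w h6
  rw [map_sub, map_zsmul, sub_eq_zero] at h7
  have h8 : (2 * (q + 1)) • gamOp ρ δ Φ Sg q (ι x) = 0 := by
    have : (q + 1) • gamOp ρ δ Φ Sg q (ι x) = (-(q + 1)) • gamOp ρ δ Φ Sg q (ι x) := by
      rw [← h7, ← h5, h4]
    rw [neg_smul, eq_neg_iff_add_eq_zero, ← add_smul] at this
    rw [two_mul]
    exact this
  have h9 := D.tors _ h8
  rw [← h3] at h9
  exact D.ι_inj (by rw [h9, map_zero])

end IsTower

/-- the domain of `β`: `ker w ∩ w² H`. -/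
def K2 (δ : Module.End ℤ H) : AddSubgroup H where
  carrier := {z | wOp δ z = 0 ∧ ∃ u, wOp δ (wOp δ u) = z}
  zero_mem' := ⟨map_zero _, 0, by rw [map_zero, map_zero]⟩
  add_mem' := by
    rintro a b ⟨ha, u, hu⟩ ⟨hb, v, hv⟩
    exact ⟨by rw [map_add, ha, hb, add_zero], u + v, by rw [map_add, map_add, hu, hv]⟩
  neg_mem' := by
    rintro a ⟨ha, u, hu⟩
    exact ⟨by rw [map_neg, ha, neg_zero], -u, by rw [map_neg, map_neg, hu]⟩

theorem mem_K2 {z : H} : z ∈ K2 δ ↔ wOp δ z = 0 ∧ ∃ u, wOp δ (wOp δ u) = z := Iff.rfl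

namespace IsTower

variable (D : IsTower ρ δ ι Φ Sg q)

include D

theorem smul_mem_K2 (g : G) {z : H} (hz : z ∈ K2 δ) : ρ g z ∈ K2 δ := by
  obtain ⟨h1, u, hu⟩ := hz
  exact ⟨by rw [D.w_apply_comm, h1, map_zero], ρ g u, by
    rw [D.w_apply_comm, D.w_apply_comm, hu]⟩

/-- `(Sg - 1) z ∈ K2`. -/
theorem nu_mem_K2 {z : H} (hz : z ∈ K2 δ) : ρ Sg z - z ∈ K2 δ :=
  sub_mem (D.smul_mem_K2 Sg hz) hz

/-- **(TR), abstract form.** -/
theorem exists_beta :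
    ∃ β : K2 δ →+ H,
      (∀ (u : H) (hu : wOp δ (wOp δ u) ∈ K2 δ), β ⟨_, hu⟩ = gamOp ρ δ Φ Sg q u) ∧
      (∀ z, wOp δ (β z) = 0) ∧
      (∀ (g : G) (z : K2 δ), β ⟨ρ g z, D.smul_mem_K2 g z.2⟩ = ρ g (β z)) ∧
      (∀ (z : K2 δ), (∃ u, (wOp δ ^ 4) u = z) →
        (2 : ℤ) • ρ Φ (z : H) + (q + 1) • ι (z : H) = (2 : ℤ) • β ⟨_, D.nu_mem_K2 z.2⟩) := by
  classical
  have hspec : ∀ (z : K2 δ) (u : H), wOp δ (wOp δ u) = z →
      gamOp ρ δ Φ Sg q z.2.2.choose = gamOp ρ δ Φ Sg q u := by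
    intro z u hu
    have h1 := z.2.2.choose_spec
    rw [← sub_eq_zero, ← map_sub]
    apply D.gam_kill
    rw [map_sub, map_sub, h1, hu, sub_self]
  let β : K2 δ →+ H :=
    { toFun := fun z => gamOp ρ δ Φ Sg q z.2.2.choose
      map_zero' := by
        rw [hspec 0 0 (by rw [map_zero, map_zero]; rfl), map_zero]
      map_add' := fun a b => by
        rw [hspec (a + b) (a.2.2.choose + b.2.2.choose) (by
          rw [map_add, map_add, a.2.2.choose_spec, b.2.2.choose_spec]; rfl), map_add] }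
  have hβ : ∀ (u : H) (hu : wOp δ (wOp δ u) ∈ K2 δ), β ⟨_, hu⟩ = gamOp ρ δ Φ Sg q u :=
    fun u hu => hspec ⟨_, hu⟩ u rfl
  have hβ' : ∀ (z : K2 δ) (u : H), wOp δ (wOp δ u) = z → β z = gamOp ρ δ Φ Sg q u :=
    fun z u hu => hspec z u hu
  refine ⟨β, hβ, ?_, ?_, ?_⟩
  · intro z
    obtain ⟨u, hu⟩ := z.2.2
    rw [hβ' z u hu, D.w_gam_apply]
    apply D.gam_kill
    rw [hu, z.2.1]
  · intro g z
    obtain ⟨u, hu⟩ := z.2.2
    rw [hβ' z u hu, hβ' ⟨ρ g z, D.smul_mem_K2 g z.2⟩ (ρ g u) (by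
      rw [D.w_apply_comm, D.w_apply_comm, hu])]
    exact LinearMap.congr_fun (D.gam_comm g) u
  · rintro z ⟨u, hu⟩
    set w := wOp δ with hw
    set γ := gamOp ρ δ Φ Sg q with hγ
    have hid : w ^ 4 * ρ Φ = w ^ 2 * γ * (ρ Sg - 1) - w ^ 3 * c1Op ρ δ Φ Sg q
        + w ^ 4 * SOp ρ Φ q :=
      ring_identity w (ρ Φ) (ρ Sg) (q • ρ Φ⁻¹) (δ * ρ Sg⁻¹) (D.w_comm Φ)
        (by rw [mul_smul_comm, smul_mul_assoc, D.w_comm])
        (by
          rw [mul_assoc, ← map_mul, inv_mul_cancel, map_one, mul_one, hw]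
          unfold wOp
          abel)
        (D.S_comm Sg) D.type D.comm
    have cφ : Commute w (ρ Φ) := D.w_comm Φ
    have cσ : Commute w (ρ Sg - 1) := Commute.sub_right (D.w_comm Sg) (Commute.one_right _)
    have cγ : Commute w γ := D.w_gam
    have cc : Commute w (c1Op ρ δ Φ Sg q) := D.w_c1
    have cS : Commute w (SOp ρ Φ q) := D.w_S
    have hid2 : ρ Φ * w ^ 4 = γ * (ρ Sg - 1) * w ^ 2 - c1Op ρ δ Φ Sg q * w ^ 3
        + SOp ρ Φ q * w ^ 4 := by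
      rw [← (cφ.pow_left 4).eq, hid, mul_assoc, ((cγ.mul_right cσ).pow_left 2).eq,
        (cc.pow_left 3).eq, (cS.pow_left 4).eq]
    set u2 : H := w (w u) with hu2
    have hz : w (w u2) = (z : H) := by
      rw [← hu]
      simp only [pow_succ, pow_zero, one_mul, Module.End.mul_apply, hu2]
    have h1 := LinearMap.congr_fun hid2 u
    simp only [Module.End.mul_apply, LinearMap.sub_apply, LinearMap.add_apply,
      Module.End.one_apply] at h1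
    have e4 : (w ^ 4) u = (z : H) := hu
    have e2 : (w ^ 2) u = u2 := by
      simp only [pow_succ, pow_zero, one_mul, Module.End.mul_apply, hu2]
    have e3 : (w ^ 3) u = w u2 := by
      simp only [pow_succ, pow_zero, one_mul, Module.End.mul_apply, hu2]
    rw [e4, e2, e3] at h1
    -- `2 c₁ (w u₂) = S z`
    have h2 : γ (w u2) = 0 := D.gam_kill (by rw [hz, z.2.1])
    have h3 : (2 : ℤ) • c1Op ρ δ Φ Sg q (w u2) = SOp ρ Φ q (z : H) := by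
      have : γ (w u2) = (2 : ℤ) • c1Op ρ δ Φ Sg q (w u2) - w (SOp ρ Φ q (w u2)) := by
        rw [hγ]
        unfold gamOp
        simp only [LinearMap.sub_apply, Module.End.mul_apply, two_mul, LinearMap.add_apply,
          two_smul]
        rfl
      rw [h2, D.w_S_apply, hz] at this
      exact (sub_eq_zero.mp this.symm)
    have h4 : β ⟨_, D.nu_mem_K2 z.2⟩ = γ (ρ Sg u2 - u2) :=
      hβ' _ _ (by
        show w (w (ρ Sg u2 - u2)) = ρ Sg (z : H) - (z : H)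
        rw [map_sub, map_sub, D.w_apply_comm, D.w_apply_comm, hz])
    rw [h4, h1, smul_add, smul_sub, h3, D.S_ker _ z.2.1]
    simp only [neg_smul, smul_neg, two_smul]
    abel

end IsTower

end Tower

end Fermat.Agent.S43.T
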