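import Mathlib

/-!
# S43 / T / Arith : the two arithmetic fields `cop`, `hpe` of `T.IsRel`   (Mathlib only)
-/

set_option autoImplicit false

namespace Fermat.Agent.S43.T

theorem arith_hpe {p q e : ℕ} (hq : 1 ≤ q) (h : p ^ e ∣ q - 1) :
    ((p ^ e : ℕ) : ℤ) ∣ (q : ℤ) - 1 := by
  have := Int.natCast_dvd_natCast.2 h
  rwa [Nat.cast_sub hq, Nat.cast_one] at this

theorem arith_cop {p q e : ℕ} (hp : p.Prime) (hp2 : p ≠ 2) (hq : 1 ≤ q) (he : 1 ≤ e)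
    (h : p ^ e ∣ q - 1) (k : ℕ) :
    IsCoprime (2 * ((q : ℤ) + 1)) ((p ^ k : ℕ) : ℤ) := by
  rw [Nat.cast_pow]
  apply IsCoprime.pow_right
  have hpZ : Prime (p : ℤ) := Nat.prime_iff_prime_int.1 hp
  rw [isCoprime_comm, hpZ.coprime_iff_not_dvd]
  intro hd
  have h1 : (p : ℤ) ∣ (q : ℤ) - 1 := by
    refine dvd_trans ?_ (arith_hpe hq h)
    rw [Nat.cast_pow]
    exact dvd_pow_self _ (by omega)
  have h2 : (p : ℤ) ∣ 4 := by
    have : (4 : ℤ) = 2 * ((q : ℤ) + 1) - 2 * ((q : ℤ) - 1) := by ring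
    rw [this]
    exact dvd_sub hd (Dvd.dvd.mul_left h1 2)
  have h3 : p ∣ 4 := by exact_mod_cast h2
  have h4 : p ∣ 2 := by
    have : p ∣ 2 ^ 2 := by norm_num; exact h3
    exact hp.dvd_of_dvd_pow this
  exact hp2 ((Nat.prime_dvd_prime_iff_eq hp Nat.prime_two).1 h4)

end Fermat.Agent.S43.T
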