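import Fermat.Agent.S43.T.Dia
import Fermat.Agent.S43.T.IoStab
import Fermat.Agent.S43.Ctl.Inst
import Fermat.Agent.S43.R2W.OutRes

/-!
# S43 / T / Asm0 : the concrete tower module `HH` for a `Fin.Ctx`, and its formal properties

`KK = B1.Kum Qb (F1Q (M q)).F (p ^ K)`, `HH = Nm_{G_H} K0`, `K0 = Th.K0`, `dl = ⟨cyc N Σ⟩`, `io = R2O.wK`.
-/

set_option autoImplicit false
set_option linter.unusedSectionVars false
set_option linter.style.haveILetI false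

namespace Fermat.Agent.S43.TA

open Fermat.Agent.ES (Qb GQ)
open Fermat.Agent.S48 Fermat.Agent.S48.B1
open Fermat.Agent.S43.TD
open Fermat.Agent.SS (GP)

/-! ### arithmetic in `ZMod (M * q)` -/

theorem mul_eq_of_unitsMap {a b : ℕ} [NeZero a] [NeZero b] (d : (ZMod (a * b))ˣ)
    (h : ZMod.unitsMap (dvd_mul_right a b) d = 1) :
    (d : ZMod (a * b)) * (b : ZMod (a * b)) = b := by
  have h1 := congrArg Units.val h
  rw [ZMod.unitsMap_val, Units.val_one] at h1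
  have h2 : (((d : ZMod (a * b)).val : ℕ) : ZMod a) = ((1 : ℕ) : ZMod a) := by
    rw [ZMod.natCast_val, Nat.cast_one]; exact h1
  have h3 : (((d : ZMod (a * b)).val : ℤ) : ZMod a) = ((1 : ℤ) : ZMod a) := by
    rw [Int.cast_natCast, Int.cast_one, h2, Nat.cast_one]
  rw [ZMod.intCast_eq_intCast_iff_dvd_sub] at h3
  obtain ⟨k, hk⟩ := h3
  have h4 : ((d : ZMod (a * b))) = (((1 : ℤ) - (a : ℤ) * k : ℤ) : ZMod (a * b)) := by
    rw [← hk]
    simp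
  rw [h4]
  push_cast
  have h5 : (a : ZMod (a * b)) * (b : ZMod (a * b)) = 0 := by
    rw [← Nat.cast_mul, ZMod.natCast_self]
  linear_combination (-(k : ZMod (a * b))) * h5

theorem mul_eq_of_unitsMap' {a b : ℕ} [NeZero a] [NeZero b] (d : (ZMod (a * b))ˣ)
    (h : ZMod.unitsMap (dvd_mul_left b a) d = 1) :
    (d : ZMod (a * b)) * (a : ZMod (a * b)) = a := by
  have h1 := congrArg Units.val h
  rw [ZMod.unitsMap_val, Units.val_one] at h1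
  have h2 : (((d : ZMod (a * b)).val : ℕ) : ZMod b) = ((1 : ℕ) : ZMod b) := by
    rw [ZMod.natCast_val, Nat.cast_one]; exact h1
  have h3 : (((d : ZMod (a * b)).val : ℤ) : ZMod b) = ((1 : ℤ) : ZMod b) := by
    rw [Int.cast_natCast, Int.cast_one, h2, Nat.cast_one]
  rw [ZMod.intCast_eq_intCast_iff_dvd_sub] at h3
  obtain ⟨k, hk⟩ := h3
  have h4 : ((d : ZMod (a * b))) = (((1 : ℤ) - (b : ℤ) * k : ℤ) : ZMod (a * b)) := by
    rw [← hk]
    simp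
  rw [h4]
  push_cast
  have h5 : (a : ZMod (a * b)) * (b : ZMod (a * b)) = 0 := by
    rw [← Nat.cast_mul, ZMod.natCast_self]
  linear_combination (-(k : ZMod (a * b))) * h5

variable {M q p : ℕ} [NeZero M] [NeZero q] (C : Fin.Ctx M q p)

theorem hNS : ∀ r : ℕ, r.Prime → r ∣ M * q → r ∈ C.S := by
  intro r hr hd
  rcases (Nat.Prime.dvd_mul hr).1 hd with h | h
  · exact C.hMS r hr h
  · rw [(Nat.prime_dvd_prime_iff_eq hr C.hq).1 h]; exact C.hqS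

theorem c1_mul_q : ((c1 C : (ZMod (M * q))ˣ) : ZMod (M * q)) * (q : ZMod (M * q)) = q :=
  mul_eq_of_unitsMap _ (unitsMap_c1 C)

theorem cycPh_mul_M :
    ((CH.cyc (M * q) C.Ph : (ZMod (M * q))ˣ) : ZMod (M * q)) * (M : ZMod (M * q)) = M :=
  mul_eq_of_unitsMap' _ (by rw [unitsMap_cyc, C.hPh1])

noncomputable instance instFintypeGH : Fintype (GH C) := Fintype.ofFinite _

/-- `(i, h) ↦ c1 ^ i * h` is a bijection `Fin (p ^ e) × GH → (ℤ/N)ˣ`. -/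
theorem bij_c1 (he : 1 ≤ C.e) :
    Function.Bijective (fun x : Fin (p ^ C.e) × GH C => c1 C ^ (x.1 : ℕ) * (x.2 : (ZMod (M * q))ˣ)) := by
  have hord := orderOf_chi_c1 C
  have hprim : IsPrimitiveRoot (Free.chi M q (kk C) (c1 C)) (p ^ C.e) := by
    rw [← hord]; exact IsPrimitiveRoot.orderOf _
  constructor
  · rintro ⟨i, h⟩ ⟨j, h'⟩ hij
    have hij' : c1 C ^ (i : ℕ) * (h : (ZMod (M * q))ˣ) = c1 C ^ (j : ℕ) * (h' : (ZMod (M * q))ˣ) := hij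
    have e := congrArg (Free.chi M q (kk C)) hij'
    rw [map_mul, map_mul, map_pow, map_pow, MonoidHom.mem_ker.1 h.2, MonoidHom.mem_ker.1 h'.2,
      mul_one, mul_one] at e
    have hi : (i : ℕ) = j := hprim.pow_inj i.2 j.2 e
    have hi' : i = j := Fin.ext hi
    subst hi'
    have : (h : (ZMod (M * q))ˣ) = h' := mul_left_cancel hij'
    rw [Subtype.ext this]
  · intro d
    obtain ⟨i, h, hh, rfl⟩ := exists_pow_mul C he d
    have hpos : 0 < p ^ C.e := pow_pos C.hp.pos _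
    refine ⟨(⟨i % p ^ C.e, Nat.mod_lt _ hpos⟩,
      ⟨(c1 C ^ p ^ C.e) ^ (i / p ^ C.e) * h, (GH C).mul_mem ((GH C).pow_mem (c1_pow_mem_GH C) _) hh⟩), ?_⟩
    show c1 C ^ (i % p ^ C.e) * ((c1 C ^ p ^ C.e) ^ (i / p ^ C.e) * h) = c1 C ^ i * h
    rw [← mul_assoc, ← pow_mul, ← pow_add, Nat.mod_add_div]

noncomputable section

variable (hN : 5 ≤ M * q) (K : ℕ)

/-- the diamond action. -/
abbrev rho : (ZMod (M * q))ˣ → KK M q (p ^ K) →+ KK M q (p ^ K) :=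
  fun d => diaKum (R0.HD hN) (p ^ K) d

/-- the `θ`-part. -/
abbrev K0 : AddSubgroup (KK M q (p ^ K)) := Th.K0 hN C.hp K (hNS C) C.a

/-- **the tower module.** -/
def HH : AddSubgroup (KK M q (p ^ K)) := Ctl.HH (GH C) (rho hN K) (K0 C hN K)

/-- `V`. -/
abbrev VV : AddSubgroup (Fermat.Agent.ES.Kum (M * q) (p ^ K)) := Fin.Vth (M * q) (p ^ K) C.S C.a

/-- `δ`. -/
abbrev dl : KK M q (p ^ K) →+ KK M q (p ^ K) := diaKum (R0.HD hN) (p ^ K) (c1 C)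

theorem exists_nE : ∃ ℓ : GP C.S, ¬ (p : ℤ) ∣ C.a ℓ.1 - (ℓ.1 + 1) := by
  obtain ⟨ℓ, hℓ, hS, h⟩ := C.hnE
  refine ⟨⟨ℓ, hℓ, hS⟩, ?_⟩
  intro hd
  apply h
  have : C.W.apOfModel ℓ - (ℓ : ℤ) - 1 = C.a ℓ - ((ℓ : ℤ) + 1) := by
    show _ = C.W.apOfModel ℓ - _
    ring
  rw [this]; exact hd

include C in
theorem not_dvd_N : ¬ p ∣ M * q := by
  intro h
  rcases (Nat.Prime.dvd_mul C.hp).1 h with h | h
  · exact C.hpM h
  · exact C.hqp ((Nat.prime_dvd_prime_iff_eq C.hp C.hq).1 h).symm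

/-- the control package. -/
theorem hyp : Ctl.Hyp (k := Qb) (Th.eKK hN C.hp K)
    (Fermat.Agent.S15.W.e1NHom (N := M * q) (pow_pos C.hp.pos K).ne')
    (rho hN K) (R0.pull hN (p ^ K)) (R0.push hN (p ^ K)) (K0 C hN K) (VV C K) 2
    ((p ^ K + 1) / 2) :=
  CtlI.hyp hN C.hp K (hNS C) C.hpS C.a C.hp5 (not_dvd_N C) (exists_nE C)

theorem HH_le_K0 : HH C hN K ≤ K0 C hN K := (hyp C hN K).HH_le

theorem HH_le_FixGH : HH C hN K ≤ FixGH C hN (p ^ K) := by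
  rintro _ ⟨z, -, rfl⟩ c hc
  show rho hN K c (Ctl.NH (GH C) (rho hN K) z) = _
  rw [(hyp C hN K).ρ_NH, (hyp C hN K).NH_ρ_of_mem ⟨c, hc⟩]

theorem gl_mem_HH (s : GQ) {y : KK M q (p ^ K)} (hy : y ∈ HH C hN K) :
    gl M q (p ^ K) s y ∈ HH C hN K := by
  obtain ⟨z, hz, rfl⟩ := hy
  refine ⟨gl M q (p ^ K) s z, Th.gal_mem_K0 hN C.hp K (hNS C) C.a s hz, ?_⟩
  rw [Ctl.NH_apply, Ctl.NH_apply, map_sum]
  exact Finset.sum_congr rfl fun h _ => diaKum_galKum (R0.HD hN) _ s z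

theorem dia_mem_HH (d : (ZMod (M * q))ˣ) {y : KK M q (p ^ K)} (hy : y ∈ HH C hN K) :
    di hN (p ^ K) d y ∈ HH C hN K := (hyp C hN K).ρ_mem_HH d hy

theorem finite_HH : Finite (HH C hN K) := by
  haveI := Th.finite_KK hN C.hp K
  infer_instance

theorem kill_HH (y : KK M q (p ^ K)) : p ^ K • y = 0 := Kum.nsmul_eq_zero y

/-- iterates of `δ`. -/
theorem dl_iterate (i : ℕ) (y : KK M q (p ^ K)) :
    (dl C hN K)^[i] y = di hN (p ^ K) (c1 C ^ i) y := by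
  induction i with
  | zero => rw [pow_zero, diaKum_one']; rfl
  | succ i ih => rw [Function.iterate_succ_apply', ih, pow_succ', diaKum_mul']

theorem ND_eq (y : KK M q (p ^ K)) :
    Ctl.ND (c1 C) (p ^ C.e) (rho hN K) y = ∑ i ∈ Finset.range (p ^ C.e), (dl C hN K)^[i] y := by
  rw [Ctl.ND_apply]
  exact Finset.sum_congr rfl fun i _ => (dl_iterate C hN K i y).symm

theorem dl_iterate_pow {y : KK M q (p ^ K)} (hy : y ∈ HH C hN K) :
    (dl C hN K)^[p ^ C.e] y = y := by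
  rw [dl_iterate]
  exact dia_c1_pow C hN (HH_le_FixGH C hN K hy)

/-! ### (H1) -/

theorem ND_pull (he : 1 ≤ C.e) {y : KK M q (p ^ K)} (hy : y ∈ HH C hN K) :
    ∃ v ∈ VV C K, R0.pull hN (p ^ K) v = ∑ i ∈ Finset.range (p ^ C.e), (dl C hN K)^[i] y := by
  obtain ⟨x, hx, h⟩ := (hyp C hN K).ND_eq_pull (bij_c1 C he) y hy
  exact ⟨x, hx, by rw [h, ND_eq]⟩

theorem pull_ND (he : 1 ≤ C.e) {v : Fermat.Agent.ES.Kum (M * q) (p ^ K)} (hv : v ∈ VV C K) :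
    ∃ y ∈ HH C hN K, ∑ i ∈ Finset.range (p ^ C.e), (dl C hN K)^[i] y = R0.pull hN (p ^ K) v := by
  obtain ⟨y, hy, h⟩ := (hyp C hN K).pull_eq_ND (bij_c1 C he) v hv
  exact ⟨y, hy, by rw [← h, ND_eq]⟩

theorem ker_ND (he : 1 ≤ C.e) {y : KK M q (p ^ K)} (hy : y ∈ HH C hN K)
    (h0 : ∑ i ∈ Finset.range (p ^ C.e), (dl C hN K)^[i] y = 0) :
    ∃ y' ∈ HH C hN K, dl C hN K y' - y' = y :=
  (hyp C hN K).ker_ND (bij_c1 C he) y hy (by rw [ND_eq, h0])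

theorem pull_mem_HH (he : 1 ≤ C.e) {v : Fermat.Agent.ES.Kum (M * q) (p ^ K)} (hv : v ∈ VV C K) :
    R0.pull hN (p ^ K) v ∈ HH C hN K := by
  obtain ⟨y, hy, h⟩ := pull_ND C hN K he hv
  rw [← h]
  refine AddSubgroup.sum_mem _ fun i _ => ?_
  rw [dl_iterate]
  exact dia_mem_HH C hN K _ hy

theorem ker_w (he : 1 ≤ C.e) {y : KK M q (p ^ K)} (hy : y ∈ HH C hN K)
    (h : dl C hN K y = y) : ∃ v ∈ VV C K, R0.pull hN (p ^ K) v = y :=
  (hyp C hN K).inv y (HH_le_K0 C hN K hy)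
    (fun g => dia_all_of_c1 C hN he (HH_le_FixGH C hN K hy) h g)

theorem pull_inj {v : Fermat.Agent.ES.Kum (M * q) (p ^ K)} (hv : v ∈ VV C K)
    (h : R0.pull hN (p ^ K) v = 0) : v = 0 := (hyp C hN K).inj v hv h

end

end Fermat.Agent.S43.TA
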