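import Fermat.Agent.S43.T.Abs

/-!
# S43 / T / Rel : relative, elementwise form of `T.IsTower.exists_beta`   (Mathlib + T/Abs)

Ambient groups `KK` (Kummer module of `X₁(N)`), `KV` (Kummer module of `X₀(N)`), subgroups `HH ≤ KK`, `VV ≤ KV`;
all hypotheses are elementwise, with membership; the conclusion has the shape of `Fin.Ctx.TR`.
-/

set_option autoImplicit false

namespace Fermat.Agent.S43.T

section Rel

variable {G KK KV : Type*} [Group G] [AddCommGroup KK] [AddCommGroup KV]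

/-- restriction of an additive endomorphism to a stable subgroup. -/
def resE (HH : AddSubgroup KK) (f : KK →+ KK) (hf : ∀ y ∈ HH, f y ∈ HH) : Module.End ℤ HH :=
  ((f.comp HH.subtype).codRestrict HH (fun y => hf y y.2)).toIntLinearMap

@[simp] theorem coe_resE (HH : AddSubgroup KK) (f : KK →+ KK) (hf : ∀ y ∈ HH, f y ∈ HH) (y : HH) :
    ((resE HH f hf y : HH) : KK) = f y := rfl

/-- the hypotheses (`y ∈ HH`, `v ∈ VV`). -/
structure IsRel (gK : G → KK →+ KK) (gV : G → KV →+ KV) (dl io : KK →+ KK) (wV : KV →+ KV)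
    (pull : KV →+ KK) (HH : AddSubgroup KK) (VV : AddSubgroup KV) (Φ Sg : G) (q : ℤ)
    (m pe : ℕ) : Prop where
  gK_one : ∀ y ∈ HH, gK 1 y = y
  gK_mul : ∀ a b, ∀ y ∈ HH, gK (a * b) y = gK a (gK b y)
  gK_mem : ∀ s, ∀ y ∈ HH, gK s y ∈ HH
  dl_mem : ∀ y ∈ HH, dl y ∈ HH
  io_mem : ∀ y ∈ HH, io y ∈ HH
  gV_mem : ∀ s, ∀ v ∈ VV, gV s v ∈ VV
  pull_mem : ∀ v ∈ VV, pull v ∈ HH
  kill : ∀ y ∈ HH, m • y = 0
  cop : IsCoprime (2 * (q + 1)) (m : ℤ)
  hpe : (pe : ℤ) ∣ q - 1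
  /-- (L1) -/
  dl_gK : ∀ s, ∀ y ∈ HH, dl (gK s y) = gK s (dl y)
  /-- (L2) -/
  S_comm : ∀ s, ∀ y ∈ HH, gK Φ (gK s y) + q • gK Φ⁻¹ (gK s y) = gK s (gK Φ y + q • gK Φ⁻¹ y)
  /-- (L3) -/
  P_comm : ∀ s, ∀ y ∈ HH, gK Φ (gK Sg (gK s y)) + q • dl (gK Sg⁻¹ (gK Φ⁻¹ (gK s y))) =
    gK s (gK Φ (gK Sg y) + q • dl (gK Sg⁻¹ (gK Φ⁻¹ y)))
  /-- (L4) -/
  type : ∀ y ∈ HH, dl (gK Sg (gK Sg y - dl y) - (gK Sg y - dl y)) =
    gK Sg (gK Sg y - dl y) - (gK Sg y - dl y)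
  /-- (L5) -/
  comm : ∀ y ∈ HH, ∀ c, c = gK Φ (gK Sg y) - gK Sg (gK Φ y) → dl (dl c - c) = dl c - c
  /-- (L6) -/
  io_dl : ∀ y ∈ HH, dl (io (dl y)) = io y
  io_Φ : ∀ y ∈ HH, io (gK Φ y) = gK Φ (io y)
  io_Sg : ∀ y ∈ HH, dl (io (gK Sg y)) = gK Sg (io y)
  io_inj : ∀ y ∈ HH, io y = 0 → y = 0
  io_pull : ∀ v ∈ VV, io (pull v) = pull (wV v)
  /-- (L7) -/
  ker_w : ∀ y ∈ HH, dl y = y → ∃ v ∈ VV, pull v = y
  pull_inj : ∀ v ∈ VV, pull v = 0 → v = 0
  dl_pull : ∀ v ∈ VV, dl (pull v) = pull v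
  pull_gal : ∀ s, ∀ v ∈ VV, pull (gV s v) = gK s (pull v)
  /-- (L8) -/
  lift : ∀ v ∈ VV, pe • v = 0 → ∃ u ∈ HH, ∀ u1 u2 u3, u1 = dl u - u → u2 = dl u1 - u1 →
    u3 = dl u2 - u2 → dl u3 - u3 = pull v
  /-- (L9) -/
  SV : ∀ v ∈ VV, gV Φ v + q • gV Φ⁻¹ v = (-(q + 1)) • wV v
  /-- (L10) -/
  c1V : ∀ v ∈ VV, gV Φ (gV Sg v) + q • gV Sg⁻¹ (gV Φ⁻¹ v) = gV Φ v + q • gV Φ⁻¹ v

variable {gK : G → KK →+ KK} {gV : G → KV →+ KV} {dl io : KK →+ KK} {wV : KV →+ KV}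
  {pull : KV →+ KK} {HH : AddSubgroup KK} {VV : AddSubgroup KV} {Φ Sg : G} {q : ℤ} {m pe : ℕ}

namespace IsRel

variable (D : IsRel gK gV dl io wV pull HH VV Φ Sg q m pe)

/-- the representation on `HH`. -/
def rho : G →* Module.End ℤ HH where
  toFun s := resE HH (gK s) (D.gK_mem s)
  map_one' := LinearMap.ext fun y => Subtype.ext (D.gK_one y y.2)
  map_mul' a b := LinearMap.ext fun y => Subtype.ext (D.gK_mul a b y y.2)

@[simp] theorem coe_rho (s : G) (y : HH) : ((D.rho s y : HH) : KK) = gK s y := rfl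

/-- `δ` on `HH`. -/
def del : Module.End ℤ HH := resE HH dl D.dl_mem

@[simp] theorem coe_del (y : HH) : ((D.del y : HH) : KK) = dl y := rfl

/-- `ι` on `HH`. -/
def iot : Module.End ℤ HH := resE HH io D.io_mem

@[simp] theorem coe_iot (y : HH) : ((D.iot y : HH) : KK) = io y := rfl

@[simp] theorem coe_wOp (y : HH) : ((wOp D.del y : HH) : KK) = dl y - y := rfl

theorem ker_of_w {y : HH} (hy : wOp D.del y = 0) : ∃ v ∈ VV, pull v = (y : KK) := by
  apply D.ker_w y y.2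
  have := congrArg Subtype.val hy
  rw [coe_wOp] at this
  exact sub_eq_zero.1 this

include D in
theorem tors' (y : KK) (hy : y ∈ HH) (h : (2 * (q + 1)) • y = 0) : y = 0 := by
  obtain ⟨a, b, hab⟩ := D.cop
  have h1 : ((m : ℤ)) • y = 0 := by rw [natCast_zsmul]; exact D.kill y hy
  calc y = (a * (2 * (q + 1)) + b * (m : ℤ)) • y := by rw [hab, one_smul]
    _ = 0 := by rw [add_smul, mul_smul a, mul_smul b, h, h1, smul_zero, smul_zero, add_zero]

theorem isTower : IsTower D.rho D.del D.iot Φ Sg q where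
  δ_comm g := LinearMap.ext fun y => Subtype.ext (D.dl_gK g y y.2)
  S_comm g := LinearMap.ext fun y => Subtype.ext (by
    have := D.S_comm g y y.2
    simpa [SOp] using this)
  P_comm g := LinearMap.ext fun y => Subtype.ext (by
    have := D.P_comm g y y.2
    simpa [PPOp] using this)
  type := by
    have H : wOp D.del * ((D.rho Sg - 1) * (D.rho Sg - D.del)) = 0 :=
      LinearMap.ext fun y => Subtype.ext (by
        have := D.type y y.2
        simp only [Module.End.mul_apply, coe_wOp, LinearMap.sub_apply, Module.End.one_apply,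
          AddSubgroup.coe_sub, coe_rho, coe_del, LinearMap.zero_apply, AddSubgroup.coe_zero,
          map_sub] at this ⊢
        rw [← sub_eq_zero] at this
        rw [sub_eq_zero, ← sub_eq_zero, ← this]
        abel)
    have h1 : D.rho Sg * D.rho Sg⁻¹ = 1 := by rw [← map_mul, mul_inv_cancel, map_one]
    have h2 : D.del * D.rho Sg = D.rho Sg * D.del :=
      LinearMap.ext fun y => Subtype.ext (D.dl_gK Sg y y.2)
    unfold TsOp
    unfold wOp at H ⊢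
    linear_combination (norm := noncomm_ring) H * D.rho Sg⁻¹ + (D.del - 1) * (-D.rho Sg) * h1
      + (D.del - 1) * h1 - (D.del - 1) * h2 * D.rho Sg⁻¹ + (D.del - 1) * D.del * h1
  comm := LinearMap.ext fun y => Subtype.ext (by
    have := D.comm y y.2 _ rfl
    simp only [pow_two, Module.End.mul_apply, coe_wOp, LinearMap.sub_apply,
      AddSubgroup.coe_sub, coe_rho, LinearMap.zero_apply, AddSubgroup.coe_zero]
    rw [sub_eq_zero]
    exact this)
  ι_δ := LinearMap.ext fun y => Subtype.ext (D.io_dl y y.2)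
  ι_Φ := LinearMap.ext fun y => Subtype.ext (D.io_Φ y y.2)
  ι_Sg := LinearMap.ext fun y => Subtype.ext (D.io_Sg y y.2)
  ι_inj := (injective_iff_map_eq_zero _).2 fun y hy =>
    Subtype.ext (D.io_inj y y.2 (congrArg Subtype.val hy))
  c1_ker y hy := by
    obtain ⟨v, hv, hvy⟩ := D.ker_of_w hy
    apply Subtype.ext
    have e1 : gK Φ (gK Sg (pull v)) = pull (gV Φ (gV Sg v)) := by
      rw [D.pull_gal _ _ (D.gV_mem _ _ hv), D.pull_gal _ _ hv]
    have e2 : dl (gK Sg⁻¹ (gK Φ⁻¹ (pull v))) = pull (gV Sg⁻¹ (gV Φ⁻¹ v)) := by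
      rw [← D.pull_gal _ _ hv, ← D.pull_gal _ _ (D.gV_mem _ _ hv),
        D.dl_pull _ (D.gV_mem _ _ (D.gV_mem _ _ hv))]
    have e3 : gK Φ (pull v) = pull (gV Φ v) := (D.pull_gal _ _ hv).symm
    have e4 : gK Φ⁻¹ (pull v) = pull (gV Φ⁻¹ v) := (D.pull_gal _ _ hv).symm
    have := congrArg pull (D.c1V v hv)
    simp only [map_add, map_zsmul] at this
    simp only [c1Op, PPOp, SOp, LinearMap.sub_apply, LinearMap.add_apply, Module.End.mul_apply,
      LinearMap.smul_apply, AddSubgroup.coe_sub, AddSubgroup.coe_add, AddSubgroup.coe_zsmul,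
      coe_rho, coe_del, AddSubgroup.coe_zero, map_zsmul, ← hvy]
    rw [e1, e2, e3, e4, this, sub_self]
  S_ker y hy := by
    obtain ⟨v, hv, hvy⟩ := D.ker_of_w hy
    apply Subtype.ext
    have e3 : gK Φ (pull v) = pull (gV Φ v) := (D.pull_gal _ _ hv).symm
    have e4 : gK Φ⁻¹ (pull v) = pull (gV Φ⁻¹ v) := (D.pull_gal _ _ hv).symm
    have := congrArg pull (D.SV v hv)
    simp only [map_add, map_zsmul] at this
    simp only [SOp, LinearMap.add_apply, LinearMap.smul_apply, AddSubgroup.coe_add,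
      AddSubgroup.coe_zsmul, coe_rho, coe_iot, ← hvy]
    rw [e3, e4, this, D.io_pull v hv]
  tors y hy := Subtype.ext (D.tors' y y.2 (by
    have := congrArg Subtype.val hy
    simpa using this))

/-- `pull v ∈ K2` for `v ∈ VV[pe]`, and it is even in `w⁴ HH`. -/
theorem pull_K2 {v : KV} (hv : v ∈ VV) (h : pe • v = 0) :
    (⟨pull v, D.pull_mem v hv⟩ : HH) ∈ K2 D.del ∧
      ∃ u : HH, (wOp D.del ^ 4) u = (⟨pull v, D.pull_mem v hv⟩ : HH) := by
  obtain ⟨u, hu, hu4⟩ := D.lift v hv h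
  have h4 := hu4 _ _ _ rfl rfl rfl
  have hw : wOp D.del (⟨pull v, D.pull_mem v hv⟩ : HH) = 0 :=
    Subtype.ext (by rw [coe_wOp]; exact sub_eq_zero.2 (D.dl_pull v hv))
  refine ⟨⟨hw, wOp D.del (wOp D.del ⟨u, hu⟩), Subtype.ext ?_⟩, ⟨u, hu⟩, Subtype.ext ?_⟩
  · simp only [coe_wOp]
    exact h4
  · simp only [pow_succ, pow_zero, one_mul, Module.End.mul_apply, coe_wOp]
    exact h4

include D in
theorem pull_inj' {a b : KV} (ha : a ∈ VV) (hb : b ∈ VV) (h : pull a = pull b) : a = b := by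
  rw [← sub_eq_zero]
  exact D.pull_inj _ (sub_mem ha hb) (by rw [map_sub, h, sub_self])

include D in
/-- **(TR), relative form.** -/
theorem main (ε : ℤ) :
    ∃ β : KV → KV,
      (∀ x ∈ VV, ∀ y ∈ VV, pe • x = 0 → pe • y = 0 → β (x + y) = β x + β y) ∧
      (∀ s : G, ∀ x ∈ VV, pe • x = 0 → β (gV s x) = gV s (β x)) ∧
      (∀ z ∈ VV, wV z = -(ε • z) → pe • z = 0 → gV Φ z - ε • z = β (gV Sg z - z)) := by
  classical
  obtain ⟨β, -, hβw, hβg, hβ⟩ := D.isTower.exists_beta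
  have key : ∀ x : KV, ∃ v : KV, x ∈ VV → pe • x = 0 →
      v ∈ VV ∧ ∀ Z : K2 D.del, ((Z : HH) : KK) = pull x → pull v = ((β Z : HH) : KK) := by
    intro x
    by_cases hx : x ∈ VV ∧ pe • x = 0
    · obtain ⟨v, hv, hv'⟩ := D.ker_of_w (hβw ⟨_, (D.pull_K2 hx.1 hx.2).1⟩)
      refine ⟨v, fun _ _ => ⟨hv, fun Z hZ => ?_⟩⟩
      have : Z = ⟨_, (D.pull_K2 hx.1 hx.2).1⟩ := Subtype.ext (Subtype.ext hZ)
      rw [this, hv']
    · exact ⟨0, fun h1 h2 => absurd ⟨h1, h2⟩ hx⟩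
  choose B hB using key
  refine ⟨B, ?_, ?_, ?_⟩
  · intro x hx y hy hx0 hy0
    have hxy0 : pe • (x + y) = 0 := by rw [smul_add, hx0, hy0, add_zero]
    obtain ⟨h1, h1'⟩ := hB x hx hx0
    obtain ⟨h2, h2'⟩ := hB y hy hy0
    obtain ⟨h3, h3'⟩ := hB (x + y) (add_mem hx hy) hxy0
    apply D.pull_inj' h3 (add_mem h1 h2)
    rw [map_add, h1' ⟨_, (D.pull_K2 hx hx0).1⟩ rfl, h2' ⟨_, (D.pull_K2 hy hy0).1⟩ rfl,
      h3' (⟨_, (D.pull_K2 hx hx0).1⟩ + ⟨_, (D.pull_K2 hy hy0).1⟩) (by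
        simp only [AddSubgroup.coe_add, map_add]), map_add, AddSubgroup.coe_add]
  · intro s x hx hx0
    have hs0 : pe • gV s x = 0 := by rw [← map_nsmul, hx0, map_zero]
    obtain ⟨h1, h1'⟩ := hB x hx hx0
    obtain ⟨h3, h3'⟩ := hB (gV s x) (D.gV_mem s x hx) hs0
    apply D.pull_inj' h3 (D.gV_mem s _ h1)
    rw [D.pull_gal s _ h1, h1' ⟨_, (D.pull_K2 hx hx0).1⟩ rfl,
      h3' ⟨D.rho s (⟨_, (D.pull_K2 hx hx0).1⟩ : K2 D.del),
        D.isTower.smul_mem_K2 s (D.pull_K2 hx hx0).1⟩ (by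
          rw [D.pull_gal s x hx]; rfl), hβg]
    rfl
  · intro z hz hwz hz0
    have hn : gV Sg z - z ∈ VV := sub_mem (D.gV_mem Sg z hz) hz
    have hn0 : pe • (gV Sg z - z) = 0 := by
      rw [smul_sub, ← map_nsmul, hz0, map_zero, sub_zero]
    obtain ⟨h3, h3'⟩ := hB _ hn hn0
    have hK := D.pull_K2 hz hz0
    have h := hβ ⟨_, hK.1⟩ hK.2
    have h' := congrArg Subtype.val h
    simp only [AddSubgroup.coe_add, AddSubgroup.coe_zsmul, coe_rho, coe_iot] at h'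
    rw [← h3' ⟨_, D.isTower.nu_mem_K2 hK.1⟩ (by
      rw [map_sub, D.pull_gal Sg z hz]; rfl), D.io_pull z hz, hwz] at h'
    apply D.pull_inj' (sub_mem (D.gV_mem Φ z hz) (zsmul_mem hz ε)) h3
    -- `(q + 1) Z = 2 Z`
    obtain ⟨c, hc⟩ := D.hpe
    have hq : (q + 1) • pull z = (2 : ℤ) • pull z := by
      have : q + 1 = 2 + c * (pe : ℤ) := by linarith
      rw [this, add_smul, mul_smul, natCast_zsmul, ← map_nsmul, hz0, map_zero, smul_zero,
        add_zero]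
    have h2 : (2 : ℤ) • (pull (gV Φ z - ε • z) - pull (B (gV Sg z - z))) = 0 := by
      rw [smul_sub, ← h', map_sub, D.pull_gal Φ z hz, map_zsmul, map_neg, map_zsmul, smul_neg,
        smul_comm (q + 1) ε, hq, smul_sub, smul_comm ε (2 : ℤ)]
      abel
    have hmem : pull (gV Φ z - ε • z) - pull (B (gV Sg z - z)) ∈ HH :=
      sub_mem (D.pull_mem _ (sub_mem (D.gV_mem Φ z hz) (zsmul_mem hz ε))) (D.pull_mem _ h3)
    have := D.tors' _ hmem (by rw [mul_comm, mul_smul, h2, smul_zero])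
    exact sub_eq_zero.1 this

end IsRel

end Rel

end Fermat.Agent.S43.T
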