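import Fermat.Agent.S43.T.Asm0
import Fermat.Agent.S43.T.Rel
import Fermat.Agent.S43.T.L8Abs
import Fermat.Agent.S43.T.L9
import Fermat.Agent.S43.T.XFacts
import Fermat.Agent.S43.Soc.Rel
import Fermat.Agent.S43.S1.Gen
import Fermat.Agent.S43.Tame.Rel

/-!
# S43 / T / Asm1 : the concrete instance of `T.IsRel`, hence `C.TR`, from the X-level inputs and the sharp (d)
-/

set_option autoImplicit false
set_option linter.unusedSectionVars false
set_option linter.style.haveILetI false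

namespace Fermat.Agent.S43.TA

open Fermat.Agent.ES (Qb GQ)
open Fermat.Agent.S48 Fermat.Agent.S48.B1
open Fermat.Agent.S43.TD
open Fermat.Agent.SS (GP)

noncomputable section

variable {M q p : ℕ} [NeZero M] [NeZero q] (C : Fin.Ctx M q p) (hN : 5 ≤ M * q) (K : ℕ)

/-- `ι`. -/
def io : KK M q (p ^ K) →+ KK M q (p ^ K) :=
  haveI : Fact q.Prime := ⟨C.hq⟩
  (R2O.wK C.hqM hN (p ^ K) : KK M q (p ^ K) →+ KK M q (p ^ K))

theorem io_mem_HH {y : KK M q (p ^ K)} (hy : y ∈ HH C hN K) : io C hN K y ∈ HH C hN K := by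
  haveI : Fact q.Prime := ⟨C.hq⟩
  exact R2S.wK_mem_HH C.hqM hN C.hp K (hNS C) C.hpS C.a (GH C)
    (fun d hd => R2S.sw_mem_GH C.hqM hd) hy

theorem io_dl (y : KK M q (p ^ K)) : dl C hN K (io C hN K (dl C hN K y)) = io C hN K y := by
  haveI : Fact q.Prime := ⟨C.hq⟩
  show diaKum (R0.HD hN) (p ^ K) (c1 C) (R2O.wK C.hqM hN (p ^ K) _) = _
  rw [R2O.dia_wK_of_mul_q C.hqM hN (c1_mul_q C), diaKum_inv_apply]
  rfl

theorem io_Ph (y : KK M q (p ^ K)) :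
    io C hN K (gl M q (p ^ K) C.Ph y) = gl M q (p ^ K) C.Ph (io C hN K y) := by
  haveI : Fact q.Prime := ⟨C.hq⟩
  show R2O.wK C.hqM hN (p ^ K) _ = _
  rw [R2O.wK_gal, R2O.cq_apply, R2O.prq_of_mul_M C.hqM (cycPh_mul_M C), diaKum_one']
  rfl

theorem io_Sg (y : KK M q (p ^ K)) :
    dl C hN K (io C hN K (gl M q (p ^ K) C.Sg y)) = gl M q (p ^ K) C.Sg (io C hN K y) := by
  haveI : Fact q.Prime := ⟨C.hq⟩
  show _ = galKum _ _ C.Sg (R2O.wK C.hqM hN (p ^ K) y)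
  rw [R2O.gal_wK, R2O.cq_apply]
  have : R2O.prq C.hqM (CH.cyc (M * q) C.Sg) = c1 C := R2O.prq_of_mul_q C.hqM (c1_mul_q C)
  rw [this]
  rfl

theorem io_inj {y : KK M q (p ^ K)} (h : io C hN K y = 0) : y = 0 := by
  haveI : Fact q.Prime := ⟨C.hq⟩
  exact (AddEquiv.map_eq_zero_iff (R2O.wK C.hqM hN (p ^ K))).1 h

theorem io_pull (v : Fermat.Agent.ES.Kum (M * q) (p ^ K)) :
    io C hN K (R0.pull hN (p ^ K) v)
      = R0.pull hN (p ^ K) (Fermat.Agent.SS.wKum C.hw C.hq (p ^ K) v) := by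
  haveI : Fact q.Prime := ⟨C.hq⟩
  exact R2O.wK_pull C.hqM hN C.hw (p ^ K) v

/-- `K_∞`. -/
abbrev Koo : AddSubgroup (KK M q (p ^ K)) := S1.Koo (R0.HD hN) C.A (p ^ K)

theorem S1a (y : KK M q (p ^ K)) : gl M q (p ^ K) C.Sg y - y ∈ Koo C hN K :=
  S1.gal_sub_mem_Koo C.hSg.1 y

theorem S1b (y : KK M q (p ^ K)) :
    gl M q (p ^ K) C.Ph (gl M q (p ^ K) C.Sg (gl M q (p ^ K) C.Ph⁻¹ y)) - y ∈ Koo C hN K := by
  rw [← galKum_mul, ← galKum_mul]
  exact S1.gal_sub_mem_Koo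
    (Tame.conj_mem_inertia C.hPh.mem_decompositionSubgroup C.hSg.1) y

theorem gl_inv_apply (s : GQ) (y : KK M q (p ^ K)) :
    gl M q (p ^ K) s (gl M q (p ^ K) s⁻¹ y) = y := by
  rw [← galKum_mul, mul_inv_cancel, galKum_one]

theorem gl_apply_inv (s : GQ) (y : KK M q (p ^ K)) :
    gl M q (p ^ K) s⁻¹ (gl M q (p ^ K) s y) = y := by
  rw [← galKum_mul, inv_mul_cancel, galKum_one]

/-- the X-level inputs and the sharp (d), at exponent `p ^ K`. -/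
structure XIn : Prop where
  div : ∀ P ∈ VV C K, p • P = 0 → ∃ y ∈ VV C K, P = p ^ (K - 1) • y
  i1 : ∀ P ∈ VV C K, p • P = 0 → Fermat.Agent.ES.galKum (M * q) (p ^ K) C.Sg P = P →
    ∃ y ∈ VV C K, p • y = 0 ∧ P = Fermat.Agent.ES.galKum (M * q) (p ^ K) C.Sg y - y
  d : ∀ v ∈ VV C K, R0.pull hN (p ^ K) v ∈ Koo C hN K →
    Fermat.Agent.ES.galKum (M * q) (p ^ K) C.Sg v = v

/-- (L4), (L5). -/
theorem L45 (he : 1 ≤ C.e) (hK : 0 < K) (X : XIn C hN K) :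
    (∀ y ∈ HH C hN K, dl C hN K (gl M q (p ^ K) C.Sg (gl M q (p ^ K) C.Sg y - dl C hN K y)
        - (gl M q (p ^ K) C.Sg y - dl C hN K y))
      = gl M q (p ^ K) C.Sg (gl M q (p ^ K) C.Sg y - dl C hN K y)
        - (gl M q (p ^ K) C.Sg y - dl C hN K y)) ∧
    (∀ y ∈ HH C hN K, dl C hN K (gl M q (p ^ K) C.Ph (gl M q (p ^ K) C.Sg y)
        - gl M q (p ^ K) C.Sg (gl M q (p ^ K) C.Ph y))
      = gl M q (p ^ K) C.Ph (gl M q (p ^ K) C.Sg y)
        - gl M q (p ^ K) C.Sg (gl M q (p ^ K) C.Ph y)) := by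
  haveI := finite_HH C hN K
  exact Soc.rel_L45 (HH C hN K) (VV C K) (a := C.e) C.hp (by have := C.hp5; omega) hK
    (fun y _ => kill_HH K y)
    (dl C hN K) (io C hN K) (gl M q (p ^ K) C.Sg) (gl M q (p ^ K) C.Ph) (gl M q (p ^ K) C.Ph⁻¹)
    (Fermat.Agent.ES.galKum (M * q) (p ^ K) C.Sg) (R0.pull hN (p ^ K))
    (fun y hy => dia_mem_HH C hN K _ hy) (fun y hy => io_mem_HH C hN K hy)
    (fun y hy => gl_mem_HH C hN K _ hy) (fun y hy => gl_mem_HH C hN K _ hy)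
    (fun y hy => gl_mem_HH C hN K _ hy)
    (fun v hv => Fin.galKum_mem_Vth _ hv) (fun v hv => pull_mem_HH C hN K he hv)
    (fun y _ => diaKum_galKum _ _ _ _) (fun y _ => diaKum_galKum _ _ _ _)
    (fun y _ => gl_inv_apply K _ y) (fun y _ => gl_apply_inv K _ y)
    (fun y hy => dl_iterate_pow C hN K hy)
    (fun y hy => ND_pull C hN K he hy) (fun v hv => pull_ND C hN K he hv)
    (fun y hy h0 => ker_ND C hN K he hy h0)
    (fun v hv h => pull_inj C hN K hv h) (fun v _ => R0.pull_gal hN _ v)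
    X.div X.i1 (fun v _ => TX.nn C K v)
    (Koo C hN K) (fun y hy => S1.diaKum_mem_Koo _ hy)
    (fun y _ => S1a C hN K y) (fun y _ => S1b C hN K y)
    X.d
    (fun y _ => io_dl C hN K y) (fun y _ => io_Ph C hN K y) (fun y _ => io_Sg C hN K y)
    (fun y _ h => io_inj C hN K h)

end

end Fermat.Agent.S43.TA
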