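import Fermat.Agent.S43.T.Asm1

/-!
# S43 / T / Asm2 : `C.TR` from `XBlock`, the X-level inputs (DIV), (I1) at exponent `p`, and the sharp (d)
-/

set_option autoImplicit false
set_option linter.unusedSectionVars false
set_option linter.style.haveILetI false

namespace Fermat.Agent.S43.TA

open Fermat.Agent.ES (Qb GQ)
open Fermat.Agent.S48 Fermat.Agent.S48.B1
open Fermat.Agent.S43.TD
open Fermat.Agent.SS (GP)

noncomputable section

variable {M q p : ℕ} [NeZero M] [NeZero q] (C : Fin.Ctx M q p) (hN : 5 ≤ M * q)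

theorem pe_dvd : ((p ^ C.e : ℕ) : ℤ) ∣ (q : ℤ) - 1 := by
  have h1 : ((p ^ C.e : ℕ) : ℤ) ∣ ((q - 1 : ℕ) : ℤ) := Int.natCast_dvd_natCast.2 C.he
  rwa [Nat.cast_sub C.hq.one_lt.le, Nat.cast_one] at h1

theorem cop (he : 1 ≤ C.e) (K : ℕ) : IsCoprime (2 * ((q : ℤ) + 1)) ((p ^ K : ℕ) : ℤ) := by
  rw [Nat.cast_pow]
  apply IsCoprime.pow_right
  apply IsCoprime.symm
  rw [(Nat.prime_iff_prime_int.1 C.hp).coprime_iff_not_dvd]
  intro h
  have h1 : (p : ℤ) ∣ (q : ℤ) - 1 := by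
    refine dvd_trans ?_ (pe_dvd C)
    rw [Nat.cast_pow]
    exact dvd_pow_self _ (by omega)
  have h2 : (p : ℤ) ∣ 4 := by
    have : (4 : ℤ) = 2 * ((q : ℤ) + 1) - 2 * ((q : ℤ) - 1) := by ring
    rw [this]
    exact dvd_sub h (Dvd.dvd.mul_left h1 2)
  have h3 := Int.le_of_dvd (by norm_num) h2
  have h4 := C.hp5
  omega

/-- the remaining inputs, at exponent `p ^ (e + 1)`. -/
structure XIn2 : Prop extends XIn C hN (C.e + 1) where
  l8 : ∀ v ∈ VV C (C.e + 1), p ^ C.e • v = 0 → ∃ v0 ∈ VV C (C.e + 1), v = p • v0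

/-- **the concrete instance of `T.IsRel`.** -/
theorem isRel (hX : Fin.XBlock M q p) (he : 1 ≤ C.e) (X : XIn2 C hN)
    (hJ : C.J (C.e + 1) = VV C (C.e + 1)) :
    T.IsRel (G := GQ) (fun s => gl M q (p ^ (C.e + 1)) s)
      (fun s => Fermat.Agent.ES.galKum (M * q) (p ^ (C.e + 1)) s)
      (dl C hN (C.e + 1)) (io C hN (C.e + 1)) (Fermat.Agent.SS.wKum C.hw C.hq (p ^ (C.e + 1)))
      (R0.pull hN (p ^ (C.e + 1))) (HH C hN (C.e + 1)) (VV C (C.e + 1)) C.Ph C.Sg (q : ℤ)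
      (p ^ (C.e + 1)) (p ^ C.e) := by
  haveI : NeZero (p ^ (C.e + 1)) := ⟨(pow_pos C.hp.pos _).ne'⟩
  have hK : C.e + 1 ≠ 0 := Nat.succ_ne_zero _
  have h45 := L45 C hN (C.e + 1) he (Nat.succ_pos _) X.toXIn
  refine
    { gK_one := fun y _ => galKum_one y
      gK_mul := fun a b y _ => galKum_mul a b y
      gK_mem := fun s y hy => gl_mem_HH C hN _ s hy
      dl_mem := fun y hy => dia_mem_HH C hN _ _ hy
      io_mem := fun y hy => io_mem_HH C hN _ hy
      gV_mem := fun s v hv => Fin.galKum_mem_Vth s hv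
      pull_mem := fun v hv => pull_mem_HH C hN _ he hv
      kill := fun y _ => kill_HH _ y
      cop := cop C he _
      hpe := pe_dvd C
      dl_gK := fun s y _ => diaKum_galKum _ _ _ _
      S_comm := fun s y hy => ?_
      P_comm := fun s y hy => ?_
      type := h45.1
      comm := fun y hy c hc => ?_
      io_dl := fun y _ => io_dl C hN _ y
      io_Φ := fun y _ => io_Ph C hN _ y
      io_Sg := fun y _ => io_Sg C hN _ y
      io_inj := fun y _ h => io_inj C hN _ h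
      io_pull := fun v _ => io_pull C hN _ v
      ker_w := fun y hy h => ker_w C hN _ he hy h
      pull_inj := fun v hv h => pull_inj C hN _ hv h
      dl_pull := fun v _ => R0.dia_pull hN _ v
      pull_gal := fun s v _ => R0.pull_gal hN s v
      lift := fun v hv hpv => ?_
      SV := fun v hv => T.L9.l9 hX C he v hv
      c1V := fun v hv => ?_ }
  · rw [natCast_zsmul, natCast_zsmul]
    exact tF_comm' C hN hK s (HH_le_FixGH C hN _ hy)
  · rw [natCast_zsmul, natCast_zsmul]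
    exact tFS_comm C hN hK s (HH_le_FixGH C hN _ hy)
  · have h := h45.2 y hy
    rw [← hc] at h
    rw [h, sub_self, map_zero]
  · obtain ⟨v0, hv0, rfl⟩ := X.l8 v hv hpv
    obtain ⟨y, hy, hy2⟩ := pull_ND C hN _ he hv0
    obtain ⟨u, hu, h⟩ := T.L8.lift_abs C.hp C.hp5 C.e (dl C hN (C.e + 1))
      (fun z => dl C hN (C.e + 1) z - z) (fun _ => rfl) (HH C hN (C.e + 1))
      (fun z hz => dia_mem_HH C hN _ _ hz) y hy (kill_HH _ y)
    refine ⟨u, hu, ?_⟩
    rintro u1 u2 u3 rfl rfl rfl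
    rw [map_nsmul, ← hy2]
    exact h
  · exact TX.x1 C (TX.i2b C (hX C).2 le_rfl) (hJ ▸ hv)

/-- **(TR)** -/
theorem tr (hX : Fin.XBlock M q p) (he : 1 ≤ C.e) (X : XIn2 C hN) : C.TR := by
  rcases Fin.sign_J hX C he with hJ | hJ
  · obtain ⟨β, h1, h2, h3⟩ := (isRel C hN hX he X (hJ _)).main C.ε
    have hle : ∀ x ∈ C.Jc, x ∈ VV C (C.e + 1) := fun x hx => (C.mem_J.1 hx).1
    exact ⟨β, fun x hx y hy => h1 x (hle x hx) y (hle y hy), fun s x hx => h2 s x (hle x hx),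
      fun z hz hpz => h3 z (hle z hz) (C.mem_J.1 hz).2 hpz⟩
  · exact Fin.Ctx.TR_of_bot C (hJ _)

end

end Fermat.Agent.S43.TA
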