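import Fermat.Agent.S43.T.Asm2
import Fermat.Agent.S43.T.XI1
import Fermat.Agent.S43.T.L8X
import Fermat.Agent.S43.D.DStar

/-!
# S43 / T / Asm3 : `TBlock` from `XBlock` and `IsoHyp`
-/

set_option autoImplicit false

namespace Fermat.Agent.S43.TA

variable {M q p : ℕ} [NeZero M] [NeZero q]

theorem xin2 (C : Fin.Ctx M q p) (hN : 5 ≤ M * q)
    (H : I.IsoHyp (M * q) (I.ctx_hNS C) C.a C.A p q C.Sg C.Ph) : XIn2 C hN :=
  { div := fun _ hP h0 => TXI.div_Vth C (Nat.succ_pos _) hP h0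
    i1 := fun _ hP h0 hS => TXI.i1_Vth C H (Nat.succ_pos _) hP h0 hS
    d := fun _ hv hK => DPI.ctx_dstar_Sg C hN _ hv hK
    l8 := fun _ hv h0 => T.L8.div_p (hNS C) C.hp C.e hv h0 }

/-- **TBlock** from XBlock and (I1). -/
theorem tBlock_of (hX : Fin.XBlock M q p)
    (hIso : ∀ C : Fin.Ctx M q p, 1 ≤ C.e → I.IsoHyp (M * q) (I.ctx_hNS C) C.a C.A p q C.Sg C.Ph) :
    Fin.TBlock M q p :=
  fun C he => tr C (TD.five_le C he) hX he (xin2 C _ (hIso C he))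

end Fermat.Agent.S43.TA
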