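import Fermat.Agent.S43.Fin.Defs
import Fermat.Agent.S43.Fin.Cyc
import Fermat.Agent.S43.Tame.Cyc
import Fermat.Agent.S43.Free.Grp

/-!
# S43 / T / Grp : the diamond group of the tower for a `Fin.Ctx`

`N = M q`, `n = p ^ e ∥ q - 1`, `k' = (q - 1) / n`, `GH = Free.GH M q k' = {u : (u mod q) ^ k' = 1}`, `c₁ = cyc N Sg`.

* `unitsMap_cyc`       : `cyc m g mod n = cyc n g` for `n ∣ m`;
* `cyc_mod_M_inertia`  : `cyc N s ≡ 1 mod M` for `s ∈ I_A`;
* `cyc_Ph_mem_GH`      : `cyc N Ph ∈ GH`   (field `hPh1`);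
* `exists_d0`          : `d₀ = c₁ ^ j`, `d₀ ^ n = 1`, `d₀ c₁⁻¹ ∈ GH`, `(i, h) ↦ d₀ ^ i h` bijective `Fin n × GH → (ℤ/N)ˣ`.
-/

set_option autoImplicit false

namespace Fermat.Agent.S43.TG

open Fermat.Agent.ES Fermat.Agent.S43.CH Fermat.Agent.S43.Free

/-- compatibility of the cyclotomic characters. -/
theorem unitsMap_cyc {n m : ℕ} [NeZero n] [NeZero m] (h : n ∣ m) (g : GQ) :
    ZMod.unitsMap h (cyc m g) = cyc n g := by
  apply Units.ext
  rw [ZMod.unitsMap_val]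
  have h1 := cyc_eq_of n g (((cyc m g : (ZMod m)ˣ) : ZMod m)).val (fun z hz => by
    apply cyc_spec m g z
    obtain ⟨c, rfl⟩ := h
    rw [pow_mul, hz, one_pow])
  rw [h1, ZMod.natCast_val]

variable {M q p : ℕ} [NeZero M] [NeZero q] (C : Fin.Ctx M q p)

/-- inertia at `q` acts trivially on the `M`-th roots of unity. -/
theorem cyc_mod_M_inertia (s : GQ) (hs : s ∈ C.A.inertiaSubgroupIn ℚ) :
    ZMod.unitsMap (dvd_mul_right M q) (cyc (M * q) s) = 1 := by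
  rw [unitsMap_cyc]
  exact Fin.cyc_inertia M C.hq C.hqM C.A C.hA s hs

theorem cyc_Ph_mem_GH (k' : ℕ) : cyc (M * q) C.Ph ∈ GH M q k' := by
  apply mem_GH_of_unitsMap_eq_one
  rw [unitsMap_cyc]
  exact C.hPh1

/-- every `g` with `cyc q g = 1` has its diamond in `GH`. -/
theorem cyc_mem_GH_of (k' : ℕ) (g : GQ) (hg : cyc q g = 1) : cyc (M * q) g ∈ GH M q k' := by
  apply mem_GH_of_unitsMap_eq_one
  rw [unitsMap_cyc]
  exact hg

/-- **the decomposition of the diamonds for a `Ctx`.** -/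
theorem exists_d0 (he : 1 ≤ C.e) :
    ∃ (k' : ℕ) (d0 : (ZMod (M * q))ˣ), p ^ C.e * k' = q - 1 ∧ Nat.Coprime (p ^ C.e) k' ∧ Even k' ∧
      d0 ^ (p ^ C.e) = 1 ∧ d0 * (cyc (M * q) C.Sg)⁻¹ ∈ GH M q k' ∧
      (∃ j : ℕ, d0 = cyc (M * q) C.Sg ^ j) ∧
      Function.Bijective
        (fun x : Fin (p ^ C.e) × GH M q k' => d0 ^ (x.1 : ℕ) * (x.2 : (ZMod (M * q))ˣ)) ∧
      (-1 : (ZMod (M * q))ˣ) ∈ GH M q k' ∧ cyc (M * q) C.Ph ∈ GH M q k' := by
  have : Fact q.Prime := ⟨C.hq⟩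
  obtain ⟨k', hk'⟩ := C.he
  have hp := C.hp
  have hpk : ¬ p ∣ k' := by
    rintro ⟨c, rfl⟩
    apply C.he'
    rw [hk', pow_succ]
    exact ⟨c, by ring⟩
  have hcop : Nat.Coprime (p ^ C.e) k' :=
    Nat.Coprime.pow_left _ ((Nat.Prime.coprime_iff_not_dvd hp).2 hpk)
  have hq1 : Even (q - 1) := by
    rcases C.hq.eq_two_or_odd' with h | h
    · exact absurd h C.hq2
    · obtain ⟨c, hc⟩ := h
      exact ⟨c, by omega⟩
  have hpodd : Odd (p ^ C.e) := by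
    apply Odd.pow
    rcases hp.eq_two_or_odd' with h | h
    · have := C.hp5; omega
    · exact h
  have hev : Even k' := by
    rw [hk'] at hq1
    rcases Nat.even_mul.1 hq1 with h | h
    · exact absurd h (Nat.not_even_iff_odd.2 hpodd)
    · exact h
  have hn1 : 1 < p ^ C.e := Nat.one_lt_pow (by omega) hp.one_lt
  have hMq : Nat.Coprime M q := (Nat.Coprime.symm ((Nat.Prime.coprime_iff_not_dvd C.hq).2 C.hqM))
  have hc1 : cyc (M * q) C.Sg ^ (p ^ C.e * k') = 1 := by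
    rw [← hk']
    exact pow_eq_one_of_unitsMap hMq _ (cyc_mod_M_inertia C C.Sg C.hSg.1)
  have hord : orderOf (chi M q k' (cyc (M * q) C.Sg)) = p ^ C.e := by
    rw [chi_apply, unitsMap_cyc]
    exact Tame.IsGenOn.orderOf_cyc_pow hp C.hq C.A C.hA hk' C.hSg
  obtain ⟨d0, h1, -, h3, h4, h5⟩ := grp_main hn1 hk'.symm hcop (cyc (M * q) C.Sg) hc1 hord
  exact ⟨k', d0, hk'.symm, hcop, hev, h1, h3, h4, h5, neg_one_mem_GH hev, cyc_Ph_mem_GH C k'⟩

end Fermat.Agent.S43.TG
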