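import Fermat.Agent.S43.CountMain

/-!
# S43 / T / L45 : relative (elementwise) form of `Count.main`; the leaves (L4), (L5) of the tower  (abstract part)

Ambient group `KK`, finite subgroup `HH ≤ KK`, ambient additive maps `d` (`= δ`), `s` (`= Σ`), `s'` (`= Φ Σ Φ⁻¹`).
All the hypotheses are of the form `∀ y ∈ HH, …`.

* `rel`  : (L4) `δ z = z` for `z = Σ (Σ y - δ y) - (Σ y - δ y)`; `K_∞ ∩ HH = (Σ - 1) HH`; `K_0 ∩ HH = (Σ - δ) HH`;
* `rel5` : (L5) `w (w (s' y - Σ y)) = 0` for every `s'` with `(s' - 1) HH ⊆ K_∞`, `(s' - δ) HH ⊆ K_0`.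
-/

set_option autoImplicit false

namespace Fermat.Agent.S43.T.L45

open Finset

section Abs

variable {KK : Type*} [AddCommGroup KK]

/-- restriction of an additive map to a stable subgroup. -/
def res (HH : AddSubgroup KK) (f : KK →+ KK) (hf : ∀ y ∈ HH, f y ∈ HH) : HH →+ HH :=
  (f.comp HH.subtype).codRestrict HH (fun y => hf y y.2)

@[simp]
theorem coe_res (HH : AddSubgroup KK) (f : KK →+ KK) (hf : ∀ y ∈ HH, f y ∈ HH) (y : HH) :
    ((res HH f hf y : HH) : KK) = f y := rfl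

theorem coe_res_iterate (HH : AddSubgroup KK) (f : KK →+ KK) (hf : ∀ y ∈ HH, f y ∈ HH) (i : ℕ)
    (y : HH) : (((res HH f hf)^[i] y : HH) : KK) = f^[i] y := by
  induction i generalizing y with
  | zero => rfl
  | succ i ih => rw [Function.iterate_succ_apply, Function.iterate_succ_apply, ih, coe_res]

/-- `d^i` as an additive map. -/
def itHom {H : Type*} [AddCommGroup H] (d : H →+ H) : ℕ → (H →+ H)
  | 0 => AddMonoidHom.id H
  | n + 1 => (itHom d n).comp d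

theorem itHom_apply {H : Type*} [AddCommGroup H] (d : H →+ H) (n : ℕ) (x : H) :
    itHom d n x = d^[n] x := by
  induction n generalizing x with
  | zero => rfl
  | succ n ih =>
    rw [Function.iterate_succ_apply, ← ih]
    rfl

/-- `∑_{i<n} d^i` as an additive map. -/
def nmHom {H : Type*} [AddCommGroup H] (d : H →+ H) (n : ℕ) : H →+ H :=
  ∑ i ∈ range n, itHom d i

theorem nmHom_apply {H : Type*} [AddCommGroup H] (d : H →+ H) (n : ℕ) (x : H) :
    nmHom d n x = ∑ i ∈ range n, d^[i] x := by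
  unfold nmHom
  rw [AddMonoidHom.finsetSum_apply]
  exact Finset.sum_congr rfl fun i _ => itHom_apply d i x

/-- counting: `ker ⊆ image` gives `#ker² ≤ #S`. -/
theorem card_sq_le {H : Type*} [AddCommGroup H] [Finite H] (f : H →+ H) (S I1 : AddSubgroup H)
    (hI : I1 = S ⊓ f.ker) (h : I1 ≤ S.map f) : Nat.card I1 ^ 2 ≤ Nat.card S := by
  have h1 : Nat.card (f.comp S.subtype).ker * Nat.card (f.comp S.subtype).range = Nat.card S := by
    rw [← AddSubgroup.index_ker]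
    exact AddSubgroup.card_mul_index _
  have h2 : (f.comp S.subtype).range = S.map f := by
    ext x
    constructor
    · rintro ⟨y, rfl⟩
      exact ⟨y, y.2, rfl⟩
    · rintro ⟨y, hy, rfl⟩
      exact ⟨⟨y, hy⟩, rfl⟩
  have h3 : Nat.card (f.comp S.subtype).ker = Nat.card I1 := by
    have e : (f.comp S.subtype).ker = I1.addSubgroupOf S := by
      ext x
      rw [AddMonoidHom.mem_ker, AddSubgroup.mem_addSubgroupOf, hI, AddSubgroup.mem_inf,
        AddMonoidHom.mem_ker]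
      exact ⟨fun hx => ⟨x.2, hx⟩, fun hx => hx.2⟩
    rw [e]
    exact Nat.card_congr (AddSubgroup.addSubgroupOfEquivOfLe (hI ▸ inf_le_left)).toEquiv
  have h4 : Nat.card I1 ≤ Nat.card (S.map f) := AddSubgroup.card_le_of_le h
  rw [← h1, h2, h3, pow_two]
  exact Nat.mul_le_mul_left _ h4

/-- **relative form of `Count.main`.** -/
theorem rel (p K a : ℕ) [Fact p.Prime] (HH : AddSubgroup KK) [Finite HH] (d s : KK →+ KK)
    (hdH : ∀ y ∈ HH, d y ∈ HH) (hsH : ∀ y ∈ HH, s y ∈ HH)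
    (hsd : ∀ y ∈ HH, s (d y) = d (s y)) (hd : ∀ y ∈ HH, d^[p ^ a] y = y)
    (hp : ∀ y ∈ HH, p ^ (K + 1) • y = 0)
    (hker : ∀ y ∈ HH, d y = y → ∃ z ∈ HH, ∑ i ∈ range (p ^ a), d^[i] z = y)
    (s1 : ∀ y ∈ HH, p • y = 0 → d y = y → ∃ z ∈ HH, y = p ^ K • ∑ i ∈ range (p ^ a), d^[i] z)
    (Kinf K0 : AddSubgroup KK) (hKinf : ∀ y ∈ HH, y ∈ Kinf → d y ∈ Kinf)
    (hK0 : ∀ y ∈ HH, y ∈ K0 → d y ∈ K0)
    (g1 : ∀ y ∈ HH, s y - y ∈ Kinf) (g2 : ∀ y ∈ HH, s y - d y ∈ K0)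
    (d1inf : ∀ y ∈ HH, y ∈ Kinf → p • y = 0 → d y = y → s y = y)
    (d10 : ∀ y ∈ HH, y ∈ K0 → p • y = 0 → d y = y → s y = y)
    (hI1 : ∀ y ∈ HH, p • y = 0 → d y = y → s y = y →
      ∃ z ∈ HH, p • z = 0 ∧ d z = z ∧ y = s z - z) :
    (∀ y ∈ HH, d (s (s y - d y) - (s y - d y)) = s (s y - d y) - (s y - d y)) ∧
    (∀ y ∈ HH, y ∈ Kinf → ∃ x ∈ HH, y = s x - x) ∧
    (∀ y ∈ HH, y ∈ K0 → ∃ x ∈ HH, y = s x - d x) := by
  set dH : HH →+ HH := res HH d hdH with hdH'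
  set sH : HH →+ HH := res HH s hsH with hsH'
  have hsum : ∀ (n : ℕ) (x : HH), ((∑ i ∈ range n, dH^[i] x : HH) : KK)
      = ∑ i ∈ range n, d^[i] (x : KK) := by
    intro n x
    rw [AddSubgroup.val_finsetSum]
    exact Finset.sum_congr rfl fun i _ => coe_res_iterate HH d hdH i x
  set S : AddSubgroup HH := (nsmulAddMonoidHom p : HH →+ HH).ker ⊓ (dH - AddMonoidHom.id HH).ker
    with hSdef
  set I1 : AddSubgroup HH := S ⊓ (sH - AddMonoidHom.id HH).ker with hI1def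
  have hS : ∀ x, x ∈ S ↔ p • x = 0 ∧ dH x = x := by
    intro x
    rw [hSdef, AddSubgroup.mem_inf, AddMonoidHom.mem_ker, AddMonoidHom.mem_ker,
      AddMonoidHom.sub_apply, AddMonoidHom.id_apply, sub_eq_zero]
    rfl
  have hI1' : ∀ x, x ∈ I1 ↔ p • x = 0 ∧ dH x = x ∧ sH x = x := by
    intro x
    rw [hI1def, AddSubgroup.mem_inf, hS, AddMonoidHom.mem_ker,
      AddMonoidHom.sub_apply, AddMonoidHom.id_apply, sub_eq_zero, and_assoc]
  have e3 : Nat.card I1 ^ 2 ≤ Nat.card S := by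
    refine card_sq_le (sH - AddMonoidHom.id HH) S I1 rfl ?_
    intro x hx
    obtain ⟨h1, h2, h3⟩ := (hI1' x).1 hx
    obtain ⟨z, hz, hz1, hz2, hz3⟩ := hI1 x x.2
      (by have := congrArg Subtype.val h1; simpa using this)
      (congrArg Subtype.val h2) (congrArg Subtype.val h3)
    refine ⟨⟨z, hz⟩, (hS _).2 ⟨Subtype.ext (by simpa using hz1), Subtype.ext hz2⟩, ?_⟩
    exact Subtype.ext hz3.symm
  obtain ⟨r1, r2, r3, -, -⟩ := Count.main p K a dH sH (nmHom dH (p ^ a))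
    (fun x => Subtype.ext (hsd x x.2))
    (fun x => Subtype.ext (by rw [coe_res_iterate]; exact hd x x.2))
    (fun x => Subtype.ext (by simpa using hp x x.2))
    (fun x => nmHom_apply dH _ x)
    (fun x hx => by
      obtain ⟨z, hz, hzx⟩ := hker x x.2 (congrArg Subtype.val hx)
      refine ⟨⟨z, hz⟩, Subtype.ext ?_⟩
      rw [nmHom_apply, hsum]
      exact hzx)
    (fun x hx1 hx2 => by
      obtain ⟨z, hz, hzx⟩ := s1 x x.2 (by have := congrArg Subtype.val hx1; simpa using this)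
        (congrArg Subtype.val hx2)
      refine ⟨⟨z, hz⟩, Subtype.ext ?_⟩
      rw [nmHom_apply, AddSubgroup.coe_nsmul, hsum]
      exact hzx)
    (Kinf.addSubgroupOf HH) (K0.addSubgroupOf HH)
    (fun x hx => hKinf x x.2 hx) (fun x hx => hK0 x x.2 hx)
    (fun x => g1 x x.2) (fun x => g2 x x.2)
    (fun x hx h1 h2 => Subtype.ext (d1inf x x.2 hx
      (by have := congrArg Subtype.val h1; simpa using this) (congrArg Subtype.val h2)))
    (fun x hx h1 h2 => Subtype.ext (d10 x x.2 hx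
      (by have := congrArg Subtype.val h1; simpa using this) (congrArg Subtype.val h2)))
    S I1 hS hI1' e3
  refine ⟨fun y hy => congrArg Subtype.val (r1 ⟨y, hy⟩), fun y hy hyK => ?_, fun y hy hyK => ?_⟩
  · obtain ⟨x, hx⟩ := r2 ⟨y, hy⟩ hyK
    exact ⟨x, x.2, congrArg Subtype.val hx⟩
  · obtain ⟨x, hx⟩ := r3 ⟨y, hy⟩ hyK
    exact ⟨x, x.2, congrArg Subtype.val hx⟩

/-- **(L5)**, formal consequence of `rel`. -/
theorem rel5 (HH : AddSubgroup KK) (d s : KK →+ KK) (hsH : ∀ y ∈ HH, s y ∈ HH)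
    (hsd : ∀ y ∈ HH, s (d y) = d (s y))
    (Kinf K0 : AddSubgroup KK)
    (r1 : ∀ y ∈ HH, d (s (s y - d y) - (s y - d y)) = s (s y - d y) - (s y - d y))
    (r2 : ∀ y ∈ HH, y ∈ Kinf → ∃ x ∈ HH, y = s x - x)
    (r3 : ∀ y ∈ HH, y ∈ K0 → ∃ x ∈ HH, y = s x - d x)
    (g1 : ∀ y ∈ HH, s y - y ∈ Kinf) (g2 : ∀ y ∈ HH, s y - d y ∈ K0)
    (s' : KK → KK) (hs'H : ∀ y ∈ HH, s' y ∈ HH)
    (g1' : ∀ y ∈ HH, s' y - y ∈ Kinf) (g2' : ∀ y ∈ HH, s' y - d y ∈ K0)
    (y : KK) (hy : y ∈ HH) :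
    d (d (s' y - s y) - (s' y - s y)) - (d (s' y - s y) - (s' y - s y)) = 0 := by
  set u := s' y - s y with hu
  have huH : u ∈ HH := HH.sub_mem (hs'H y hy) (hsH y hy)
  have hu1 : u ∈ Kinf := by
    have := Kinf.sub_mem (g1' y hy) (g1 y hy)
    rwa [sub_sub_sub_cancel_right] at this
  have hu2 : u ∈ K0 := by
    have := K0.sub_mem (g2' y hy) (g2 y hy)
    rwa [sub_sub_sub_cancel_right] at this
  obtain ⟨α, hα, hα'⟩ := r2 u huH hu1
  obtain ⟨β, hβ, hβ'⟩ := r3 u huH hu2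
  -- `(s - d) u = (s - d)(s - 1) α`, `(s - 1) u = (s - 1)(s - d) β` are `d`-invariant
  have e1 : s u - u = s (s β - d β) - (s β - d β) := by rw [← hβ']
  have e2 : s u - d u = s (s α - d α) - (s α - d α) := by
    rw [hα', map_sub, map_sub, map_sub, hsd α hα]
    abel
  have f1 : d (s u - u) = s u - u := by rw [e1]; exact r1 β hβ
  have f2 : d (s u - d u) = s u - d u := by rw [e2]; exact r1 α hα
  have e3 : d u - u = (s u - u) - (s u - d u) := by abel
  rw [e3, map_sub, f1, f2, sub_self]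

end Abs

end Fermat.Agent.S43.T.L45
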