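import Fermat.Agent.S43.CountMain

/-!
# S43 / T / L45Abs : (L4), (L5) of the tower block, RELATIVE ELEMENTWISE form of `Count.main`

Ambient groups `KK`, `V`; subgroups `HH ≤ KK` (finite), `VV ≤ V`; `dl = δ`, `sg = Σ`, `ph = Φ` on `KK`, `sV = Σ` on `V`, `pull = π^*`;
`Koo`, `K0 ≤ KK` stable under `dl`.

* `restr`  : restriction of an additive endomorphism to a stable subgroup;
* `rel45`  : (L4) `δ z = z` for `z = (Σ - 1)(Σ - δ) y`, and (L5) `w (w c) = 0` for `c = Φ Σ y - Σ Φ y`  (`y ∈ HH`).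
-/

set_option autoImplicit false

namespace Fermat.Agent.S43.T

/-- restriction of an additive endomorphism to a stable subgroup. -/
def restr {X : Type*} [AddCommGroup X] (f : X →+ X) (S : AddSubgroup X) (h : ∀ x ∈ S, f x ∈ S) :
    S →+ S where
  toFun x := ⟨f x, h x x.2⟩
  map_zero' := Subtype.ext (by simp)
  map_add' x y := Subtype.ext (by simp)

theorem restr_coe {X : Type*} [AddCommGroup X] (f : X →+ X) (S : AddSubgroup X)
    (h : ∀ x ∈ S, f x ∈ S) (x : S) : ((restr f S h x : S) : X) = f x := rfl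

theorem restr_iterate_coe {X : Type*} [AddCommGroup X] (f : X →+ X) (S : AddSubgroup X)
    (h : ∀ x ∈ S, f x ∈ S) (n : ℕ) (x : S) : (((restr f S h)^[n] x : S) : X) = f^[n] x := by
  induction n generalizing x with
  | zero => rfl
  | succ n ih => rw [Function.iterate_succ_apply, ih, Function.iterate_succ_apply, restr_coe]

/-- `#ker² ≤ #S` if `ker f ⊆ range f`. -/
theorem card_sq_le_of_ker_le_range {S : Type*} [AddCommGroup S] [Finite S] (f : S →+ S)
    (h : f.ker ≤ f.range) : Nat.card f.ker ^ 2 ≤ Nat.card S := by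
  have h1 : Nat.card S = Nat.card (S ⧸ f.ker) * Nat.card f.ker :=
    AddSubgroup.card_eq_card_quotient_mul_card_addSubgroup f.ker
  have h2 : Nat.card (S ⧸ f.ker) = Nat.card f.range :=
    Nat.card_congr (QuotientAddGroup.quotientKerEquivRange f).toEquiv
  have h3 : Nat.card f.ker ≤ Nat.card f.range := AddSubgroup.card_le_of_le h
  rw [h1, h2, sq]
  exact Nat.mul_le_mul_right _ h3

theorem rel45 {KK V : Type*} [AddCommGroup KK] [AddCommGroup V] (p e : ℕ) [Fact p.Prime]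
    (HH : AddSubgroup KK) [Finite HH] (VV : AddSubgroup V)
    (dl sg ph : KK →+ KK) (sV : V →+ V) (pull : V →+ KK) (Koo K0 : AddSubgroup KK)
    (h_dl : ∀ y ∈ HH, dl y ∈ HH) (h_sg : ∀ y ∈ HH, sg y ∈ HH) (h_ph : ∀ y ∈ HH, ph y ∈ HH)
    (h_pull : ∀ v ∈ VV, pull v ∈ HH) (h_sV : ∀ v ∈ VV, sV v ∈ VV)
    (hsd : ∀ y ∈ HH, sg (dl y) = dl (sg y))
    (hd : ∀ y ∈ HH, dl^[p ^ e] y = y)
    (hp : ∀ y ∈ HH, p ^ (e + 1) • y = 0)
    (hker : ∀ y ∈ HH, dl y = y → ∃ v ∈ VV, pull v = y)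
    (hnm : ∀ v ∈ VV, ∃ y ∈ HH, ∑ i ∈ Finset.range (p ^ e), dl^[i] y = pull v)
    (hinj : ∀ v ∈ VV, pull v = 0 → v = 0)
    (hfix : ∀ v ∈ VV, dl (pull v) = pull v)
    (heq : ∀ v ∈ VV, pull (sV v) = sg (pull v))
    (hDIV : ∀ P ∈ VV, p • P = 0 → ∃ y ∈ VV, P = p ^ e • y)
    (hI1 : ∀ P ∈ VV, p • P = 0 → sV P = P → ∃ y ∈ VV, p • y = 0 ∧ P = sV y - y)
    (hKoo : ∀ y ∈ Koo, dl y ∈ Koo) (hK0 : ∀ y ∈ K0, dl y ∈ K0)
    (g1 : ∀ y ∈ HH, sg y - y ∈ Koo) (g2 : ∀ y ∈ HH, sg y - dl y ∈ K0)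
    (g1' : ∀ y ∈ HH, ph (sg y) - ph y ∈ Koo) (g2' : ∀ y ∈ HH, ph (sg y) - dl (ph y) ∈ K0)
    (hdoo : ∀ v ∈ VV, pull v ∈ Koo → sV v = v) (hd0 : ∀ v ∈ VV, pull v ∈ K0 → sV v = v) :
    (∀ y ∈ HH, dl (sg (sg y - dl y) - (sg y - dl y)) = sg (sg y - dl y) - (sg y - dl y)) ∧
    (∀ y ∈ HH, dl (dl (ph (sg y) - sg (ph y)) - (ph (sg y) - sg (ph y)))
        - (dl (ph (sg y) - sg (ph y)) - (ph (sg y) - sg (ph y))) = 0) := by
  classical
  set d : HH →+ HH := restr dl HH h_dl with hd_def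
  set s : HH →+ HH := restr sg HH h_sg with hs_def
  let Nm : HH →+ HH :=
    { toFun := fun x => ∑ i ∈ Finset.range (p ^ e), d^[i] x
      map_zero' := by simp only [iterate_map_zero, Finset.sum_const_zero]
      map_add' := fun x y => by simp only [iterate_map_add, Finset.sum_add_distrib] }
  have hNm : ∀ x, Nm x = ∑ i ∈ Finset.range (p ^ e), d^[i] x := fun x => rfl
  have hNmc : ∀ x : HH, ((Nm x : HH) : KK) = ∑ i ∈ Finset.range (p ^ e), dl^[i] (x : KK) := by
    intro x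
    rw [hNm, AddSubgroup.val_finsetSum]
    exact Finset.sum_congr rfl fun i _ => restr_iterate_coe dl HH h_dl i x
  -- the socle and its invariants
  let S : AddSubgroup HH :=
    (nsmulAddMonoidHom (α := HH) p).ker ⊓ (d - AddMonoidHom.id HH).ker
  have hS : ∀ x, x ∈ S ↔ p • x = 0 ∧ d x = x := by
    intro x
    simp only [S, AddSubgroup.mem_inf, AddMonoidHom.mem_ker, nsmulAddMonoidHom_apply,
      AddMonoidHom.sub_apply, AddMonoidHom.id_apply, sub_eq_zero]
  let I1 : AddSubgroup HH := S ⊓ (s - AddMonoidHom.id HH).ker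
  have hI1' : ∀ x, x ∈ I1 ↔ p • x = 0 ∧ d x = x ∧ s x = x := by
    intro x
    simp only [I1, AddSubgroup.mem_inf, hS, AddMonoidHom.mem_ker,
      AddMonoidHom.sub_apply, AddMonoidHom.id_apply, sub_eq_zero, and_assoc]
  have hsd' : ∀ x, s (d x) = d (s x) := fun x => Subtype.ext (hsd x x.2)
  -- description of the `d`-invariants
  have hkerV : ∀ x : HH, d x = x → ∃ v ∈ VV, pull v = (x : KK) := fun x hx =>
    hker x x.2 (congrArg Subtype.val hx)
  have e3 : Nat.card I1 ^ 2 ≤ Nat.card S := by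
    have hst : ∀ x ∈ S, (s - AddMonoidHom.id HH) x ∈ S := by
      intro x hx
      obtain ⟨h1, h2⟩ := (hS x).1 hx
      refine (hS _).2 ⟨?_, ?_⟩
      · rw [← map_nsmul, h1, map_zero]
      · rw [AddMonoidHom.sub_apply, AddMonoidHom.id_apply, map_sub, ← hsd', h2]
    let f : S →+ S := restr (s - AddMonoidHom.id HH) S hst
    have hle : f.ker ≤ f.range := by
      intro x hx
      have hx0 : s (x : HH) = x := by
        have := congrArg Subtype.val (AddMonoidHom.mem_ker.1 hx)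
        rw [restr_coe] at this
        exact sub_eq_zero.1 this
      obtain ⟨h1, h2⟩ := (hS x).1 x.2
      obtain ⟨P, hP, hPx⟩ := hkerV x h2
      have hpP : p • P = 0 := hinj _ (VV.nsmul_mem hP p) (by
        rw [map_nsmul, hPx]
        exact congrArg Subtype.val h1)
      have hsP : sV P = P := by
        rw [← sub_eq_zero]
        refine hinj _ (VV.sub_mem (h_sV P hP) hP) ?_
        rw [map_sub, heq P hP, hPx, sub_eq_zero]
        exact congrArg Subtype.val hx0
      obtain ⟨y, hy, hpy, hPy⟩ := hI1 P hP hpP hsP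
      have hyS : (⟨pull y, h_pull y hy⟩ : HH) ∈ S := (hS _).2
        ⟨Subtype.ext (by
          show p • pull y = 0
          rw [← map_nsmul, hpy, map_zero]), Subtype.ext (hfix y hy)⟩
      refine ⟨⟨⟨pull y, h_pull y hy⟩, hyS⟩, ?_⟩
      apply Subtype.ext
      apply Subtype.ext
      show sg (pull y) - pull y = ((x : HH) : KK)
      rw [← hPx, hPy, map_sub, heq y hy]
    have hcard : Nat.card I1 = Nat.card f.ker := by
      refine Nat.card_congr
        { toFun := fun x => ⟨⟨x.1, x.2.1⟩, ?_⟩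
          invFun := fun x => ⟨x.1.1, ⟨x.1.2, ?_⟩⟩
          left_inv := fun x => rfl
          right_inv := fun x => rfl }
      · exact AddMonoidHom.mem_ker.2 (Subtype.ext (AddMonoidHom.mem_ker.1 x.2.2))
      · exact AddMonoidHom.mem_ker.2 (congrArg Subtype.val (AddMonoidHom.mem_ker.1 x.2))
    rw [hcard]
    exact card_sq_le_of_ker_le_range f hle
  have main := Count.main p e e d s Nm hsd'
    (fun x => Subtype.ext (by rw [restr_iterate_coe]; exact hd x x.2))
    (fun x => Subtype.ext (hp x x.2)) hNm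
    (fun x hx => by
      obtain ⟨v, hv, hvx⟩ := hkerV x hx
      obtain ⟨y, hy, hyv⟩ := hnm v hv
      exact ⟨⟨y, hy⟩, Subtype.ext (by rw [hNmc, hyv, hvx])⟩)
    (fun x hpx hx => by
      obtain ⟨v, hv, hvx⟩ := hkerV x hx
      have hpv : p • v = 0 := hinj _ (VV.nsmul_mem hv p) (by
        rw [map_nsmul, hvx]
        exact congrArg Subtype.val hpx)
      obtain ⟨v0, hv0, hvv0⟩ := hDIV v hv hpv
      obtain ⟨y, hy, hyv⟩ := hnm v0 hv0
      refine ⟨⟨y, hy⟩, Subtype.ext ?_⟩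
      rw [AddSubgroup.coe_nsmul, hNmc, hyv, ← map_nsmul, ← hvv0, hvx])
    (Koo.comap HH.subtype) (K0.comap HH.subtype)
    (fun x hx => hKoo _ hx) (fun x hx => hK0 _ hx)
    (fun x => g1 x x.2) (fun x => g2 x x.2)
    (fun x hx _ hdx => by
      obtain ⟨v, hv, hvx⟩ := hkerV x hdx
      have := hdoo v hv (by rw [hvx]; exact hx)
      apply Subtype.ext
      show sg (x : KK) = x
      rw [← hvx, ← heq v hv, this])
    (fun x hx _ hdx => by
      obtain ⟨v, hv, hvx⟩ := hkerV x hdx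
      have := hd0 v hv (by rw [hvx]; exact hx)
      apply Subtype.ext
      show sg (x : KK) = x
      rw [← hvx, ← heq v hv, this])
    S I1 hS hI1' e3
  obtain ⟨m1, -, -, m4, m5⟩ := main
  refine ⟨fun y hy => congrArg Subtype.val (m1 ⟨y, hy⟩), fun y hy => ?_⟩
  set c : KK := ph (sg y) - sg (ph y) with hc
  have hcH : c ∈ HH := HH.sub_mem (h_ph _ (h_sg y hy)) (h_sg _ (h_ph y hy))
  have hcoo : c ∈ Koo := by
    have : c = (ph (sg y) - ph y) - (sg (ph y) - ph y) := by rw [hc]; abel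
    rw [this]
    exact Koo.sub_mem (g1' y hy) (g1 _ (h_ph y hy))
  have hc0 : c ∈ K0 := by
    have : c = (ph (sg y) - dl (ph y)) - (sg (ph y) - dl (ph y)) := by rw [hc]; abel
    rw [this]
    exact K0.sub_mem (g2' y hy) (g2 _ (h_ph y hy))
  have a4 : dl (sg c - dl c) = sg c - dl c := congrArg Subtype.val (m4 ⟨c, hcH⟩ hcoo)
  have a5 : dl (sg c - c) = sg c - c := congrArg Subtype.val (m5 ⟨c, hcH⟩ hc0)
  have : dl c - c = (sg c - c) - (sg c - dl c) := by abel
  rw [this, map_sub, a4, a5, sub_self]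

end Fermat.Agent.S43.T
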