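import Fermat.Agent.S43.T.L45
import Fermat.Agent.S43.S1.Gen
import Fermat.Agent.S43.R2W.Out
import Fermat.Agent.S43.R0.Pull

/-!
# S43 / T / L45C : the leaves (L4), (L5) of the tower, concrete form

`KK = B1.Kum ℚ̄ F1(M q) (p^(K+1))`, `K_∞ = S1.Koo (R0.HD hN) A`, `K_0 = w_q K_∞`, `δ = ⟨c1⟩`, `c1 = cq Σ`.
`HH ≤ KK` and `VV ≤ ES.Kum (M q) (p^(K+1))` are VARIABLES; the hypotheses are the leaves (L0), (L7) of `T.IsRel`, plus
`Nm HH ⊇ π^* VV`, (DIV), (I1) at exponent `p`, and the sharp (d) on the socle.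
The conclusions are verbatim the fields `type` and `comm` of `T.IsRel`.
-/

set_option autoImplicit false
set_option linter.unusedSectionVars false

open AlgebraicCurve ModularCurve

namespace Fermat.Agent.S43.T.L45

open Finset
open Fermat.Agent.ES (GQ Qb)
open Fermat.Agent.S48 Fermat.Agent.S48.B1

noncomputable section

variable {M q p : ℕ} [NeZero M] [Fact q.Prime] [Fact p.Prime] (hqM : ¬ q ∣ M) (hN : 5 ≤ M * q)
  (K a : ℕ) (A : ValuationSubring Qb) (Sg Ph : GQ)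

theorem type_comm (m : ℕ) (hm : m = p ^ (K + 1)) (hSg : Sg ∈ A.inertiaSubgroupIn ℚ) (hSg' : Ph * Sg * Ph⁻¹ ∈ A.inertiaSubgroupIn ℚ)
    (c1 : (ZMod (M * q))ˣ) (hc1 : R2O.cq hqM Sg = c1)
    (HH : AddSubgroup (Kum Qb (X1.F1Q (M * q)).F m)) [Finite HH]
    (VV : AddSubgroup (Fermat.Agent.ES.Kum (M * q) m))
    (gK_mem : ∀ s, ∀ y ∈ HH, galKum (X1.F1Q (M * q)) m s y ∈ HH)
    (dl_mem : ∀ y ∈ HH, diaKum (R0.HD hN) m c1 y ∈ HH)
    (io_mem : ∀ y ∈ HH, R2O.wK hqM hN m y ∈ HH)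
    (gV_mem : ∀ v ∈ VV, Fermat.Agent.ES.galKum (M * q) m Sg v ∈ VV)
    (pull_mem : ∀ v ∈ VV, R0.pull hN m v ∈ HH)
    (hdl : ∀ y ∈ HH, (diaKum (R0.HD hN) m c1)^[p ^ a] y = y)
    (ker_w : ∀ y ∈ HH, diaKum (R0.HD hN) m c1 y = y →
      ∃ v ∈ VV, R0.pull hN m v = y)
    (pull_inj : ∀ v ∈ VV, R0.pull hN m v = 0 → v = 0)
    (nm_surj : ∀ v ∈ VV, ∃ z ∈ HH,
      ∑ i ∈ range (p ^ a), (diaKum (R0.HD hN) m c1)^[i] z = R0.pull hN m v)
    (hDIV : ∀ v ∈ VV, p • v = 0 → ∃ v0 ∈ VV, v = p ^ K • v0)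
    (hI1 : ∀ v ∈ VV, p • v = 0 → Fermat.Agent.ES.galKum (M * q) m Sg v = v →
      ∃ v' ∈ VV, p • v' = 0 ∧ v = Fermat.Agent.ES.galKum (M * q) m Sg v' - v')
    (hd : ∀ v ∈ VV, p • v = 0 → R0.pull hN m v ∈ S1.Koo (R0.HD hN) A m →
      Fermat.Agent.ES.galKum (M * q) m Sg v = v) :
    (∀ y ∈ HH, diaKum (R0.HD hN) m c1
        (galKum (X1.F1Q (M * q)) m Sg
            (galKum (X1.F1Q (M * q)) m Sg y - diaKum (R0.HD hN) m c1 y)
          - (galKum (X1.F1Q (M * q)) m Sg y - diaKum (R0.HD hN) m c1 y))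
      = galKum (X1.F1Q (M * q)) m Sg
            (galKum (X1.F1Q (M * q)) m Sg y - diaKum (R0.HD hN) m c1 y)
          - (galKum (X1.F1Q (M * q)) m Sg y - diaKum (R0.HD hN) m c1 y)) ∧
    (∀ y ∈ HH, ∀ c, c = galKum (X1.F1Q (M * q)) m Ph
          (galKum (X1.F1Q (M * q)) m Sg y)
        - galKum (X1.F1Q (M * q)) m Sg (galKum (X1.F1Q (M * q)) m Ph y) →
      diaKum (R0.HD hN) m c1 (diaKum (R0.HD hN) m c1 c - c)
        = diaKum (R0.HD hN) m c1 c - c) := by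
  set gK := galKum (X1.F1Q (M * q)) m with hgK
  set dl := diaKum (R0.HD hN) m c1 with hdl'
  set io := R2O.wK hqM hN m with hio
  set pull := R0.pull hN m with hpull
  set Koo := S1.Koo (R0.HD hN) A m with hKoo
  set K0 := Koo.map (io : Kum Qb (X1.F1Q (M * q)).F m →+ Kum Qb (X1.F1Q (M * q)).F m) with hK0
  -- relations
  have dl_io : ∀ x, dl (io x) = io (diaKum (R0.HD hN) m c1⁻¹ x) := by
    intro x
    have h := R2O.dia_wK_prq hqM hN (CH.cyc (M * q) Sg) x (m := m)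
    rw [← R2O.cq_apply, hc1] at h
    exact h
  have sg_io : ∀ x, gK Sg (io x) = dl (io (gK Sg x)) := by
    intro x
    have h := R2O.gal_wK hqM hN Sg x (m := m)
    rw [hc1] at h
    exact h
  have hc1' : R2O.cq hqM (Ph * Sg * Ph⁻¹) = c1 := by
    rw [map_mul, map_mul, map_inv, mul_comm (R2O.cq hqM Ph), mul_inv_cancel_right, hc1]
  have pull_p : ∀ v ∈ VV, p • pull v = 0 → p • v = 0 := by
    intro v hv h
    exact pull_inj _ (VV.nsmul_mem hv p) (by rw [map_nsmul, h])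
  have d1inf : ∀ y ∈ HH, y ∈ Koo → p • y = 0 → dl y = y → gK Sg y = y := by
    intro y hy hyK hp hdy
    obtain ⟨v, hv, rfl⟩ := ker_w y hy hdy
    have h1 := hd v hv (pull_p v hv hp) hyK
    rw [hgK, hpull, ← R0.pull_gal, h1]
  have io_surj : ∀ y ∈ HH, ∃ y1 ∈ HH, io y1 = y := by
    intro y hy
    have hinj : Function.Injective (res HH (io : _ →+ _) io_mem) := by
      intro x x' h
      exact Subtype.ext (io.injective (congrArg Subtype.val h))
    obtain ⟨y1, hy1⟩ := (Finite.injective_iff_surjective.mp hinj) ⟨y, hy⟩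
    exact ⟨y1, y1.2, congrArg Subtype.val hy1⟩
  obtain ⟨r1, r2, r3⟩ := rel p K a HH dl (gK Sg) dl_mem (gK_mem Sg)
    (fun y _ => (diaKum_galKum (R0.HD hN) c1 Sg y).symm) hdl
    (fun y _ => by rw [← hm]; exact Kum.nsmul_eq_zero y)
    (fun y hy hdy => by
      obtain ⟨v, hv, rfl⟩ := ker_w y hy hdy
      exact nm_surj v hv)
    (fun y hy hp hdy => by
      obtain ⟨v, hv, rfl⟩ := ker_w y hy hdy
      obtain ⟨v0, hv0, rfl⟩ := hDIV v hv (pull_p v hv hp)
      obtain ⟨z, hz, hz'⟩ := nm_surj v0 hv0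
      exact ⟨z, hz, by rw [hz', map_nsmul]⟩)
    Koo K0
    (fun y _ hyK => S1.diaKum_mem_Koo c1 hyK)
    (fun y _ hyK => by
      obtain ⟨y0, hy0, rfl⟩ := hyK
      show dl (io y0) ∈ K0
      rw [dl_io]
      exact AddSubgroup.mem_map_of_mem _ (S1.diaKum_mem_Koo c1⁻¹ hy0))
    (fun y _ => S1.gal_sub_mem_Koo hSg y)
    (fun y _ => by
      have h := R2O.gal_sub_dia_mem_K0 hqM hN (Koo := Koo) (s := Sg)
        (fun y => S1.gal_sub_mem_Koo hSg y) y
      rw [hc1] at h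
      exact h)
    d1inf
    (fun y hy hyK hp hdy => by
      obtain ⟨y0, hy0, rfl⟩ := hyK
      change p • io y0 = 0 at hp
      change dl (io y0) = io y0 at hdy
      show gK Sg (io y0) = io y0
      obtain ⟨y1, hy1, hy1'⟩ := io_surj _ hy
      have e : y1 = y0 := io.injective hy1'
      subst e
      have hp0 : p • y1 = 0 := io.injective (by rw [map_nsmul, hp, map_zero])
      have hd0 : dl y1 = y1 := by
        rw [dl_io] at hdy
        have h2 := io.injective hdy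
        have h3 := congrArg dl h2
        rw [hdl', R2K.diaKum_diaKum_inv] at h3
        exact h3.symm
      rw [sg_io, d1inf y1 hy1 hy0 hp0 hd0, hdy])
    (fun y hy hp hdy hsy => by
      obtain ⟨v, hv, rfl⟩ := ker_w y hy hdy
      have hpv := pull_p v hv hp
      have hsv : Fermat.Agent.ES.galKum (M * q) m Sg v = v := by
        have h1 : pull (Fermat.Agent.ES.galKum (M * q) m Sg v - v) = 0 := by
          rw [map_sub, hpull, R0.pull_gal, sub_eq_zero]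
          exact hsy
        exact sub_eq_zero.mp (pull_inj _ (VV.sub_mem (gV_mem v hv) hv) h1)
      obtain ⟨v', hv', hpv', hvv'⟩ := hI1 v hv hpv hsv
      refine ⟨pull v', pull_mem v' hv', by rw [← map_nsmul, hpv', map_zero],
        R0.dia_pull hN c1 v', ?_⟩
      rw [hgK, hpull, ← R0.pull_gal, ← map_sub, ← hvv'])
  refine ⟨r1, fun y hy c hc => ?_⟩
  have h5 := rel5 HH dl (gK Sg) (gK_mem Sg)
    (fun y _ => (diaKum_galKum (R0.HD hN) c1 Sg y).symm) Koo K0 r1 r2 r3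
    (fun y _ => S1.gal_sub_mem_Koo hSg y)
    (fun y _ => by
      have h := R2O.gal_sub_dia_mem_K0 hqM hN (Koo := Koo) (s := Sg)
        (fun y => S1.gal_sub_mem_Koo hSg y) y
      rw [hc1] at h
      exact h)
    (gK (Ph * Sg * Ph⁻¹)) (gK_mem _)
    (fun y _ => S1.gal_sub_mem_Koo hSg' y)
    (fun y _ => by
      have h := R2O.gal_sub_dia_mem_K0 hqM hN (Koo := Koo) (s := Ph * Sg * Ph⁻¹)
        (fun y => S1.gal_sub_mem_Koo hSg' y) y
      rw [hc1'] at h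
      exact h)
    (gK Ph y) (gK_mem Ph y hy)
  have e : gK (Ph * Sg * Ph⁻¹) (gK Ph y) = gK Ph (gK Sg y) := by
    rw [hgK, ← galKum_mul, inv_mul_cancel_right, galKum_mul]
  rw [e, ← hc] at h5
  exact sub_eq_zero.mp h5

end

end Fermat.Agent.S43.T.L45
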