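import Fermat.Agent.S43.T.L8Abs
import Fermat.Agent.S43.T.L8X
import Fermat.Agent.S43.T.Dia
import Fermat.Agent.S43.Ctl.Inst

/-!
# S43 / T / L8 : leaf (L8) of the tower block, concrete form (= field `lift` of `T.IsRel`)

Data: `HH = Ctl.HH (TD.GH C) ⟨·⟩ (Th.K0 ..)`, `dl = ⟨c1⟩`, `pull = R0.pull`, `VV = Fin.Vth (M q) (p ^ (e + 1))`.

* `bij_c1`  : `(i, h) ↦ c1 ^ i * h` is a bijection `Fin (p ^ e) × GH → (ℤ / M q)ˣ` (hypothesis `hbij` of all `Ctl.Hyp` lemmas);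
* `ND_eq_sum` : `Ctl.ND c1 n ⟨·⟩ y = ∑_{i < n} dl^[i] y`;
* `ctl_hyp` : the control package for a `Fin.Ctx`;
* `l8` : (L8).
-/

set_option autoImplicit false

open AlgebraicCurve ModularCurve

namespace Fermat.Agent.S43.T.L8

open Fermat.Agent.S48 Fermat.Agent.S48.B1
open Fermat.Agent.ES (Qb GQ)

/-- abstract: a bijection `Fin n × ker χ → G`. -/
theorem bij_abs {G G' : Type*} [CommGroup G] [CommGroup G'] (χ : G →* G') (c : G) (n : ℕ)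
    (hn : orderOf (χ c) = n) (hn0 : 0 < n)
    (hgen : ∀ d : G, ∃ i : ℕ, ∃ h ∈ χ.ker, d = c ^ i * h) :
    Function.Bijective (fun P : Fin n × χ.ker => c ^ (P.1 : ℕ) * (P.2 : G)) := by
  constructor
  · rintro ⟨i, h⟩ ⟨j, h'⟩ hij
    have hij' : c ^ (i : ℕ) * (h : G) = c ^ (j : ℕ) * (h' : G) := hij
    have h1 := congrArg χ hij'
    rw [map_mul, map_mul, map_pow, map_pow, MonoidHom.mem_ker.1 h.2, MonoidHom.mem_ker.1 h'.2,
      mul_one, mul_one] at h1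
    have h2 : (i : ℕ) = j :=
      pow_injOn_Iio_orderOf (by rw [hn]; exact i.2) (by rw [hn]; exact j.2) h1
    have h3 : i = j := Fin.ext h2
    subst h3
    have h4 : (h : G) = h' := mul_left_cancel hij'
    rw [Subtype.ext h4]
  · intro d
    obtain ⟨i, h, hh, rfl⟩ := hgen d
    have hk : c ^ (n * (i / n)) ∈ χ.ker := by
      rw [MonoidHom.mem_ker, map_pow, pow_mul, ← hn, pow_orderOf_eq_one, one_pow]
    refine ⟨(⟨i % n, Nat.mod_lt _ hn0⟩, ⟨c ^ (n * (i / n)) * h, χ.ker.mul_mem hk hh⟩), ?_⟩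
    change c ^ (i % n) * (c ^ (n * (i / n)) * h) = c ^ i * h
    rw [← mul_assoc, ← pow_add, Nat.mod_add_div]

variable {M q p : ℕ} [NeZero M] [NeZero q] (C : Fin.Ctx M q p)

/-- `hbij` of the `Ctl.Hyp` lemmas, for `d = c1`, `n = p ^ e`, `GH = TD.GH C`. -/
theorem bij_c1 (he : 1 ≤ C.e) :
    Function.Bijective
      (fun P : Fin (p ^ C.e) × TD.GH C => TD.c1 C ^ (P.1 : ℕ) * (P.2 : (ZMod (M * q))ˣ)) :=
  bij_abs (Free.chi M q (TD.kk C)) (TD.c1 C) (p ^ C.e) (TD.orderOf_chi_c1 C)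
    (pow_pos C.hp.pos _) (TD.exists_pow_mul C he)

theorem hNS : ∀ r : ℕ, r.Prime → r ∣ M * q → r ∈ C.S := by
  intro r hr hd
  rcases (Nat.Prime.dvd_mul hr).1 hd with h | h
  · exact C.hMS r hr h
  · rw [(Nat.prime_dvd_prime_iff_eq hr C.hq).1 h]
    exact C.hqS

include C in
theorem not_dvd_level : ¬ p ∣ M * q := by
  intro h
  rcases (Nat.Prime.dvd_mul C.hp).1 h with h | h
  · exact C.hpM h
  · exact C.hqp ((Nat.prime_dvd_prime_iff_eq C.hp C.hq).1 h).symm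

variable (hN : 5 ≤ M * q)

/-- the control package for a `Fin.Ctx`, at every exponent `p ^ k`. -/
theorem ctl_hyp (k : ℕ) (hNS' : ∀ r : ℕ, r.Prime → r ∣ M * q → r ∈ C.S) :
    Ctl.Hyp (k := Qb) (Th.eKK hN C.hp k)
      (Fermat.Agent.S15.W.e1NHom (N := M * q) (pow_pos C.hp.pos k).ne')
      (fun d : (ZMod (M * q))ˣ => diaKum (R0.HD hN) (p ^ k) d) (R0.pull hN (p ^ k))
      (R0.push hN (p ^ k)) (Th.K0 hN C.hp k hNS' C.a) (Fin.Vth (M * q) (p ^ k) C.S C.a) 2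
      ((p ^ k + 1) / 2) :=
  CtlI.hyp hN C.hp k hNS' C.hpS C.a C.hp5 (not_dvd_level C) (by
    obtain ⟨ℓ, hℓ, hℓS, h⟩ := C.hnE
    refine ⟨⟨ℓ, hℓ, hℓS⟩, fun hd => h ?_⟩
    have e : C.W.apOfModel ℓ - (ℓ : ℤ) - 1 = C.a ℓ - ((ℓ : ℤ) + 1) := by
      unfold Fin.Ctx.a
      ring
    rw [e]
    exact hd)

theorem dia_pow_eq_iterate (m : ℕ) (c : (ZMod (M * q))ˣ) (i : ℕ) (y : Kum Qb (X1.F1Q (M * q)).F m) :
    diaKum (R0.HD hN) m (c ^ i) y = (diaKum (R0.HD hN) m c)^[i] y := by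
  induction i generalizing y with
  | zero => rw [pow_zero, TD.diaKum_one']; rfl
  | succ i ih => rw [pow_succ, TD.diaKum_mul', ih, Function.iterate_succ_apply]

theorem ND_eq_sum (m : ℕ) (c : (ZMod (M * q))ˣ) (n : ℕ) (y : Kum Qb (X1.F1Q (M * q)).F m) :
    Ctl.ND c n (fun d => diaKum (R0.HD hN) m d) y
      = ∑ i ∈ Finset.range n, (diaKum (R0.HD hN) m c)^[i] y := by
  rw [Ctl.ND_apply]
  exact Finset.sum_congr rfl fun i _ => dia_pow_eq_iterate hN m c i y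

/-- `HH` is stable under the diamonds. -/
theorem dia_mem_HH (k : ℕ) [Fintype (TD.GH C)]
    (hNS' : ∀ r : ℕ, r.Prime → r ∣ M * q → r ∈ C.S) (c : (ZMod (M * q))ˣ)
    {y : Kum Qb (X1.F1Q (M * q)).F (p ^ k)}
    (hy : y ∈ Ctl.HH (TD.GH C) (fun d => diaKum (R0.HD hN) (p ^ k) d)
      (Th.K0 hN C.hp k hNS' C.a)) :
    diaKum (R0.HD hN) (p ^ k) c y ∈ Ctl.HH (TD.GH C) (fun d => diaKum (R0.HD hN) (p ^ k) d)
      (Th.K0 hN C.hp k hNS' C.a) := by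
  obtain ⟨z, hz, rfl⟩ := hy
  refine ⟨diaKum (R0.HD hN) (p ^ k) c z, Th.dia_mem_K0 hN C.hp k hNS' C.a c hz, ?_⟩
  rw [Ctl.NH_apply, Ctl.NH_apply, map_sum]
  refine Finset.sum_congr rfl fun h _ => ?_
  rw [← TD.diaKum_mul', ← TD.diaKum_mul', mul_comm (h : (ZMod (M * q))ˣ) c]

/-- **(L8)** = field `lift` of `T.IsRel`, verbatim. -/
theorem l8 (he : 1 ≤ C.e) [Fintype (TD.GH C)]
    (hNS' : ∀ r : ℕ, r.Prime → r ∣ M * q → r ∈ C.S) :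
    ∀ v ∈ Fin.Vth (M * q) (p ^ (C.e + 1)) C.S C.a, p ^ C.e • v = 0 →
      ∃ u ∈ Ctl.HH (TD.GH C) (fun d => diaKum (R0.HD hN) (p ^ (C.e + 1)) d)
        (Th.K0 hN C.hp (C.e + 1) hNS' C.a),
      ∀ u1 u2 u3, u1 = diaKum (R0.HD hN) (p ^ (C.e + 1)) (TD.c1 C) u - u →
        u2 = diaKum (R0.HD hN) (p ^ (C.e + 1)) (TD.c1 C) u1 - u1 →
        u3 = diaKum (R0.HD hN) (p ^ (C.e + 1)) (TD.c1 C) u2 - u2 →
        diaKum (R0.HD hN) (p ^ (C.e + 1)) (TD.c1 C) u3 - u3 = R0.pull hN (p ^ (C.e + 1)) v := by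
  intro v hv h0
  obtain ⟨v0, hv0, rfl⟩ := div_p hNS' C.hp C.e hv h0
  obtain ⟨y, hy, hy'⟩ := (ctl_hyp C hN (C.e + 1) hNS').pull_eq_ND (bij_c1 C he) v0 hv0
  rw [ND_eq_sum] at hy'
  obtain ⟨u, hu, hu'⟩ := lift_abs C.hp C.hp5 C.e (diaKum (R0.HD hN) (p ^ (C.e + 1)) (TD.c1 C))
    (fun z => diaKum (R0.HD hN) (p ^ (C.e + 1)) (TD.c1 C) z - z) (fun _ => rfl)
    (Ctl.HH (TD.GH C) (fun d => diaKum (R0.HD hN) (p ^ (C.e + 1)) d)
      (Th.K0 hN C.hp (C.e + 1) hNS' C.a))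
    (fun z hz => dia_mem_HH C hN (C.e + 1) hNS' _ hz) y hy (Th.killed_KK (C.e + 1) y)
  refine ⟨u, hu, ?_⟩
  rintro u1 u2 u3 rfl rfl rfl
  rw [map_nsmul, ← hy']
  exact hu'

end Fermat.Agent.S43.T.L8
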