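import Mathlib

/-!
# S43 / T / Lift : the abstract core of (L8)  (Mathlib only)

`dl` an additive endomorphism of `G`, `HH ≤ G` a `dl`-stable subgroup killed by `p ^ (e + 1)`, `p ≥ 5` prime, `W x = dl x - x`.
Then `p • ∑_{i < p ^ e} dl ^ i y ∈ W ^ 4 HH` for all `y ∈ HH`:

`∑_{i < n} (1 + w) ^ i = n + C(n,2) w + C(n,3) w ^ 2 + C(n,4) w ^ 3 + w ^ 4 E`, and `n = p ^ e` divides `C(n,k)` for `0 < k < p`.
-/

set_option autoImplicit false

namespace Fermat.Agent.S43.TLift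

open Finset Polynomial

theorem pow_expand {R : Type*} [CommRing R] (w : R) (n : ℕ) :
    ∃ F : R, (1 + w) ^ n
      = 1 + (n : R) * w + (n.choose 2 : R) * w ^ 2 + (n.choose 3 : R) * w ^ 3 + w ^ 4 * F := by
  induction n with
  | zero => exact ⟨0, by simp⟩
  | succ n ih =>
    obtain ⟨F, hF⟩ := ih
    refine ⟨(n.choose 3 : R) + F + w * F, ?_⟩
    have h2 : (((n + 1).choose 2 : ℕ) : R) = (n : R) + (n.choose 2 : R) := by
      rw [Nat.choose_succ_succ' n 1, Nat.choose_one_right]; push_cast; ring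
    have h3 : (((n + 1).choose 3 : ℕ) : R) = (n.choose 2 : R) + (n.choose 3 : R) := by
      rw [Nat.choose_succ_succ' n 2]; push_cast; ring
    rw [pow_succ, hF, h2, h3]
    push_cast
    ring

theorem geom_expand {R : Type*} [CommRing R] (w : R) (n : ℕ) :
    ∃ E : R, ∑ i ∈ range n, (1 + w) ^ i
      = (n : R) + (n.choose 2 : R) * w + (n.choose 3 : R) * w ^ 2 + (n.choose 4 : R) * w ^ 3
        + w ^ 4 * E := by
  induction n with
  | zero => exact ⟨0, by simp⟩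
  | succ n ih =>
    obtain ⟨E, hE⟩ := ih
    obtain ⟨F, hF⟩ := pow_expand w n
    refine ⟨E + F, ?_⟩
    have h2 : (((n + 1).choose 2 : ℕ) : R) = (n : R) + (n.choose 2 : R) := by
      rw [Nat.choose_succ_succ' n 1, Nat.choose_one_right]; push_cast; ring
    have h3 : (((n + 1).choose 3 : ℕ) : R) = (n.choose 2 : R) + (n.choose 3 : R) := by
      rw [Nat.choose_succ_succ' n 2]; push_cast; ring
    have h4 : (((n + 1).choose 4 : ℕ) : R) = (n.choose 3 : R) + (n.choose 4 : R) := by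
      rw [Nat.choose_succ_succ' n 3]; push_cast; ring
    rw [sum_range_succ, hE, hF, h2, h3, h4]
    push_cast
    ring

/-- `p ^ e ∣ C(p ^ e, k)` for `0 < k < p`. -/
theorem pow_dvd_choose {p e k : ℕ} (hp : p.Prime) (hk0 : 0 < k) (hk : k < p) :
    p ^ e ∣ (p ^ e).choose k := by
  obtain ⟨n', hn'⟩ : ∃ n', p ^ e = n' + 1 := ⟨p ^ e - 1, by have := pow_pos hp.pos e; omega⟩
  obtain ⟨k', rfl⟩ : ∃ k', k = k' + 1 := ⟨k - 1, by omega⟩
  have h1 := Nat.add_one_mul_choose_eq n' k'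
  have hcop : Nat.Coprime (p ^ e) (k' + 1) :=
    Nat.Coprime.pow_left e ((Nat.Prime.coprime_iff_not_dvd hp).2
      (fun h => absurd (Nat.le_of_dvd (by omega) h) (by omega)))
  have h2 : p ^ e ∣ (p ^ e).choose (k' + 1) * (k' + 1) := by
    rw [hn', ← h1]
    exact dvd_mul_right _ _
  exact hcop.dvd_of_dvd_mul_right h2

variable {G : Type*} [AddCommGroup G]

/-- a polynomial in `dl` preserves a `dl`-stable subgroup. -/
theorem aeval_mem (D : Module.End ℤ G) (HH : AddSubgroup G) (hD : ∀ y ∈ HH, D y ∈ HH)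
    (P : ℤ[X]) : ∀ y ∈ HH, aeval D P y ∈ HH := by
  induction P using Polynomial.induction_on with
  | C a =>
    intro y hy
    rw [aeval_C, Module.algebraMap_end_apply]
    exact HH.zsmul_mem hy a
  | add P Q hP hQ =>
    intro y hy
    rw [map_add, LinearMap.add_apply]
    exact HH.add_mem (hP y hy) (hQ y hy)
  | monomial n a ih =>
    intro y hy
    rw [pow_succ, ← mul_assoc, map_mul, aeval_X, Module.End.mul_apply]
    exact ih (D y) (hD y hy)

/-- **the abstract core of (L8)**, `Module.End` form. -/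
theorem lift_end (D : Module.End ℤ G) (HH : AddSubgroup G) (hD : ∀ y ∈ HH, D y ∈ HH)
    {p e : ℕ} (hp : p.Prime) (hp5 : 5 ≤ p) (hm : ∀ y ∈ HH, p ^ (e + 1) • y = 0)
    {y : G} (hy : y ∈ HH) :
    ∃ u ∈ HH, ((D - 1 : Module.End ℤ G) ^ 4) u = p • ∑ i ∈ range (p ^ e), (D ^ i) y := by
  obtain ⟨E, hE⟩ := geom_expand (X - 1 : ℤ[X]) (p ^ e)
  have hX : (1 : ℤ[X]) + (X - 1) = X := by ring
  rw [hX] at hE
  have h1 := congrArg (fun P : ℤ[X] => aeval D P y) hE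
  simp only [map_sum, map_add, map_mul, map_pow, map_sub, map_one, aeval_X, map_natCast,
    LinearMap.add_apply, LinearMap.sum_apply, Module.End.mul_apply] at h1
  have hW : ∀ z ∈ HH, (D - 1) z ∈ HH := fun z hz => by
    rw [LinearMap.sub_apply, Module.End.one_apply]
    exact HH.sub_mem (hD z hz) hz
  have hWk : ∀ k : ℕ, ((D - 1) ^ k) y ∈ HH := by
    intro k
    induction k with
    | zero => simpa using hy
    | succ k ih =>
      rw [pow_succ', Module.End.mul_apply]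
      exact hW _ ih
  have hkill : ∀ c : ℕ, p ^ e ∣ c → ∀ z ∈ HH, p • ((c : Module.End ℤ G) z) = 0 := by
    rintro _ ⟨c, rfl⟩ z hz
    rw [Module.End.natCast_apply, smul_smul, ← mul_assoc, ← pow_succ', mul_smul, smul_comm,
      hm z hz, smul_zero]
  refine ⟨p • aeval D E y, HH.nsmul_mem (aeval_mem D HH hD E y hy) p, ?_⟩
  rw [h1, map_nsmul]
  simp only [smul_add]
  rw [hkill _ dvd_rfl y hy, hkill _ (pow_dvd_choose hp (by norm_num) (by omega)) _ (hW y hy),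
    hkill _ (pow_dvd_choose hp (by norm_num) (by omega)) _ (hWk 2),
    hkill _ (pow_dvd_choose hp (by norm_num) (by omega)) _ (hWk 3)]
  simp

/-- **the abstract core of (L8)**, elementwise form: `f i = dl ^ i (f 0)`. -/
theorem lift_fam' (dl : G →+ G) (HH : AddSubgroup G) (hdl : ∀ y ∈ HH, dl y ∈ HH)
    {p e : ℕ} (hp : p.Prime) (hp5 : 5 ≤ p) (hm : ∀ y ∈ HH, p ^ (e + 1) • y = 0)
    (f : ℕ → G) (hf0 : f 0 ∈ HH) (hf : ∀ i, f (i + 1) = dl (f i)) :
    ∃ u ∈ HH, ∃ u₁ u₂ u₃ : G, u₁ = dl u - u ∧ u₂ = dl u₁ - u₁ ∧ u₃ = dl u₂ - u₂ ∧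
      dl u₃ - u₃ = p • ∑ i ∈ range (p ^ e), f i := by
  obtain ⟨u, hu, h⟩ := lift_end dl.toIntLinearMap HH hdl hp hp5 hm hf0
  have hfi : ∀ i, (dl.toIntLinearMap ^ i) (f 0) = f i := by
    intro i
    induction i with
    | zero => simp
    | succ i ih =>
      rw [pow_succ', Module.End.mul_apply, ih, hf]
      rfl
  simp only [hfi] at h
  refine ⟨u, hu, _, _, _, rfl, rfl, rfl, ?_⟩
  rw [← h]
  simp only [Module.End.pow_apply, Function.iterate_succ, Function.iterate_zero, Function.comp,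
    id, LinearMap.sub_apply, Module.End.one_apply, AddMonoidHom.coe_toIntLinearMap]

/-- the same with `W = dl - id`. -/
theorem lift_fam (dl : G →+ G) (HH : AddSubgroup G) (hdl : ∀ y ∈ HH, dl y ∈ HH)
    {p e : ℕ} (hp : p.Prime) (hp5 : 5 ≤ p) (hm : ∀ y ∈ HH, p ^ (e + 1) • y = 0)
    (f : ℕ → G) (hf0 : f 0 ∈ HH) (hf : ∀ i, f (i + 1) = dl (f i)) :
    ∃ u ∈ HH, (dl - AddMonoidHom.id G) ((dl - AddMonoidHom.id G) ((dl - AddMonoidHom.id G)
      ((dl - AddMonoidHom.id G) u))) = p • ∑ i ∈ range (p ^ e), f i := by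
  obtain ⟨u, hu, u₁, u₂, u₃, rfl, rfl, rfl, h⟩ := lift_fam' dl HH hdl hp hp5 hm f hf0 hf
  exact ⟨u, hu, h⟩

/-- iterate form. -/
theorem lift_iterate (dl : G →+ G) (HH : AddSubgroup G) (hdl : ∀ y ∈ HH, dl y ∈ HH)
    {p e : ℕ} (hp : p.Prime) (hp5 : 5 ≤ p) (hm : ∀ y ∈ HH, p ^ (e + 1) • y = 0)
    {y : G} (hy : y ∈ HH) :
    ∃ u ∈ HH, ∃ u₁ u₂ u₃ : G, u₁ = dl u - u ∧ u₂ = dl u₁ - u₁ ∧ u₃ = dl u₂ - u₂ ∧
      dl u₃ - u₃ = p • ∑ i ∈ range (p ^ e), dl^[i] y :=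
  lift_fam' dl HH hdl hp hp5 hm (fun i => dl^[i] y) hy
    (fun i => Function.iterate_succ_apply' dl i y)

/-- **(L8), relative form**: `v = p • v₀`, `pull v₀ = ∑_{i < p ^ e} f i`. -/
theorem lift_pull {V : Type*} [AddCommGroup V] (pull : V →+ G) (dl : G →+ G) (HH : AddSubgroup G)
    (hdl : ∀ y ∈ HH, dl y ∈ HH) {p e : ℕ} (hp : p.Prime) (hp5 : 5 ≤ p)
    (hm : ∀ y ∈ HH, p ^ (e + 1) • y = 0) {v v₀ : V} (hv : v = p • v₀)
    (f : ℕ → G) (hf0 : f 0 ∈ HH) (hf : ∀ i, f (i + 1) = dl (f i))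
    (hpull : pull v₀ = ∑ i ∈ range (p ^ e), f i) :
    ∃ u ∈ HH, ∃ u₁ u₂ u₃ : G, u₁ = dl u - u ∧ u₂ = dl u₁ - u₁ ∧ u₃ = dl u₂ - u₂ ∧
      dl u₃ - u₃ = pull v := by
  rw [hv, map_nsmul, hpull]
  exact lift_fam' dl HH hdl hp hp5 hm f hf0 hf

end Fermat.Agent.S43.TLift
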