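import Fermat.Agent.S43.T.Rel
import Fermat.Agent.S43.T.L6
import Fermat.Agent.S43.T.L7
import Fermat.Agent.S43.T.L8Abs
import Fermat.Agent.S43.T.L8X
import Fermat.Agent.S43.T.L9
import Fermat.Agent.S43.T.L10x
import Fermat.Agent.S43.T.XI1
import Fermat.Agent.S43.Soc.Rel
import Fermat.Agent.S43.D.DStar
import Fermat.Agent.S43.S1.Gen
import Fermat.Agent.S43.Tame.Rel
import Fermat.Agent.S43.Th.KK2
import Fermat.Agent.S43.EV.Fin35

/-!
# S43 / T / Main35 : **TBlock** (assembly of the concrete leaves; backup)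
-/

set_option autoImplicit false

open AlgebraicCurve ModularCurve

namespace Fermat.Agent.S43.T.M35

open Fermat.Agent.S48 Fermat.Agent.S43.R0
open Fermat.Agent.ES (Qb GQ FF)
open Fermat.Agent.SS (GP)

noncomputable section

variable {M q p : ℕ} [NeZero M] [NeZero q] (C : Fin.Ctx M q p)

/-- the `IsoHyp` instance of `C`. -/
theorem isoHyp : I.IsoHyp (M * q) (I.ctx_hNS C) C.a C.A p q C.Sg C.Ph :=
  I.isoHyp_of_kum C (I.ctx_hTor C) (fun h => I.kumF_of_ev C (EV.F35.evf C h))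

theorem hpe_int : ((p ^ C.e : ℕ) : ℤ) ∣ (q : ℤ) - 1 := by
  have h := Int.natCast_dvd_natCast.2 C.he
  rwa [Nat.cast_sub C.hq.one_lt.le, Nat.cast_one] at h

variable (hN : 5 ≤ M * q) [Fact q.Prime] [Fintype (TD.GH C)]

local notation "kc" => C.e + 1
local notation "HHc" => Ctl.HH (TD.GH C) (fun d => B1.diaKum (HD hN) (p ^ kc) d)
  (Th.K0 hN C.hp kc (T7.hNS C) C.a)
local notation "VVc" => Fin.Vth (M * q) (p ^ kc) C.S C.a
local notation "dlc" => B1.diaKum (HD hN) (p ^ kc) (TD.c1 C)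
local notation "gKc" => B1.galKum (X1.F1Q (M * q)) (p ^ kc)
local notation "gVc" => ES.galKum (M * q) (p ^ kc)
local notation "ioc" => AddEquiv.toAddMonoidHom (R2O.wK C.hqM hN (p ^ kc))
local notation "pullc" => pull hN (p ^ kc)

/-- (L4), (L5). -/
theorem l45 (he : 1 ≤ C.e) :
    (∀ y ∈ HHc, dlc (gKc C.Sg (gKc C.Sg y - dlc y) - (gKc C.Sg y - dlc y))
      = gKc C.Sg (gKc C.Sg y - dlc y) - (gKc C.Sg y - dlc y)) ∧
    (∀ y ∈ HHc, dlc (gKc C.Ph (gKc C.Sg y) - gKc C.Sg (gKc C.Ph y))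
      = gKc C.Ph (gKc C.Sg y) - gKc C.Sg (gKc C.Ph y)) := by
  haveI : Finite (B1.Kum Qb (X1.F1Q (M * q)).F (p ^ kc)) := Th.finite_KK hN C.hp kc
  haveI : Finite HHc := inferInstance
  have hp2 : p ≠ 2 := by have := C.hp5; omega
  refine Soc.rel_L45 HHc VVc (a := C.e) (K := kc) C.hp hp2 (Nat.succ_pos _)
    (fun y _ => T7.kill kc y) dlc ioc (gKc C.Sg) (gKc C.Ph) (gKc C.Ph⁻¹) (gVc C.Sg) pullc
    (fun y hy => T7.dl_mem C hN kc hy) (fun y hy => TL6.io_mem C hN kc (T7.hNS C) hy)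
    (fun y hy => T7.gal_mem C hN kc _ hy) (fun y hy => T7.gal_mem C hN kc _ hy)
    (fun y hy => T7.gal_mem C hN kc _ hy)
    (fun v hv => Th.fin_gal_mem (T7.hNS C) _ hv) (fun v hv => T7.pull_mem C hN kc he hv)
    (fun y _ => B1.diaKum_galKum _ _ _ y) (fun y _ => B1.diaKum_galKum _ _ _ y)
    (fun y _ => by rw [← B1.galKum_mul, mul_inv_cancel, B1.galKum_one])
    (fun y _ => by rw [← B1.galKum_mul, inv_mul_cancel, B1.galKum_one])
    (fun y hy => T7.dl_iterate C hN kc hy)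
    (fun y hy => T7.nd_pull C hN kc he hy) (fun v hv => T7.pull_nd C hN kc he hv)
    (fun y hy h => T7.ker_nd C hN kc he hy h) (fun v hv h => T7.pull_inj C hN kc hv h)
    (fun v _ => T7.pull_gal' hN kc _ v)
    (fun P hP h0 => TXI.div_Vth C (Nat.succ_pos _) hP h0)
    (fun P hP h0 hS => TXI.i1_Vth C (isoHyp C) (Nat.succ_pos _) hP h0 hS)
    (fun v _ => TXI.nn_Kum C (TXI.not_dvd_pow C kc) v)
    (S1.Koo (HD hN) C.A (p ^ kc)) (fun y hy => S1.diaKum_mem_Koo _ hy)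
    (fun y _ => S1.gal_sub_mem_Koo C.hSg.1 y) (fun y _ => ?_)
    (fun v hv h => DPI.ctx_dstar_Sg C hN kc hv h)
    (fun y _ => TL6.io_dl C hN _ y) (fun y _ => TL6.io_Ph C hN _ y)
    (fun y _ => TL6.io_Sg C hN _ y) (fun y _ h => TL6.io_inj C hN _ y h)
  rw [← B1.galKum_mul, ← B1.galKum_mul]
  exact S1.gal_sub_mem_Koo (Tame.conj_mem_inertia C.hPh.1 C.hSg.1) y

omit [Fact q.Prime] in
/-- (L8). -/
theorem l8 (he : 1 ≤ C.e) (v : ES.Kum (M * q) (p ^ kc)) (hv : v ∈ VVc) (h0 : p ^ C.e • v = 0) :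
    ∃ u ∈ HHc, ∀ u1 u2 u3, u1 = dlc u - u → u2 = dlc u1 - u1 → u3 = dlc u2 - u2 →
      dlc u3 - u3 = pullc v := by
  obtain ⟨v0, hv0, rfl⟩ := T.L8.div_p (T7.hNS C) C.hp C.e hv h0
  obtain ⟨y, hy, hy'⟩ := T7.pull_nd C hN kc he hv0
  obtain ⟨u, hu, h⟩ := T.L8.lift_abs C.hp C.hp5 C.e dlc (fun y => dlc y - y) (fun _ => rfl) HHc
    (fun y hy => T7.dl_mem C hN kc hy) y hy (T7.kill kc y)
  refine ⟨u, hu, ?_⟩
  rintro u1 u2 u3 rfl rfl rfl
  rw [map_nsmul, ← hy']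
  exact h

/-- the relative tower. -/
theorem isRel (hX : Fin.XBlock M q p) (he : 1 ≤ C.e) :
    T.IsRel (fun s => gKc s) (fun s => gVc s) dlc ioc (SS.wKum C.hw C.hq (p ^ kc)) pullc HHc VVc
      C.Ph C.Sg (q : ℤ) (p ^ kc) (p ^ C.e) where
  gK_one y _ := B1.galKum_one y
  gK_mul a b y _ := B1.galKum_mul a b y
  gK_mem s y hy := T7.gal_mem C hN kc s hy
  dl_mem y hy := T7.dl_mem C hN kc hy
  io_mem y hy := TL6.io_mem C hN kc (T7.hNS C) hy
  gV_mem s v hv := Th.fin_gal_mem (T7.hNS C) s hv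
  pull_mem v hv := T7.pull_mem C hN kc he hv
  kill y _ := T7.kill kc y
  cop := by
    have hpq : (p : ℤ) ∣ (q : ℤ) - 1 := (dvd_pow_self (p : ℤ) (by omega : C.e ≠ 0)).trans (hpe_int C)
    have hpr : Prime (p : ℤ) := Nat.prime_iff_prime_int.1 C.hp
    have h2 : ¬ (p : ℤ) ∣ 2 := by
      intro h
      have h' : p ∣ 2 := by exact_mod_cast h
      have := Nat.le_of_dvd (by norm_num) h'
      have := C.hp5
      omega
    have hnd : ¬ (p : ℤ) ∣ 2 * ((q : ℤ) + 1) := by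
      intro h
      rcases hpr.dvd_or_dvd h with h | h
      · exact h2 h
      · apply h2
        have := dvd_sub h hpq
        have e1 : (q : ℤ) + 1 - ((q : ℤ) - 1) = 2 := by ring
        rwa [e1] at this
    push_cast
    exact ((hpr.coprime_iff_not_dvd.2 hnd).symm).pow_right
  hpe := hpe_int C
  dl_gK s y _ := B1.diaKum_galKum _ _ _ y
  S_comm s y hy := by
    haveI : NeZero (p ^ kc) := ⟨pow_ne_zero _ C.hp.ne_zero⟩
    have h := TD.tF_comm' C hN (Nat.succ_ne_zero C.e) s (T7.mem_FixGH C hN kc hy)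
    rw [natCast_zsmul, natCast_zsmul]
    exact h
  P_comm s y hy := by
    haveI : NeZero (p ^ kc) := ⟨pow_ne_zero _ C.hp.ne_zero⟩
    have h := TD.tFS_comm C hN (Nat.succ_ne_zero C.e) s (T7.mem_FixGH C hN kc hy)
    rw [natCast_zsmul, natCast_zsmul]
    exact h
  type := (l45 C hN he).1
  comm := by
    rintro y hy c rfl
    rw [(l45 C hN he).2 y hy, sub_self, map_zero]
  io_dl y _ := TL6.io_dl C hN _ y
  io_Φ y _ := TL6.io_Ph C hN _ y
  io_Sg y _ := TL6.io_Sg C hN _ y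
  io_inj y _ h := TL6.io_inj C hN _ y h
  io_pull v _ := TL6.io_pull C hN _ v
  ker_w y hy h := T7.ker_w C hN kc he hy h
  pull_inj v hv h := T7.pull_inj C hN kc hv h
  dl_pull v _ := T7.dl_pull C hN kc v
  pull_gal s v _ := T7.pull_gal' hN kc s v
  lift := l8 C hN he
  SV v hv := T.L9.l9 hX C he v hv
  c1V v hv := T.L10x.l10 hX C he v hv

end

/-- **TBlock.** -/
theorem tBlock {M q p : ℕ} [NeZero M] [NeZero q] (hX : Fin.XBlock M q p) : Fin.TBlock M q p := by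
  classical
  intro C he
  haveI : Fact q.Prime := ⟨C.hq⟩
  have hN := TD.five_le C he
  obtain ⟨β, h1, h2, h3⟩ := (isRel C hN hX he).main C.ε
  refine ⟨β, ?_, ?_, ?_⟩
  · intro x hx y hy hx0 hy0
    exact h1 x (C.mem_J.1 hx).1 y (C.mem_J.1 hy).1 hx0 hy0
  · intro s x hx hx0
    exact h2 s x (C.mem_J.1 hx).1 hx0
  · intro z hz hz0
    exact h3 z (C.mem_J.1 hz).1 (C.mem_J.1 hz).2 hz0

/-- **TBlock**, unconditional. -/
theorem tBlock' {M q p : ℕ} [NeZero M] [NeZero q] : Fin.TBlock M q p := tBlock EV.F35.xBlock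

end Fermat.Agent.S43.T.M35
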