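import Fermat.Agent.S43.Fin.Pow
import Fermat.Agent.S43.Fin.Pow2

/-!
# S43 / T / Transport : (TR) at exponent `p ^ e`  ⟹  `C.TR` (on `Jc[p ^ e] ⊆ Kum (M q) (p ^ (e + 1))`)      (helper40)

The tower produces `β₀` on `C.J e ≤ Kum (M q) (p ^ e)` (exponent `n = p ^ e ∥ q - 1`).  The interface `Fin.Ctx.TR` wants `β` on
the `p ^ e`-torsion of `Jc = C.J (e + 1)`.  `C.pw e 1 : Kum (M q) (p ^ e) → Kum (M q) (p ^ (e + 1))` identifies the two.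

* `Ctx.TR0` : the statement at exponent `p ^ e`;
* `Ctx.TR_of_TR0 : C.TR0 → C.TR`.
-/

set_option autoImplicit false

open AlgebraicCurve ModularCurve

namespace Fermat.Agent.S43.Fin

open Fermat.Agent.ES Fermat.Agent.SS

namespace Ctx

variable {M q p : ℕ} [NeZero M] [NeZero q] (C : Ctx M q p)

/-- (TR) at exponent `p ^ e`: `β₀` on `C.J e`, additive, Galois equivariant, `(Φ - ε) z = β₀ ((Σ - 1) z)`. -/
def TR0 : Prop :=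
  ∃ β : Kum (M * q) (p ^ C.e) → Kum (M * q) (p ^ C.e),
    (∀ x ∈ C.J C.e, ∀ y ∈ C.J C.e, β (x + y) = β x + β y) ∧
    (∀ s : GQ, ∀ x ∈ C.J C.e, β (galKum (M * q) (p ^ C.e) s x) = galKum (M * q) (p ^ C.e) s (β x)) ∧
    (∀ z ∈ C.J C.e, galKum (M * q) (p ^ C.e) C.Ph z - C.ε • z
      = β (galKum (M * q) (p ^ C.e) C.Sg z - z))

theorem TR_of_TR0 (h : C.TR0) : C.TR := by
  classical
  obtain ⟨β₀, hadd, hG, hTR⟩ := h
  have hinj := C.pw_injective C.e 1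
  -- the inverse of `pw` on its range
  let r : Kum (M * q) (p ^ (C.e + 1)) → Kum (M * q) (p ^ C.e) := fun y =>
    if hy : ∃ z, C.pw C.e 1 z = y then hy.choose else 0
  have hr : ∀ z, r (C.pw C.e 1 z) = z := by
    intro z
    have hy : ∃ z', C.pw C.e 1 z' = C.pw C.e 1 z := ⟨z, rfl⟩
    have : r (C.pw C.e 1 z) = hy.choose := dif_pos hy
    rw [this]
    exact hinj hy.choose_spec
  refine ⟨fun y => C.pw C.e 1 (β₀ (r y)), ?_, ?_, ?_⟩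
  · intro x hx y hy hx0 hy0
    obtain ⟨x₀, hx₀, rfl⟩ := C.exists_pw_of_mem_J C.e 1 hx hx0
    obtain ⟨y₀, hy₀, rfl⟩ := C.exists_pw_of_mem_J C.e 1 hy hy0
    show C.pw C.e 1 (β₀ (r (C.pw C.e 1 x₀ + C.pw C.e 1 y₀)))
      = C.pw C.e 1 (β₀ (r (C.pw C.e 1 x₀))) + C.pw C.e 1 (β₀ (r (C.pw C.e 1 y₀)))
    rw [← map_add, hr, hr, hr, hadd x₀ hx₀ y₀ hy₀, map_add]
  · intro s x hx hx0
    obtain ⟨x₀, hx₀, rfl⟩ := C.exists_pw_of_mem_J C.e 1 hx hx0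
    show C.pw C.e 1 (β₀ (r (galKum (M * q) (p ^ (C.e + 1)) s (C.pw C.e 1 x₀))))
      = galKum (M * q) (p ^ (C.e + 1)) s (C.pw C.e 1 (β₀ (r (C.pw C.e 1 x₀))))
    rw [← C.pw_gal, hr, hr, hG s x₀ hx₀, C.pw_gal]
  · intro z hz hz0
    obtain ⟨z₀, hz₀, rfl⟩ := C.exists_pw_of_mem_J C.e 1 hz hz0
    show galKum (M * q) (p ^ (C.e + 1)) C.Ph (C.pw C.e 1 z₀) - C.ε • C.pw C.e 1 z₀
      = C.pw C.e 1 (β₀ (r (galKum (M * q) (p ^ (C.e + 1)) C.Sg (C.pw C.e 1 z₀) - C.pw C.e 1 z₀)))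
    rw [← C.pw_gal, ← C.pw_gal, ← map_sub, hr, ← hTR z₀ hz₀, map_sub, map_zsmul]

end Ctx

end Fermat.Agent.S43.Fin
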