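import Fermat.Agent.S43.Fin.Defs
import Fermat.Agent.S43.I.Vth

/-!
# S43 / T / VthBridge : the two definitions of the `θ`-part agree

`Fin.Vth N m S a` (interface of the coordinator, `Fin/Defs.lean`) `= I.Vth N m hNS a` (`I/Vth.lean`).
-/

set_option autoImplicit false

open AlgebraicCurve ModularCurve

namespace Fermat.Agent.S43.T

open Fermat.Agent.ES Fermat.Agent.SS

theorem hk_eq_TT {N m : ℕ} [NeZero N] {S : Finset ℕ}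
    (hNS : ∀ r : ℕ, r.Prime → r ∣ N → r ∈ S) (a : ℕ → ℤ) (ℓ : GP S) [NeZero ℓ.1]
    (hℓN : ¬ ℓ.1 ∣ N) (x : Kum N m) :
    Fin.hk N m a ℓ.1 ℓ.2.1 hℓN x = I.TT N m hNS a ℓ x := by
  rw [Fin.hk_apply, I.TT_apply, heckeT_apply]
  rfl

theorem hk_iterate_eq_TT_pow {N m : ℕ} [NeZero N] {S : Finset ℕ}
    (hNS : ∀ r : ℕ, r.Prime → r ∣ N → r ∈ S) (a : ℕ → ℤ) (ℓ : GP S) [NeZero ℓ.1]
    (hℓN : ¬ ℓ.1 ∣ N) (n : ℕ) (x : Kum N m) :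
    (Fin.hk N m a ℓ.1 ℓ.2.1 hℓN)^[n] x = (I.TT N m hNS a ℓ ^ n) x := by
  induction n generalizing x with
  | zero => rfl
  | succ n ih =>
    rw [Function.iterate_succ_apply, ih, pow_succ, Module.End.mul_apply, hk_eq_TT hNS]

/-- **the two `θ`-parts agree.** -/
theorem mem_finVth_iff {N m : ℕ} [NeZero N] {S : Finset ℕ}
    (hNS : ∀ r : ℕ, r.Prime → r ∣ N → r ∈ S) (a : ℕ → ℤ) (x : Kum N m) :
    x ∈ Fin.Vth N m S a ↔ x ∈ I.Vth N m hNS a := by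
  rw [Fin.mem_Vth, I.mem_Vth]
  constructor
  · intro h ℓ
    have : NeZero ℓ.1 := ⟨ℓ.2.1.ne_zero⟩
    have hℓN : ¬ ℓ.1 ∣ N := fun h => ℓ.2.2 (hNS ℓ.1 ℓ.2.1 h)
    obtain ⟨n, hn⟩ := h ℓ.1 ℓ.2.1 hℓN ℓ.2.2
    exact ⟨n, by rw [← hk_iterate_eq_TT_pow hNS a ℓ hℓN, hn]⟩
  · intro h ℓ _ hℓ hℓN hS
    obtain ⟨n, hn⟩ := h ⟨ℓ, hℓ, hS⟩
    refine ⟨n, ?_⟩
    have := hk_iterate_eq_TT_pow hNS a (⟨ℓ, hℓ, hS⟩ : GP S) hℓN n x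
    rw [hn] at this
    exact this

theorem finVth_eq {N m : ℕ} [NeZero N] {S : Finset ℕ}
    (hNS : ∀ r : ℕ, r.Prime → r ∣ N → r ∈ S) (a : ℕ → ℤ) :
    Fin.Vth N m S a = I.Vth N m hNS a :=
  AddSubgroup.ext fun x => mem_finVth_iff hNS a x

end Fermat.Agent.S43.T
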